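import Fermat.Agent.Corollaries.HW.Irred

/-!
# Elementary criteria for the irreducibility of `W[p]`

Let `ℓ ≠ p` be a good prime of `W` and `a_ℓ = ℓ + 1 - #W(𝔽_ℓ)`. A Galois stable line of `W[p]` gives
an eigenvalue in `𝔽_p` of the Frobenius at `ℓ`, hence a root of `X² - a_ℓ X + ℓ` modulo `p`. If
moreover `W` is semistable and `p` is odd, then `p ∣ #W(𝔽_ℓ)` (`Cor.HW.dvd_of_reducible`).
-/

set_option autoImplicit false

noncomputable section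

namespace Fermat.Agent.Cor.InvGal

open WeierstrassCurve WeierstrassCurve.Affine Fermat.Agent.Tate Fermat.Agent.ECFrob
open Fermat.Agent.FlatP Fermat.Agent.TW Fermat.Agent.GalW Fermat.Agent.Classic
open scoped WeierstrassCurve.Affine Matrix

variable {W : WeierstrassCurve ℤ}

/-- If `W[p]` is reducible, `X² - a_ℓ X + ℓ` has a root modulo `p` for every good prime `ℓ ≠ p`. -/
theorem exists_root_of_reducible (hΔ : W.Δ ≠ 0) {p : ℕ} (hp : p.Prime)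
    (hred : ¬ W.ModRepIsIrreducible p) {ℓ : ℕ} (hℓ : ℓ.Prime) (hgood : W.IsGoodPrimeFor ℓ)
    (hne : ℓ ≠ p) : ∃ t : ZMod p, t ^ 2 - (W.apOfModel ℓ : ZMod p) * t + (ℓ : ZMod p) = 0 := by
  have : Fact p.Prime := ⟨hp⟩
  rw [noInvLine_range_iff p hΔ] at hred
  unfold NoInvLine at hred
  push Not at hred
  obtain ⟨v, hv, hstab⟩ := hred
  obtain ⟨A, hA, σ, hσ⟩ := Frob.exists_frobenius ℓ hℓ
  obtain ⟨t, ht⟩ := hstab (repP p hΔ σ) ⟨σ, rfl⟩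
  have h1 := Cor.HW.det_eq_of_eigen hv ht
  have h2 : (mr hΔ p σ).trace = (W.apOfModel ℓ : ZMod p) :=
    trace_repP_frobenius hΔ hℓ hgood hne hA hσ
  have h3 : (mr hΔ p σ).det = (ℓ : ZMod p) := det_repP_frobenius hΔ hℓ hgood hne hA hσ
  refine ⟨t, ?_⟩
  have h4 : (mr hΔ p σ).det = t * ((mr hΔ p σ).trace - t) := h1
  rw [h2, h3] at h4
  linear_combination h4

/-- **If `X² - a_ℓ X + ℓ` has no root modulo `p` for one good prime `ℓ ≠ p`, then `W[p]` is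
irreducible** (`p = 2` included, no hypothesis on the bad primes). -/
theorem irreducible_of_noroot (hΔ : W.Δ ≠ 0) {p : ℕ} (hp : p.Prime) {ℓ : ℕ} (hℓ : ℓ.Prime)
    (hgood : W.IsGoodPrimeFor ℓ) (hne : ℓ ≠ p)
    (h : ∀ t : ZMod p, t ^ 2 - (W.apOfModel ℓ : ZMod p) * t + (ℓ : ZMod p) ≠ 0) :
    W.ModRepIsIrreducible p := by
  by_contra hred
  obtain ⟨t, ht⟩ := exists_root_of_reducible hΔ hp hred hℓ hgood hne
  exact h t ht

/-- **If `a_ℓ² - 4ℓ` is not a square modulo `p` for one good prime `ℓ ≠ p`, then `W[p]` is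
irreducible** (for `p = 2` the hypothesis is empty). -/
theorem irreducible_of_nonresidue (hΔ : W.Δ ≠ 0) {p : ℕ} (hp : p.Prime) {ℓ : ℕ} (hℓ : ℓ.Prime)
    (hgood : W.IsGoodPrimeFor ℓ) (hne : ℓ ≠ p)
    (h : ¬ IsSquare ((W.apOfModel ℓ ^ 2 - 4 * ℓ : ℤ) : ZMod p)) : W.ModRepIsIrreducible p := by
  by_contra hred
  obtain ⟨t, ht⟩ := exists_root_of_reducible hΔ hp hred hℓ hgood hne
  refine h ⟨2 * t - (W.apOfModel ℓ : ZMod p), ?_⟩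
  push_cast
  linear_combination (-4 : ZMod p) * ht

/-- **Semistable curves: if an odd prime `p` divides `ℓ + 1 - a_ℓ = #W(𝔽_ℓ)` for no good prime
`ℓ ≠ p` of a list, then `W[p]` is irreducible** (one good prime suffices). -/
theorem irreducible_of_not_dvd (hΔ : W.Δ ≠ 0) (hW : W.IsSemistableModel) {p : ℕ} (hp : p.Prime)
    (hp2 : p ≠ 2) {ℓ : ℕ} (hℓ : ℓ.Prime) (hgood : W.IsGoodPrimeFor ℓ) (hne : ℓ ≠ p)
    (h : ¬ (p : ℤ) ∣ (ℓ : ℤ) + 1 - W.apOfModel ℓ) : W.ModRepIsIrreducible p := by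
  by_contra hred
  exact h (Cor.HW.dvd_of_reducible hΔ hW hp hp2 hred hℓ hgood hne)

/-- **Semistable curves: if `#W(𝔽_ℓ₁)` and `#W(𝔽_ℓ₂)` are coprime, `ℓ₁ ≠ ℓ₂` good, then `W[p]` is
irreducible for every odd prime `p ≠ ℓ₁, ℓ₂`.** -/
theorem irreducible_of_coprime (hΔ : W.Δ ≠ 0) (hW : W.IsSemistableModel) {p : ℕ} (hp : p.Prime)
    (hp2 : p ≠ 2) {ℓ₁ ℓ₂ : ℕ} (hℓ₁ : ℓ₁.Prime) (hgood₁ : W.IsGoodPrimeFor ℓ₁) (hne₁ : ℓ₁ ≠ p)
    (hℓ₂ : ℓ₂.Prime) (hgood₂ : W.IsGoodPrimeFor ℓ₂) (hne₂ : ℓ₂ ≠ p)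
    (h : IsCoprime ((ℓ₁ : ℤ) + 1 - W.apOfModel ℓ₁) ((ℓ₂ : ℤ) + 1 - W.apOfModel ℓ₂)) :
    W.ModRepIsIrreducible p := by
  by_contra hred
  have h1 := Cor.HW.dvd_of_reducible hΔ hW hp hp2 hred hℓ₁ hgood₁ hne₁
  have h2 := Cor.HW.dvd_of_reducible hΔ hW hp hp2 hred hℓ₂ hgood₂ hne₂
  obtain ⟨u, v, huv⟩ := h
  have h3 : (p : ℤ) ∣ 1 := huv ▸ dvd_add (Dvd.dvd.mul_left h1 u) (Dvd.dvd.mul_left h2 v)
  have h4 := Int.natAbs_dvd_natAbs.mpr h3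
  simp only [Int.natAbs_natCast, Int.natAbs_one, Nat.dvd_one] at h4
  exact hp.one_lt.ne' h4

end Fermat.Agent.Cor.InvGal
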