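import Fermat.Agent.Corollaries.InvGal.Eis
import Fermat.Agent.LTF.Chain.Two3

/-!
# The elliptic curve `37a`: `y² + y = x³ - x`

Discriminant `37`, `c₄ = 48`: a semistable model with the only bad prime `37` and
`v_37(Δ) = 1`. Points: `#W(𝔽_2) = 5`, `#W(𝔽_3) = 7`. Hence `W[p]` is irreducible for **every** prime
`p`: for `p = 2` (Frobenius at `3`) and `p = 3` (Frobenius at `2`) because the characteristic
polynomials `X² + 3X + 3` mod `2`, `X² + 2X + 2` mod `3` have no root; for `p ≥ 5` because `5` and `7`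
are coprime.
-/

set_option autoImplicit false

namespace Fermat.Agent.Cor.InvGal

open WeierstrassCurve WeierstrassCurve.Affine

/-! ### Counting points modulo `ℓ` -/

/-- the number of affine points of the reduction modulo `ℓ` -/
def cnt (W : WeierstrassCurve ℤ) (ℓ : ℕ) [NeZero ℓ] : ℕ :=
  (Finset.univ.filter fun p : ZMod ℓ × ZMod ℓ =>
    p.2 ^ 2 + (W.a₁ : ZMod ℓ) * p.1 * p.2 + (W.a₃ : ZMod ℓ) * p.2 =
      p.1 ^ 3 + (W.a₂ : ZMod ℓ) * p.1 ^ 2 + (W.a₄ : ZMod ℓ) * p.1 + (W.a₆ : ZMod ℓ)).card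

theorem card_reductionMod (W : WeierstrassCurve ℤ) {ℓ : ℕ} [NeZero ℓ] (hℓ : ℓ.Prime)
    (hgood : W.IsGoodPrimeFor ℓ) : (W.reductionMod ℓ).card = 1 + cnt W ℓ := by
  classical
  have : Fact ℓ.Prime := ⟨hℓ⟩
  have hV : (W.reductionMod ℓ).Δ ≠ 0 := by
    rw [reductionMod, WeierstrassCurve.map_Δ]
    intro h
    exact hgood ((ZMod.intCast_zmod_eq_zero_iff_dvd _ _).mp h)
  unfold WeierstrassCurve.card
  rw [Nat.card_congr (LTF.Chain.pointEquiv (W.reductionMod ℓ)), Finite.card_option, add_comm]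
  congr 1
  rw [Nat.card_eq_fintype_card, Fintype.card_subtype, cnt]
  congr 1
  ext p
  simp only [Finset.mem_filter, Finset.mem_univ, true_and]
  rw [← WeierstrassCurve.Affine.equation_iff_nonsingular_of_Δ_ne_zero hV,
    WeierstrassCurve.Affine.equation_iff]
  rfl

/-- `a_ℓ = ℓ - #{affine points}`, computable. -/
theorem apOfModel_eq (W : WeierstrassCurve ℤ) {ℓ : ℕ} [NeZero ℓ] (hℓ : ℓ.Prime)
    (hgood : W.IsGoodPrimeFor ℓ) : W.apOfModel ℓ = ℓ - cnt W ℓ := by
  rw [apOfModel, traceOfFrobenius, card_reductionMod W hℓ hgood, Nat.card_zmod]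
  push_cast
  ring

/-! ### The curve -/

/-- The curve `37a`: `y² + y = x³ - x`. -/
def W37 : WeierstrassCurve ℤ := ⟨0, 0, 1, -1, 0⟩

theorem W37_Δ : W37.Δ = 37 := by decide

theorem W37_c₄ : W37.c₄ = 48 := by decide

theorem W37_Δ_ne : W37.Δ ≠ 0 := by rw [W37_Δ]; decide

/-- `37` is the only bad prime. -/
theorem eq_37_of_dvd {q : ℕ} (hq : q.Prime) (h : (q : ℤ) ∣ W37.Δ) : q = 37 := by
  rw [W37_Δ] at h
  exact (Nat.prime_dvd_prime_iff_eq hq (by norm_num)).mp (by exact_mod_cast h)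

theorem isGood37 {ℓ : ℕ} (hℓ : ℓ.Prime) (h : ℓ ≠ 37) : W37.IsGoodPrimeFor ℓ :=
  fun hd => h (eq_37_of_dvd hℓ hd)

theorem semistable37 : W37.IsSemistableModel := by
  intro q hq hd hc
  rw [eq_37_of_dvd hq hd, W37_c₄] at hc
  revert hc
  decide

theorem val37 : padicValInt 37 W37.Δ = 1 := by
  rw [W37_Δ]
  have : Fact (Nat.Prime 37) := ⟨by norm_num⟩
  exact padicValInt_self

theorem isMultAt37 : ECRed.IsMultAt W37 37 :=
  ⟨by norm_num, by rw [W37_Δ]; norm_num, semistable37 37 (by norm_num) (by rw [W37_Δ]; norm_num),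
    W37_Δ_ne⟩

theorem ap37_two : W37.apOfModel 2 = -2 := by
  rw [apOfModel_eq W37 Nat.prime_two (isGood37 Nat.prime_two (by decide))]
  decide +kernel

theorem ap37_three : W37.apOfModel 3 = -3 := by
  rw [apOfModel_eq W37 Nat.prime_three (isGood37 Nat.prime_three (by decide))]
  decide +kernel

/-- **`W37[p]` is irreducible for every prime `p`.** -/
theorem irr37 {p : ℕ} (hp : p.Prime) : W37.ModRepIsIrreducible p := by
  have hg2 := isGood37 Nat.prime_two (by decide)
  have hg3 := isGood37 Nat.prime_three (by decide)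
  by_cases h2 : p = 2
  · subst h2
    refine irreducible_of_noroot W37_Δ_ne hp Nat.prime_three hg3 (by decide) ?_
    rw [ap37_three]
    decide
  by_cases h3 : p = 3
  · subst h3
    refine irreducible_of_noroot W37_Δ_ne hp Nat.prime_two hg2 (by decide) ?_
    rw [ap37_two]
    decide
  · refine irreducible_of_coprime W37_Δ_ne semistable37 hp h2 Nat.prime_two hg2 (Ne.symm h2)
      Nat.prime_three hg3 (Ne.symm h3) ?_
    rw [ap37_two, ap37_three]
    exact ⟨3, -2, by norm_num⟩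

end Fermat.Agent.Cor.InvGal
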