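import Fermat.Agent.Corollaries.InvGal.Sym
import Mathlib.FieldTheory.AbelRuffini

/-!
# The equation `x ^ n - x - 1 = 0` is not solvable by radicals for `n ≥ 5`

The Galois group of the polynomial `X ^ n - X - 1` over `ℚ` is the symmetric group
(`galActionHom_bijective`, `nonempty_gal_mulEquiv`), which is not solvable for `n ≥ 5`; so no root
of it is solvable by radicals (`not_solvableByRad`). This is the Abel-Ruffini theorem with an
explicit equation in every degree `n ≥ 5`.
-/

set_option autoImplicit false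

namespace Fermat.Agent.Cor

open Polynomial InvGal.Sym
open Fermat.Agent.Frob

namespace InvGal.Sym

variable {n : ℕ}

instance factSplits : Fact (((pol ℚ n).map (algebraMap ℚ (AlgebraicClosure ℚ))).Splits) :=
  ⟨IsAlgClosed.splits _⟩

/-- **The Galois group of `X ^ n - X - 1` over `ℚ` permutes the roots in all possible ways.** -/
theorem galActionHom_bijective (hn : 2 ≤ n) :
    Function.Bijective (Gal.galActionHom (pol ℚ n) (AlgebraicClosure ℚ)) := by
  refine ⟨Gal.galActionHom_injective _ _, fun π => ?_⟩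
  obtain ⟨σ, hσ⟩ := surjective_toPermHom hn ((rtEquiv hn).permCongr.symm π)
  refine ⟨Gal.restrict (pol ℚ n) (AlgebraicClosure ℚ) σ, Equiv.ext fun x => Subtype.ext ?_⟩
  rw [Gal.galActionHom_restrict]
  have h1 : σ • (rtEquiv hn).symm x = (rtEquiv hn).symm (π x) := by
    have h2 := congrArg (fun g : Equiv.Perm (Rt n) => g ((rtEquiv hn).symm x)) hσ
    simpa using h2
  exact congrArg (fun y : Rt n => ((y.1 : Zbar) : AlgebraicClosure ℚ)) h1

end InvGal.Sym

/-- **The Galois group of `X ^ n - X - 1` over `ℚ` is the symmetric group `S_n`.** -/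
theorem nonempty_gal_mulEquiv {n : ℕ} (hn : 2 ≤ n) :
    Nonempty ((X ^ n - X - 1 : ℚ[X]).Gal ≃* Equiv.Perm (Fin n)) := by
  have e : (pol ℚ n).rootSet (AlgebraicClosure ℚ) ≃ Fin n :=
    (rtEquiv hn).symm.trans (@Finite.equivFinOfCardEq _ (finite_rt hn) _ (card_rt hn))
  exact ⟨(MulEquiv.ofBijective _ (galActionHom_bijective hn)).trans e.permCongrHom⟩

/-- **Abel-Ruffini in every degree: for `n ≥ 5` no root of `x ^ n - x - 1 = 0` is solvable by
radicals.** -/
theorem not_solvableByRad {n : ℕ} (hn : 5 ≤ n) {E : Type*} [Field E] [Algebra ℚ E] {x : E}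
    (hx : x ^ n - x - 1 = 0) : x ∉ solvableByRad ℚ E := by
  intro h
  have h1 : Group.IsSolvable (X ^ n - X - 1 : ℚ[X]).Gal :=
    isSolvable_gal_of_irreducible h (irreducible_pol (n := n) (by omega)) (by
      simpa using hx)
  obtain ⟨f⟩ := nonempty_gal_mulEquiv (n := n) (by omega)
  have h2 : Group.IsSolvable (Equiv.Perm (Fin n)) :=
    Group.isSolvable_of_surjective (f := f.toMonoidHom) f.surjective
  exact Equiv.Perm.not_isSolvable (Fin n) (by simpa using hn) h2

/-- For every `n ≥ 5` there is a real number which is algebraic of degree `n` and not solvable by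
radicals. -/
theorem exists_not_solvableByRad {n : ℕ} (hn : 5 ≤ n) :
    ∃ x : ℝ, (minpoly ℚ x).natDegree = n ∧ x ∉ solvableByRad ℚ ℝ := by
  have hcont : ContinuousOn (fun t : ℝ => t ^ n - t - 1) (Set.Icc 1 2) := by fun_prop
  have h1 : (0 : ℝ) ∈ Set.Icc ((1 : ℝ) ^ n - 1 - 1) ((2 : ℝ) ^ n - 2 - 1) := by
    constructor
    · rw [one_pow]
      norm_num
    · have h2 : (2 : ℝ) ^ 2 ≤ 2 ^ n := pow_le_pow_right₀ (by norm_num) (by omega)
      linarith
  obtain ⟨t, -, ht⟩ := intermediate_value_Icc (by norm_num : (1 : ℝ) ≤ 2) hcont h1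
  refine ⟨t, ?_, not_solvableByRad hn ht⟩
  have h3 : minpoly ℚ t = pol ℚ n :=
    (minpoly.eq_of_irreducible_of_monic (irreducible_pol (by omega)) (by
      rw [pol]
      simpa using ht) (monic_pol ℚ (by omega))).symm
  rw [h3, natDegree_pol (by omega)]

end Fermat.Agent.Cor
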