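import Mathlib

/-!
# The irreducibility of `X ^ n - a X - 1` for `a > n`
-/

set_option autoImplicit false

open Polynomial

namespace Fermat.Agent.Cor.InvGal.SymA

theorem one_le_norm_prod (s : Multiset ℂ) (h : ∀ z ∈ s, 1 < ‖z‖) : 1 ≤ ‖s.prod‖ := by
  induction s using Multiset.induction with
  | empty => simp
  | cons a t ih =>
    rw [Multiset.prod_cons, norm_mul]
    have h1 := h a (Multiset.mem_cons_self a t)
    have h2 := ih fun z hz => h z (Multiset.mem_cons_of_mem hz)
    nlinarith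

/-- a monic integral polynomial with constant term `±1` has a root in the unit disc -/
theorem exists_small_root {g : ℤ[X]} (hg : g.Monic) (hd : g.natDegree ≠ 0)
    (h0 : ‖(g.coeff 0 : ℂ)‖ = 1) : ∃ z : ℂ, (g.map (Int.castRingHom ℂ)).eval z = 0 ∧ ‖z‖ ≤ 1 := by
  set G := g.map (Int.castRingHom ℂ) with hG
  have hGm : G.Monic := hg.map _
  have hGd : G.natDegree = g.natDegree := hg.natDegree_map _
  by_contra hcon
  push Not at hcon
  obtain ⟨z, hz⟩ := IsAlgClosed.exists_root G (by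
    rw [degree_eq_natDegree hGm.ne_zero, hGd]
    exact_mod_cast hd)
  have hz' : z ∈ G.roots := (mem_roots hGm.ne_zero).mpr hz
  obtain ⟨t, ht⟩ := Multiset.exists_cons_of_mem hz'
  have h1 : ∀ w ∈ G.roots, 1 < ‖w‖ := fun w hw => hcon w (isRoot_of_mem_roots hw)
  have h2 : 1 ≤ ‖t.prod‖ := one_le_norm_prod t fun w hw => h1 w (by
    rw [ht]
    exact Multiset.mem_cons_of_mem hw)
  have h3 := h1 z hz'
  have h4 := (IsAlgClosed.splits G).coeff_zero_eq_prod_roots_of_monic hGm
  have h5 : ‖G.coeff 0‖ = 1 := by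
    rw [hG, coeff_map]
    exact h0
  rw [h4, ht, Multiset.prod_cons, norm_mul, norm_mul, norm_pow, norm_neg, norm_one, one_pow,
    one_mul] at h5
  nlinarith

theorem norm_sum_le {n : ℕ} {z w : ℂ} (hz : ‖z‖ ≤ 1) (hw : ‖w‖ ≤ 1) :
    ‖∑ i ∈ Finset.range n, z ^ i * w ^ (n - 1 - i)‖ ≤ n := by
  refine (norm_sum_le_of_le _ (f := fun i => z ^ i * w ^ (n - 1 - i)) (n := fun _ => (1 : ℝ))
    fun i _ => ?_).trans (by simp)
  rw [norm_mul, norm_pow, norm_pow]
  exact mul_le_one₀ (pow_le_one₀ (norm_nonneg _) hz) (by positivity)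
    (pow_le_one₀ (norm_nonneg _) hw)

/-- `X ^ n - a X - 1` is irreducible over `ℚ` for `a > n ≥ 2`. -/
theorem irreducible_polA {n a : ℕ} (hn : 2 ≤ n) (ha : n < a) :
    Irreducible (X ^ n - C (a : ℚ) * X - 1 : ℚ[X]) := by
  set f : ℤ[X] := X ^ n - C (a : ℤ) * X - 1 with hf
  have hm : f.Monic := by
    have h1 : f = X ^ n - (C (a : ℤ) * X + C 1) := by
      rw [hf, C_1]
      ring
    rw [h1]
    refine monic_X_pow_sub (degree_linear_le.trans_lt ?_)
    exact_mod_cast (by omega : 1 < n)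
  have hmap : f.map (algebraMap ℤ ℚ) = X ^ n - C (a : ℚ) * X - 1 := by
    simp [hf]
  rw [← hmap, ← hm.irreducible_iff_irreducible_map_fraction_map]
  have hev : ∀ z : ℂ, (f.map (Int.castRingHom ℂ)).eval z = z ^ n - a * z - 1 := by
    intro z
    simp [hf]
  have hder : ∀ z : ℂ, (derivative (f.map (Int.castRingHom ℂ))).eval z =
      n * z ^ (n - 1) - a := by
    intro z
    simp [hf, derivative_X_pow]
  have hf0 : f.coeff 0 = -1 := by
    rw [coeff_zero_eq_eval_zero, hf]
    simp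
    omega
  have haR : (n : ℝ) < a := by exact_mod_cast ha
  have hne1 : f ≠ 1 := by
    intro h1
    rw [h1] at hf0
    simp at hf0
  rw [hm.irreducible_iff_natDegree]
  refine ⟨hne1, fun g h hg hh hgh => ?_⟩
  by_contra hcon
  push Not at hcon
  obtain ⟨hgd, hhd⟩ := hcon
  have hc : g.coeff 0 * h.coeff 0 = -1 := by rw [← mul_coeff_zero, hgh, hf0]
  have hunit : ∀ {x y : ℤ}, x * y = -1 → ‖(x : ℂ)‖ = 1 := by
    intro x y hxy
    have h1 : x = 1 ∨ x = -1 := by
      have h2 : IsUnit x := IsUnit.of_mul_eq_one (-y) (by rw [mul_neg, hxy, neg_neg])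
      exact Int.isUnit_iff.mp h2
    rcases h1 with rfl | rfl <;> simp
  obtain ⟨z, hz, hz1⟩ := exists_small_root hg hgd (hunit hc)
  obtain ⟨w, hw, hw1⟩ := exists_small_root hh hhd (hunit ((mul_comm _ _).trans hc))
  have hprod : f.map (Int.castRingHom ℂ) =
      g.map (Int.castRingHom ℂ) * h.map (Int.castRingHom ℂ) := by
    rw [← Polynomial.map_mul, hgh]
  have hfz : z ^ n - a * z - 1 = 0 := by rw [← hev, hprod, eval_mul, hz, zero_mul]
  have hfw : w ^ n - a * w - 1 = 0 := by rw [← hev, hprod, eval_mul, hw, mul_zero]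
  by_cases hzw : z = w
  · subst hzw
    have h1 := hder z
    rw [hprod, derivative_mul, eval_add, eval_mul, eval_mul, hz, hw, mul_zero, zero_mul,
      add_zero] at h1
    have h2 : (a : ℂ) = n * z ^ (n - 1) := by linear_combination h1
    have h3 := congrArg norm h2
    rw [Complex.norm_natCast, norm_mul, Complex.norm_natCast, norm_pow] at h3
    have h4 : ‖z‖ ^ (n - 1) ≤ 1 := pow_le_one₀ (norm_nonneg _) hz1
    nlinarith [Nat.cast_nonneg (α := ℝ) n]
  · have h1 : (z - w) ≠ 0 := sub_ne_zero.mpr hzw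
    have h2 := (Commute.all z w).geom_sum₂_mul n
    have h3 : (a : ℂ) = ∑ i ∈ Finset.range n, z ^ i * w ^ (n - 1 - i) := by
      refine mul_right_cancel₀ h1 ?_
      rw [h2]
      linear_combination hfw - hfz
    have h4 := congrArg norm h3
    rw [Complex.norm_natCast] at h4
    have h5 := norm_sum_le (n := n) hz1 hw1
    rw [← h4] at h5
    linarith

end Fermat.Agent.Cor.InvGal.SymA
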