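import Fermat.Agent.Corollaries.InvGal.Gal
import Fermat.Agent.Minkowski.Trivial
import Mathlib.RingTheory.Polynomial.Selmer
import Mathlib.GroupTheory.Perm.ClosureSwap
import Mathlib.FieldTheory.Minpoly.IsConjRoot

/-!
# The symmetric groups as Galois groups over `ℚ`

`Gal(ℚ̄/ℚ)` acts on the `n` roots of `X ^ n - X - 1` (Selmer: irreducible over `ℚ`) through the full
symmetric group (`surjective_toPermHom`): let `σ` be in an inertia group above a prime `q`, then
`σ α ≡ α` for all roots `α`. Modulo `q` a multiple root `r` of `X ^ n - X - 1` satisfies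
`n r ^ (n - 1) = 1`, `(1 - n) r = n`, so there is only one, and it is a double root, because the
second derivative `n (n - 1) X ^ (n - 2)` does not vanish at `r`. So `σ` is the identity or a
transposition. By Minkowski's theorem the inertia groups generate the Galois group, and a transitive
group generated by transpositions is the symmetric group.

Consequences: `S_n` is a Galois group over `ℚ` (`exists_galois_perm`), and every finite group is the
Galois group of an extension of number fields (`exists_galois_finite`).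
-/

set_option autoImplicit false
set_option linter.style.haveILetI false

namespace Fermat.Agent.Cor.InvGal.Sym

open Polynomial

section Ring

variable {R : Type*} [CommRing R] [IsDomain R] {n : ℕ}

/-- The polynomial `X ^ n - X - 1`. -/
noncomputable def pol (R : Type*) [CommRing R] (n : ℕ) : R[X] := X ^ n - X - 1

omit [IsDomain R] in
theorem isRoot_pol {x : R} : (pol R n).IsRoot x ↔ x ^ n = x + 1 := by
  rw [IsRoot.def, pol, eval_sub, eval_sub, eval_pow, eval_X, eval_one, sub_sub, sub_eq_zero]

omit [IsDomain R] in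
theorem map_pol {k : Type*} [CommRing k] (f : R →+* k) : (pol R n).map f = pol k n := by
  simp [pol]

omit [IsDomain R] in
theorem derivative_pol : derivative (pol R n) = C (n : R) * X ^ (n - 1) - 1 := by
  rw [pol, derivative_sub, derivative_sub, derivative_X_pow, derivative_X, derivative_one, sub_zero]

omit [IsDomain R] in
theorem derivative_derivative_pol :
    derivative (derivative (pol R n)) = C (n : R) * (C ((n - 1 : ℕ) : R) * X ^ (n - 1 - 1)) := by
  rw [derivative_pol, derivative_sub, derivative_C_mul, derivative_X_pow, derivative_one, sub_zero]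

/-- Three distinct roots: the product of the linear factors divides the polynomial. -/
theorem dvd_of_three {x y z : R} (hx : (pol R n).IsRoot x) (hy : (pol R n).IsRoot y)
    (hz : (pol R n).IsRoot z) (hxy : x ≠ y) (hxz : x ≠ z) (hyz : y ≠ z) :
    (X - C x) * (X - C y) * (X - C z) ∣ pol R n := by
  obtain ⟨g, hg⟩ := dvd_iff_isRoot.mpr hx
  have hy1 : g.IsRoot y := by
    have h := hy
    rw [hg, IsRoot.def, eval_mul, eval_sub, eval_X, eval_C] at h
    exact (mul_eq_zero.mp h).resolve_left (sub_ne_zero.mpr hxy.symm)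
  have hz1 : g.IsRoot z := by
    have h := hz
    rw [hg, IsRoot.def, eval_mul, eval_sub, eval_X, eval_C] at h
    exact (mul_eq_zero.mp h).resolve_left (sub_ne_zero.mpr hxz.symm)
  obtain ⟨g', hg'⟩ := dvd_iff_isRoot.mpr hy1
  have hz2 : g'.IsRoot z := by
    have h := hz1
    rw [hg', IsRoot.def, eval_mul, eval_sub, eval_X, eval_C] at h
    exact (mul_eq_zero.mp h).resolve_left (sub_ne_zero.mpr hyz.symm)
  obtain ⟨g'', hg''⟩ := dvd_iff_isRoot.mpr hz2
  exact ⟨g'', by rw [hg, hg', hg'']; ring⟩

theorem dvd_of_two {x y : R} (hx : (pol R n).IsRoot x) (hy : (pol R n).IsRoot y) (hxy : x ≠ y) :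
    (X - C x) * (X - C y) ∣ pol R n := by
  obtain ⟨g, hg⟩ := dvd_iff_isRoot.mpr hx
  have hy1 : g.IsRoot y := by
    have h := hy
    rw [hg, IsRoot.def, eval_mul, eval_sub, eval_X, eval_C] at h
    exact (mul_eq_zero.mp h).resolve_left (sub_ne_zero.mpr hxy.symm)
  obtain ⟨g', hg'⟩ := dvd_iff_isRoot.mpr hy1
  exact ⟨g', by rw [hg, hg']; ring⟩

variable {k : Type*} [Field k] (f : R →+* k)

/-- Two distinct roots with the same image `r`: `n r ^ (n - 1) = 1`. -/
theorem eq_one_of_two {x y : R} (hx : x ^ n = x + 1) (hy : y ^ n = y + 1) (hxy : x ≠ y)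
    (h : f x = f y) : (n : k) * f x ^ (n - 1) = 1 := by
  have h1 := Polynomial.map_dvd f (dvd_of_two (isRoot_pol.mpr hx) (isRoot_pol.mpr hy) hxy)
  rw [map_pol, Polynomial.map_mul, Polynomial.map_sub, Polynomial.map_sub, map_X, map_C, map_C,
    ← h, ← sq] at h1
  have h2 := pow_sub_one_dvd_derivative_of_pow_dvd h1
  rw [pow_one, dvd_iff_isRoot, derivative_pol, IsRoot.def, eval_sub, eval_mul, eval_C, eval_pow,
    eval_X, eval_one, sub_eq_zero] at h2
  exact h2

/-- There are no three distinct roots with the same image, `2 ≤ n`. -/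
theorem false_of_three (hn : 2 ≤ n) {x y z : R} (hx : x ^ n = x + 1) (hy : y ^ n = y + 1)
    (hz : z ^ n = z + 1) (hxy : x ≠ y) (hxz : x ≠ z) (hyz : y ≠ z) (h : f x = f y)
    (h' : f x = f z) : False := by
  have h1 := Polynomial.map_dvd f (dvd_of_three (isRoot_pol.mpr hx) (isRoot_pol.mpr hy)
    (isRoot_pol.mpr hz) hxy hxz hyz)
  rw [map_pol, Polynomial.map_mul, Polynomial.map_mul, Polynomial.map_sub, Polynomial.map_sub,
    Polynomial.map_sub, map_X, map_C, map_C, map_C, ← h, ← h', ← sq, ← pow_succ] at h1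
  have h2 := pow_sub_one_dvd_derivative_of_pow_dvd (pow_sub_one_dvd_derivative_of_pow_dvd h1)
  rw [show 2 + 1 - 1 - 1 = 1 from rfl, pow_one, dvd_iff_isRoot, derivative_derivative_pol,
    IsRoot.def, eval_mul, eval_C, eval_mul, eval_C, eval_pow, eval_X] at h2
  have h3 := eq_one_of_two f hx hy hxy h
  have h4 : f x ^ n = f x + 1 := by rw [← map_pow, hx, map_add, map_one]
  have hn0 : (n : k) ≠ 0 := fun h0 => by rw [h0, zero_mul] at h3; exact zero_ne_one h3
  have hx0 : f x ≠ 0 := fun h0 => by
    rw [h0, zero_pow (by omega), mul_zero] at h3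
    exact zero_ne_one h3
  rcases mul_eq_zero.mp h2 with h5 | h5
  · exact hn0 h5
  rcases mul_eq_zero.mp h5 with h6 | h6
  · -- `n = 1` in `k`
    have h7 : (n : k) = 1 := by
      have h8 : ((n - 1 : ℕ) : k) + 1 = n := by
        rw [← Nat.cast_succ, Nat.succ_eq_add_one, Nat.sub_add_cancel (by omega)]
      rw [← h8, h6, zero_add]
    have h9 : (n : k) * f x ^ n = f x := by
      calc (n : k) * f x ^ n = (n : k) * f x ^ (n - 1) * f x := by
            rw [mul_assoc, ← pow_succ, Nat.sub_add_cancel (by omega)]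
        _ = f x := by rw [h3, one_mul]
    rw [h4, h7, one_mul] at h9
    exact one_ne_zero (by linear_combination h9 : (1 : k) = 0)
  · exact pow_ne_zero _ hx0 h6

/-- **Two pairs of distinct roots with the same images are equal.** -/
theorem eq_or_eq_of_pairs (hn : 2 ≤ n) {x y z w : R} (hx : x ^ n = x + 1) (hy : y ^ n = y + 1)
    (hz : z ^ n = z + 1) (hw : w ^ n = w + 1) (hxy : x ≠ y) (hzw : z ≠ w) (h : f x = f y)
    (h' : f z = f w) : z = x ∨ z = y := by
  have key : ∀ {a b : R}, a ^ n = a + 1 → b ^ n = b + 1 → a ≠ b → f a = f b →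
      ((n : k) - 1) * f a = -n := by
    intro a b ha hb hab hf
    have h3 := eq_one_of_two f ha hb hab hf
    have h4 : f a ^ n = f a + 1 := by rw [← map_pow, ha, map_add, map_one]
    have h9 : (n : k) * f a ^ n = f a := by
      calc (n : k) * f a ^ n = (n : k) * f a ^ (n - 1) * f a := by
            rw [mul_assoc, ← pow_succ, Nat.sub_add_cancel (by omega)]
        _ = f a := by rw [h3, one_mul]
    rw [h4] at h9
    linear_combination h9
  have h1 := key hx hy hxy h
  have h2 := key hz hw hzw h'
  have hn1 : (n : k) - 1 ≠ 0 := by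
    intro h0
    rw [h0, zero_mul] at h1
    have h5 : (n : k) = 0 := by linear_combination h1
    rw [h5] at h0
    norm_num at h0
  have h3 : f x = f z := mul_left_cancel₀ hn1 (h1.trans h2.symm)
  by_contra hc
  rw [not_or] at hc
  exact false_of_three f hn hx hy hz hxy (Ne.symm hc.1) (Ne.symm hc.2) h h3

end Ring

open Fermat.Agent.Frob Fermat.Agent.Minkowski

/-- The roots of `X ^ n - X - 1` in the ring of algebraic integers. -/
def Rt (n : ℕ) : Type := {x : Zbar // x ^ n = x + 1}

variable {n : ℕ}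

noncomputable instance : MulAction GQ (Rt n) where
  smul σ x := ⟨σ • x.1, by rw [← smul_pow', x.2, smul_add, smul_one]⟩
  one_smul x := Subtype.ext (one_smul _ _)
  mul_smul σ τ x := Subtype.ext (mul_smul _ _ _)

noncomputable instance : DecidableEq (Rt n) := Classical.decEq _

theorem coe_smul (σ : GQ) (x : Rt n) :
    (((σ • x).1 : Zbar) : AlgebraicClosure ℚ) = σ ((x.1 : Zbar) : AlgebraicClosure ℚ) := rfl

theorem Rt.ext {x y : Rt n} (h : ((x.1 : Zbar) : AlgebraicClosure ℚ) = y.1) : x = y :=
  Subtype.ext (Subtype.ext h)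

theorem Rt.eq (x : Rt n) :
    ((x.1 : Zbar) : AlgebraicClosure ℚ) ^ n = ((x.1 : Zbar) : AlgebraicClosure ℚ) + 1 :=
  congrArg (fun z : Zbar => (z : AlgebraicClosure ℚ)) x.2

theorem degree_lt (R : Type*) [CommRing R] [Nontrivial R] (hn : 2 ≤ n) :
    (X + 1 : R[X]).degree < (X ^ n : R[X]).degree := by
  rw [degree_X_pow, ← C_1, degree_X_add_C]
  exact_mod_cast hn

theorem monic_pol (R : Type*) [CommRing R] [Nontrivial R] (hn : 2 ≤ n) : (pol R n).Monic := by
  rw [pol, sub_sub]
  exact (monic_X_pow n).sub_of_left (degree_lt R hn)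

theorem natDegree_pol (hn : 2 ≤ n) : (pol ℚ n).natDegree = n := by
  rw [pol, sub_sub, natDegree_sub_eq_left_of_natDegree_lt (natDegree_lt_natDegree (by
    rw [← C_1]
    exact X_add_C_ne_zero 1) (degree_lt ℚ hn)), natDegree_X_pow]

theorem irreducible_pol (hn : 2 ≤ n) : Irreducible (pol ℚ n) :=
  X_pow_sub_X_sub_one_irreducible_rat (by omega)

theorem aeval_pol (x : AlgebraicClosure ℚ) : aeval x (pol ℚ n) = 0 ↔ x ^ n = x + 1 := by
  rw [pol]
  simp only [map_sub, map_pow, aeval_X, map_one]
  rw [sub_sub, sub_eq_zero]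

/-- The roots in `ℚ̄`. -/
noncomputable def rtEquiv (hn : 2 ≤ n) : Rt n ≃ (pol ℚ n).rootSet (AlgebraicClosure ℚ) where
  toFun x := ⟨x.1, by
    rw [mem_rootSet_of_ne (monic_pol ℚ hn).ne_zero, aeval_pol]
    exact x.eq⟩
  invFun y := ⟨⟨y.1, by
    have h := y.2
    rw [mem_rootSet_of_ne (monic_pol ℚ hn).ne_zero, aeval_pol] at h
    refine ⟨pol ℤ n, monic_pol ℤ hn, ?_⟩
    · rw [← eval_map, map_pol, ← IsRoot.def, isRoot_pol]
      exact h⟩, by
    have h := y.2
    rw [mem_rootSet_of_ne (monic_pol ℚ hn).ne_zero, aeval_pol] at h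
    exact Subtype.ext h⟩
  left_inv x := rfl
  right_inv y := rfl

theorem card_rt (hn : 2 ≤ n) : Nat.card (Rt n) = n := by
  rw [Nat.card_congr (rtEquiv hn), Nat.card_eq_fintype_card,
    card_rootSet_eq_natDegree (irreducible_pol hn).separable (IsAlgClosed.splits _),
    natDegree_pol hn]

theorem isPretransitive (hn : 2 ≤ n) : MulAction.IsPretransitive GQ (Rt n) := by
  constructor
  intro x y
  have hx : minpoly ℚ ((x.1 : Zbar) : AlgebraicClosure ℚ) = pol ℚ n :=
    (minpoly.eq_of_irreducible_of_monic (irreducible_pol hn) ((aeval_pol _).mpr x.eq)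
      (monic_pol ℚ hn)).symm
  have hy : minpoly ℚ ((y.1 : Zbar) : AlgebraicClosure ℚ) = pol ℚ n :=
    (minpoly.eq_of_irreducible_of_monic (irreducible_pol hn) ((aeval_pol _).mpr y.eq)
      (monic_pol ℚ hn)).symm
  have h : IsConjRoot ℚ ((x.1 : Zbar) : AlgebraicClosure ℚ) y.1 := hx.trans hy.symm
  obtain ⟨σ, hσ⟩ := isConjRoot_iff_exists_algEquiv.mp h.symm
  exact ⟨σ, Rt.ext hσ⟩

/-- **The inertia groups act through `1` and transpositions.** -/
theorem inertia (hn : 2 ≤ n) {A : ValuationSubring (AlgebraicClosure ℚ)} {σ : GQ}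
    (hσ : σ ∈ A.inertiaSubgroupIn ℚ) :
    MulAction.toPermHom GQ (Rt n) σ = 1 ∨ (MulAction.toPermHom GQ (Rt n) σ).IsSwap := by
  let f : Zbar →+* IsLocalRing.ResidueField A := (IsLocalRing.residue A).comp (toVal A)
  have hf : ∀ x : Rt n, f x.1 = f (σ • x).1 := by
    intro x
    have h1 := (sub_mem_nonunits_of_mem_inertia hσ (mem_of_mem_Zbar A x.1)).2
    have h2 : (σ • x).1 - x.1 ∈ centre A := by
      rw [mem_centre_iff]
      exact h1
    have h3 : f ((σ • x).1 - x.1) = 0 := (IsLocalRing.residue_eq_zero_iff _).mpr h2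
    rw [map_sub, sub_eq_zero] at h3
    exact h3.symm
  by_cases hall : ∀ x : Rt n, σ • x = x
  · exact Or.inl (Equiv.ext hall)
  · push Not at hall
    obtain ⟨a, ha⟩ := hall
    refine Or.inr ⟨a, σ • a, Ne.symm ha, Equiv.ext fun z => ?_⟩
    have key : ∀ z : Rt n, σ • z ≠ z → z = a ∨ z = σ • a := by
      intro z hz
      rcases eq_or_eq_of_pairs f hn a.2 (σ • a).2 z.2 (σ • z).2
        (fun h => ha (Subtype.ext h).symm) (fun h => hz (Subtype.ext h).symm) (hf a) (hf z) with
        h | h
      · exact Or.inl (Subtype.ext h)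
      · exact Or.inr (Subtype.ext h)
    change σ • z = _
    by_cases h1 : z = a
    · rw [h1, Equiv.swap_apply_left]
    · by_cases h2 : z = σ • a
      · rw [h2, Equiv.swap_apply_right]
        rcases key (σ • σ • a) (fun h => by
          have h3 := smul_left_cancel σ h
          exact ha (smul_left_cancel σ h3)) with h3 | h3
        · exact h3
        · exact absurd (smul_left_cancel σ h3) ha
      · rw [Equiv.swap_apply_of_ne_of_ne h1 h2]
        by_contra h3
        rcases key z h3 with h4 | h4
        · exact h1 h4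
        · exact h2 h4

theorem finite_rt (hn : 2 ≤ n) : Finite (Rt n) :=
  Nat.finite_of_card_ne_zero (by rw [card_rt hn]; omega)

theorem isOpen_ker_toPermHom (hn : 2 ≤ n) :
    IsOpen ((MulAction.toPermHom GQ (Rt n)).ker : Set GQ) := by
  have := finite_rt hn
  let S : Set (AlgebraicClosure ℚ) :=
    Set.range (fun x : Rt n => ((x.1 : Zbar) : AlgebraicClosure ℚ))
  have hS : S.Finite := Set.finite_range _
  have := hS.to_subtype
  have : FiniteDimensional ℚ (IntermediateField.adjoin ℚ S) :=
    IntermediateField.finiteDimensional_adjoin fun x _ =>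
      (Algebra.IsIntegral.isIntegral (R := ℚ) x)
  refine Subgroup.isOpen_mono (H₁ := (IntermediateField.adjoin ℚ S).fixingSubgroup) ?_
    (IntermediateField.fixingSubgroup_isOpen _)
  intro σ hσ
  rw [MonoidHom.mem_ker]
  refine Equiv.ext fun x => Rt.ext ?_
  exact (IntermediateField.mem_fixingSubgroup_iff _ _).mp hσ _
    (IntermediateField.subset_adjoin ℚ S ⟨x, rfl⟩)

/-- **The absolute Galois group of `ℚ` acts on the roots of `X ^ n - X - 1` through the full
symmetric group.** -/
theorem surjective_toPermHom (hn : 2 ≤ n) :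
    Function.Surjective (MulAction.toPermHom GQ (Rt n)) := by
  have := finite_rt hn
  have := isPretransitive hn
  let S : Set GQ := {σ | ∃ ℓ : ℕ, ℓ.Prime ∧ ∃ A : ValuationSubring (AlgebraicClosure ℚ),
    A.LiesOverPrime ℓ ∧ σ ∈ A.inertiaSubgroupIn ℚ} ∪ (MulAction.toPermHom GQ (Rt n)).ker
  have htop : Subgroup.normalClosure S = ⊤ := by
    refine eq_top_of_inertia_le _ ?_ fun ℓ hℓ A hA σ hσ =>
      Subgroup.subset_normalClosure (Or.inl ⟨ℓ, hℓ, A, hA, hσ⟩)
    exact Subgroup.isOpen_mono (H₁ := (MulAction.toPermHom GQ (Rt n)).ker)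
      (fun σ hσ => Subgroup.subset_normalClosure (Or.inr hσ)) (isOpen_ker_toPermHom hn)
  refine surjective_of_isSwap_of_isPretransitive' (Group.conjugatesOfSet S) ?_ htop
  intro σ hσ
  obtain ⟨a, ha, hc⟩ := Group.mem_conjugatesOfSet_iff.mp hσ
  obtain ⟨g, rfl⟩ := isConj_iff.mp hc
  have h1 : MulAction.toPermHom GQ (Rt n) a = 1 ∨ (MulAction.toPermHom GQ (Rt n) a).IsSwap := by
    rcases ha with ⟨ℓ, hℓ, A, hA, h⟩ | h
    · exact inertia hn h
    · exact Or.inl h
  rw [map_mul, map_mul, map_inv]
  rcases h1 with h1 | ⟨x, y, hxy, h1⟩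
  · left
    rw [h1, mul_one, mul_inv_cancel]
  · right
    refine ⟨MulAction.toPermHom GQ (Rt n) g x, MulAction.toPermHom GQ (Rt n) g y,
      fun h => hxy (Equiv.injective _ h), ?_⟩
    rw [h1, Equiv.swap_apply_apply]

end Fermat.Agent.Cor.InvGal.Sym

namespace Fermat.Agent.Cor

open Fermat.Agent.Frob InvGal.Sym

/-- **The symmetric groups are Galois groups over `ℚ`.** (The splitting field of
`X ^ n - X - 1`.) -/
theorem exists_galois_perm (n : ℕ) :
    ∃ (L : Type) (_ : Field L) (_ : NumberField L) (_ : IsGalois ℚ L),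
      Nonempty ((L ≃ₐ[ℚ] L) ≃* Equiv.Perm (Fin n)) := by
  rcases lt_or_ge n 2 with hn | hn
  · have : Subsingleton (Equiv.Perm (Fin n)) := by
      interval_cases n <;> infer_instance
    letI : TopologicalSpace (Equiv.Perm (Fin n)) := ⊥
    haveI : DiscreteTopology (Equiv.Perm (Fin n)) := ⟨rfl⟩
    exact exists_galois_of_continuous (1 : GQ →* Equiv.Perm (Fin n)) continuous_const
      fun x => ⟨1, Subsingleton.elim _ _⟩
  · have := finite_rt hn
    letI : TopologicalSpace (Equiv.Perm (Rt n)) := ⊥
    haveI : DiscreteTopology (Equiv.Perm (Rt n)) := ⟨rfl⟩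
    have e : Rt n ≃ Fin n := Finite.equivFinOfCardEq (card_rt hn)
    have hcont : Continuous (MulAction.toPermHom GQ (Rt n)) := by
      refine continuous_of_continuousAt_one _ ?_
      have h1 : ((MulAction.toPermHom GQ (Rt n)).ker : Set GQ) ∈ nhds (1 : GQ) :=
        (isOpen_ker_toPermHom hn).mem_nhds (one_mem _)
      have h2 : (fun _ : GQ => (1 : Equiv.Perm (Rt n))) =ᶠ[nhds 1]
          MulAction.toPermHom GQ (Rt n) := by
        filter_upwards [h1] with σ hσ
        exact (MonoidHom.mem_ker.mp hσ).symm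
      exact continuousAt_const.congr h2
    exact exists_galois_map (e.permCongrHom).toMonoidHom (e.permCongrHom).surjective
      (exists_galois_of_continuous _ hcont (surjective_toPermHom hn))

/-- **Every finite group is the Galois group of an extension of number fields.** -/
theorem exists_galois_finite (G : Type*) [Group G] [Finite G] :
    ∃ (K L : Type) (_ : Field K) (_ : NumberField K) (_ : Field L) (_ : NumberField L)
      (_ : Algebra K L) (_ : IsGalois K L), Nonempty ((L ≃ₐ[K] L) ≃* G) := by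
  obtain ⟨L, _, _, _, ⟨e⟩⟩ := exists_galois_perm (Nat.card G)
  let i : G →* (L ≃ₐ[ℚ] L) := (e.symm.toMonoidHom.comp
    ((Finite.equivFin G).permCongrHom.toMonoidHom)).comp (MulAction.toPermHom G G)
  have hi : Function.Injective i := by
    refine (e.symm.injective.comp (Equiv.injective _)).comp ?_
    exact MulAction.toPerm_injective
  let K : IntermediateField ℚ L := IntermediateField.fixedField i.range
  have h1 : K.fixingSubgroup = i.range := IntermediateField.fixingSubgroup_fixedField i.range
  refine ⟨K, L, inferInstance, inferInstance, inferInstance, inferInstance, inferInstance,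
    inferInstance, ⟨(K.fixingSubgroupEquiv.symm.trans (MulEquiv.subgroupCongr h1)).trans
      (MonoidHom.ofInjective hi).symm⟩⟩

end Fermat.Agent.Cor
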