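import Fermat.Agent.Corollaries.InvGal.Prod
import Fermat.Agent.Corollaries.InvGal.Sym
import Fermat.Agent.Corollaries.InvGal.IrrA
import Fermat.Agent.Frob.DensityAlgebraic

/-!
# The symmetric groups over `ℚ` with ramification outside a given set

`Xⁿ - aX - 1`, `(a, n) = 1`, `a > n`: the Galois group is the symmetric group, as for `Xⁿ - X - 1`
(`InvGal.Sym`), and the primes dividing `a` or `n` are unramified.
-/

set_option autoImplicit false
set_option linter.style.haveILetI false

namespace Fermat.Agent.Cor.InvGal.SymA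

open Polynomial

section Ring

variable {R : Type*} [CommRing R] [IsDomain R] {n a : ℕ}

/-- The polynomial `X ^ n - a X - 1`. -/
noncomputable def pol (R : Type*) [CommRing R] (n a : ℕ) : R[X] := X ^ n - C (a : R) * X - 1

omit [IsDomain R] in
theorem isRoot_pol {x : R} : (pol R n a).IsRoot x ↔ x ^ n = a * x + 1 := by
  rw [IsRoot.def, pol, eval_sub, eval_sub, eval_pow, eval_mul, eval_C, eval_X, eval_one, sub_sub,
    sub_eq_zero]

omit [IsDomain R] in
theorem map_pol {k : Type*} [CommRing k] (f : R →+* k) : (pol R n a).map f = pol k n a := by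
  simp [pol]

omit [IsDomain R] in
theorem derivative_pol : derivative (pol R n a) = C (n : R) * X ^ (n - 1) - C (a : R) := by
  rw [pol, derivative_sub, derivative_sub, derivative_X_pow, derivative_C_mul, derivative_X,
    derivative_one, sub_zero, mul_one]

omit [IsDomain R] in
theorem derivative_derivative_pol :
    derivative (derivative (pol R n a)) = C (n : R) * (C ((n - 1 : ℕ) : R) * X ^ (n - 1 - 1)) := by
  rw [derivative_pol, derivative_sub, derivative_C_mul, derivative_X_pow, derivative_C, sub_zero]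

/-- Three distinct roots: the product of the linear factors divides the polynomial. -/
theorem dvd_of_three {x y z : R} (hx : (pol R n a).IsRoot x) (hy : (pol R n a).IsRoot y)
    (hz : (pol R n a).IsRoot z) (hxy : x ≠ y) (hxz : x ≠ z) (hyz : y ≠ z) :
    (X - C x) * (X - C y) * (X - C z) ∣ pol R n a := by
  obtain ⟨g, hg⟩ := dvd_iff_isRoot.mpr hx
  have hy1 : g.IsRoot y := by
    have h := hy
    rw [hg, IsRoot.def, eval_mul, eval_sub, eval_X, eval_C] at h
    exact (mul_eq_zero.mp h).resolve_left (sub_ne_zero.mpr hxy.symm)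
  have hz1 : g.IsRoot z := by
    have h := hz
    rw [hg, IsRoot.def, eval_mul, eval_sub, eval_X, eval_C] at h
    exact (mul_eq_zero.mp h).resolve_left (sub_ne_zero.mpr hxz.symm)
  obtain ⟨g', hg'⟩ := dvd_iff_isRoot.mpr hy1
  have hz2 : g'.IsRoot z := by
    have h := hz1
    rw [hg', IsRoot.def, eval_mul, eval_sub, eval_X, eval_C] at h
    exact (mul_eq_zero.mp h).resolve_left (sub_ne_zero.mpr hyz.symm)
  obtain ⟨g'', hg''⟩ := dvd_iff_isRoot.mpr hz2
  exact ⟨g'', by rw [hg, hg', hg'']; ring⟩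

theorem dvd_of_two {x y : R} (hx : (pol R n a).IsRoot x) (hy : (pol R n a).IsRoot y)
    (hxy : x ≠ y) : (X - C x) * (X - C y) ∣ pol R n a := by
  obtain ⟨g, hg⟩ := dvd_iff_isRoot.mpr hx
  have hy1 : g.IsRoot y := by
    have h := hy
    rw [hg, IsRoot.def, eval_mul, eval_sub, eval_X, eval_C] at h
    exact (mul_eq_zero.mp h).resolve_left (sub_ne_zero.mpr hxy.symm)
  obtain ⟨g', hg'⟩ := dvd_iff_isRoot.mpr hy1
  exact ⟨g', by rw [hg, hg']; ring⟩

variable {k : Type*} [Field k] (f : R →+* k)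

/-- Two distinct roots with the same image `r`: `n r ^ (n - 1) = a`. -/
theorem eq_one_of_two {x y : R} (hx : x ^ n = a * x + 1) (hy : y ^ n = a * y + 1) (hxy : x ≠ y)
    (h : f x = f y) : (n : k) * f x ^ (n - 1) = a := by
  have h1 := Polynomial.map_dvd f (dvd_of_two (isRoot_pol.mpr hx) (isRoot_pol.mpr hy) hxy)
  rw [map_pol, Polynomial.map_mul, Polynomial.map_sub, Polynomial.map_sub, map_X, map_C, map_C,
    ← h, ← sq] at h1
  have h2 := pow_sub_one_dvd_derivative_of_pow_dvd h1
  rw [pow_one, dvd_iff_isRoot, derivative_pol, IsRoot.def, eval_sub, eval_mul, eval_C, eval_pow,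
    eval_X, eval_C, sub_eq_zero] at h2
  exact h2

/-- ... and `a (n - 1) r = -n`. -/
theorem key (hn : 2 ≤ n) {x y : R} (hx : x ^ n = a * x + 1) (hy : y ^ n = a * y + 1) (hxy : x ≠ y)
    (h : f x = f y) : (a : k) * ((n : k) - 1) * f x = -n := by
  have h3 := eq_one_of_two f hx hy hxy h
  have h4 : f x ^ n = a * f x + 1 := by rw [← map_pow, hx, map_add, map_mul, map_natCast, map_one]
  have h9 : (n : k) * f x ^ n = a * f x := by
    calc (n : k) * f x ^ n = (n : k) * f x ^ (n - 1) * f x := by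
          rw [mul_assoc, ← pow_succ, Nat.sub_add_cancel (by omega)]
      _ = a * f x := by rw [h3]
  rw [h4] at h9
  linear_combination h9

theorem root_ne_zero (hn : 2 ≤ n) {x : R} (hx : x ^ n = a * x + 1) : f x ≠ 0 := by
  have h4 : f x ^ n = a * f x + 1 := by rw [← map_pow, hx, map_add, map_mul, map_natCast, map_one]
  intro h0
  rw [h0, zero_pow (by omega), mul_zero, zero_add] at h4
  exact zero_ne_one h4

theorem cast_ne_zero_of_coprime (hc : n.Coprime a) (hn0 : (n : k) = 0) : (a : k) ≠ 0 := by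
  intro ha0
  have h1 := Nat.isCoprime_iff_coprime.mpr hc
  obtain ⟨u, v, huv⟩ := h1
  have h2 := congrArg (Int.cast : ℤ → k) huv
  push_cast at h2
  rw [hn0, ha0, mul_zero, mul_zero, add_zero] at h2
  exact zero_ne_one h2

/-- a multiple root: `n` and `a` do not vanish -/
theorem ne_zero_of_two (hn : 2 ≤ n) (hc : n.Coprime a) {x y : R} (hx : x ^ n = a * x + 1)
    (hy : y ^ n = a * y + 1) (hxy : x ≠ y) (h : f x = f y) : (n : k) ≠ 0 ∧ (a : k) ≠ 0 := by
  have h1 := eq_one_of_two f hx hy hxy h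
  have hn0 : (n : k) ≠ 0 := by
    intro h0
    rw [h0, zero_mul] at h1
    exact cast_ne_zero_of_coprime hc h0 h1.symm
  refine ⟨hn0, fun h0 => ?_⟩
  rw [h0] at h1
  rcases mul_eq_zero.mp h1 with h2 | h2
  · exact hn0 h2
  · exact pow_ne_zero _ (root_ne_zero f hn hx) h2

/-- There are no three distinct roots with the same image, `2 ≤ n`. -/
theorem false_of_three (hn : 2 ≤ n) (hc : n.Coprime a) {x y z : R} (hx : x ^ n = a * x + 1)
    (hy : y ^ n = a * y + 1) (hz : z ^ n = a * z + 1) (hxy : x ≠ y) (hxz : x ≠ z) (hyz : y ≠ z)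
    (h : f x = f y) (h' : f x = f z) : False := by
  have h1 := Polynomial.map_dvd f (dvd_of_three (isRoot_pol.mpr hx) (isRoot_pol.mpr hy)
    (isRoot_pol.mpr hz) hxy hxz hyz)
  rw [map_pol, Polynomial.map_mul, Polynomial.map_mul, Polynomial.map_sub, Polynomial.map_sub,
    Polynomial.map_sub, map_X, map_C, map_C, map_C, ← h, ← h', ← sq, ← pow_succ] at h1
  have h2 := pow_sub_one_dvd_derivative_of_pow_dvd (pow_sub_one_dvd_derivative_of_pow_dvd h1)
  rw [show 2 + 1 - 1 - 1 = 1 from rfl, pow_one, dvd_iff_isRoot, derivative_derivative_pol,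
    IsRoot.def, eval_mul, eval_C, eval_mul, eval_C, eval_pow, eval_X] at h2
  obtain ⟨hn0, ha0⟩ := ne_zero_of_two f hn hc hx hy hxy h
  have hx0 := root_ne_zero f hn hx
  rcases mul_eq_zero.mp h2 with h5 | h5
  · exact hn0 h5
  rcases mul_eq_zero.mp h5 with h6 | h6
  · -- `n = 1` in `k`
    have h7 : (n : k) = 1 := by
      have h8 : ((n - 1 : ℕ) : k) + 1 = n := by
        rw [← Nat.cast_succ, Nat.succ_eq_add_one, Nat.sub_add_cancel (by omega)]
      rw [← h8, h6, zero_add]
    have h9 := key f hn hx hy hxy h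
    rw [h7, sub_self, mul_zero, zero_mul] at h9
    exact one_ne_zero (by linear_combination h9 : (1 : k) = 0)
  · exact pow_ne_zero _ hx0 h6

/-- **Two pairs of distinct roots with the same images are equal.** -/
theorem eq_or_eq_of_pairs (hn : 2 ≤ n) (hc : n.Coprime a) {x y z w : R} (hx : x ^ n = a * x + 1)
    (hy : y ^ n = a * y + 1) (hz : z ^ n = a * z + 1) (hw : w ^ n = a * w + 1) (hxy : x ≠ y)
    (hzw : z ≠ w) (h : f x = f y) (h' : f z = f w) : z = x ∨ z = y := by
  have h1 := key f hn hx hy hxy h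
  have h2 := key f hn hz hw hzw h'
  obtain ⟨hn0, ha0⟩ := ne_zero_of_two f hn hc hx hy hxy h
  have hn1 : (a : k) * ((n : k) - 1) ≠ 0 := by
    intro h0
    rw [h0, zero_mul] at h1
    exact hn0 (by linear_combination h1)
  have h3 : f x = f z := mul_left_cancel₀ hn1 (h1.trans h2.symm)
  by_contra hcon
  rw [not_or] at hcon
  exact false_of_three f hn hc hx hy hz hxy (Ne.symm hcon.1) (Ne.symm hcon.2) h h3

end Ring

open Fermat.Agent.Frob Fermat.Agent.Minkowski

/-- The roots of `X ^ n - a X - 1` in the ring of algebraic integers. -/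
def Rt (n a : ℕ) : Type := {x : Zbar // x ^ n = a * x + 1}

variable {n a : ℕ}

theorem smul_eq (σ : GQ) {x : Zbar} (hx : x ^ n = a * x + 1) :
    (σ • x) ^ n = a * (σ • x) + 1 := by
  rw [← smul_pow', hx, smul_add, smul_one, smul_mul']
  congr 2
  exact map_natCast (MulSemiringAction.toRingHom GQ Zbar σ) a

noncomputable instance : MulAction GQ (Rt n a) where
  smul σ x := ⟨σ • x.1, smul_eq σ x.2⟩
  one_smul x := Subtype.ext (one_smul _ _)
  mul_smul σ τ x := Subtype.ext (mul_smul _ _ _)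

noncomputable instance : DecidableEq (Rt n a) := Classical.decEq _

theorem coe_smul (σ : GQ) (x : Rt n a) :
    (((σ • x).1 : Zbar) : AlgebraicClosure ℚ) = σ ((x.1 : Zbar) : AlgebraicClosure ℚ) := rfl

theorem Rt.ext {x y : Rt n a} (h : ((x.1 : Zbar) : AlgebraicClosure ℚ) = y.1) : x = y :=
  Subtype.ext (Subtype.ext h)

theorem Rt.eq (x : Rt n a) :
    ((x.1 : Zbar) : AlgebraicClosure ℚ) ^ n = a * ((x.1 : Zbar) : AlgebraicClosure ℚ) + 1 :=
  congrArg (fun z : Zbar => (z : AlgebraicClosure ℚ)) x.2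

theorem degree_lt (R : Type*) [CommRing R] [Nontrivial R] (hn : 2 ≤ n) :
    (C (a : R) * X + 1 : R[X]).degree < (X ^ n : R[X]).degree := by
  rw [degree_X_pow, ← C_1]
  exact lt_of_le_of_lt degree_linear_le (by exact_mod_cast hn)

theorem monic_pol (R : Type*) [CommRing R] [Nontrivial R] (hn : 2 ≤ n) : (pol R n a).Monic := by
  rw [pol, sub_sub]
  exact (monic_X_pow n).sub_of_left (degree_lt R hn)

theorem natDegree_pol (hn : 2 ≤ n) : (pol ℚ n a).natDegree = n := by
  rw [pol, sub_sub, natDegree_sub_eq_left_of_natDegree_lt, natDegree_X_pow]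
  rw [natDegree_X_pow, ← C_1]
  exact lt_of_le_of_lt natDegree_linear_le (by omega)

theorem irreducible_pol (hn : 2 ≤ n) (ha : n < a) : Irreducible (pol ℚ n a) :=
  irreducible_polA hn ha

theorem aeval_pol (x : AlgebraicClosure ℚ) : aeval x (pol ℚ n a) = 0 ↔ x ^ n = a * x + 1 := by
  rw [pol]
  simp only [map_sub, map_pow, aeval_X, map_one, map_mul, aeval_C, map_natCast]
  rw [sub_sub, sub_eq_zero]

/-- The roots in `ℚ̄`. -/
noncomputable def rtEquiv (hn : 2 ≤ n) : Rt n a ≃ (pol ℚ n a).rootSet (AlgebraicClosure ℚ) where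
  toFun x := ⟨x.1, by
    rw [mem_rootSet_of_ne (monic_pol ℚ hn).ne_zero, aeval_pol]
    exact x.eq⟩
  invFun y := ⟨⟨y.1, by
    have h := y.2
    rw [mem_rootSet_of_ne (monic_pol ℚ hn).ne_zero, aeval_pol] at h
    refine ⟨pol ℤ n a, monic_pol ℤ hn, ?_⟩
    · rw [← eval_map, map_pol, ← IsRoot.def, isRoot_pol]
      exact h⟩, by
    have h := y.2
    rw [mem_rootSet_of_ne (monic_pol ℚ hn).ne_zero, aeval_pol] at h
    exact Subtype.ext h⟩
  left_inv x := rfl
  right_inv y := rfl

theorem card_rt (hn : 2 ≤ n) (ha : n < a) : Nat.card (Rt n a) = n := by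
  rw [Nat.card_congr (rtEquiv hn), Nat.card_eq_fintype_card,
    card_rootSet_eq_natDegree (irreducible_pol hn ha).separable (IsAlgClosed.splits _),
    natDegree_pol hn]

theorem isPretransitive (hn : 2 ≤ n) (ha : n < a) : MulAction.IsPretransitive GQ (Rt n a) := by
  constructor
  intro x y
  have hx : minpoly ℚ ((x.1 : Zbar) : AlgebraicClosure ℚ) = pol ℚ n a :=
    (minpoly.eq_of_irreducible_of_monic (irreducible_pol hn ha) ((aeval_pol _).mpr x.eq)
      (monic_pol ℚ hn)).symm
  have hy : minpoly ℚ ((y.1 : Zbar) : AlgebraicClosure ℚ) = pol ℚ n a :=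
    (minpoly.eq_of_irreducible_of_monic (irreducible_pol hn ha) ((aeval_pol _).mpr y.eq)
      (monic_pol ℚ hn)).symm
  have h : IsConjRoot ℚ ((x.1 : Zbar) : AlgebraicClosure ℚ) y.1 := hx.trans hy.symm
  obtain ⟨σ, hσ⟩ := isConjRoot_iff_exists_algEquiv.mp h.symm
  exact ⟨σ, Rt.ext hσ⟩

theorem residue_eq {A : ValuationSubring (AlgebraicClosure ℚ)} {σ : GQ}
    (hσ : σ ∈ A.inertiaSubgroupIn ℚ) (x : Rt n a) :
    ((IsLocalRing.residue A).comp (toVal A)) x.1 =
      ((IsLocalRing.residue A).comp (toVal A)) (σ • x).1 := by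
  have h1 := (sub_mem_nonunits_of_mem_inertia hσ (mem_of_mem_Zbar A x.1)).2
  have h2 : (σ • x).1 - x.1 ∈ centre A := by
    rw [mem_centre_iff]
    exact h1
  have h3 : ((IsLocalRing.residue A).comp (toVal A)) ((σ • x).1 - x.1) = 0 :=
    (IsLocalRing.residue_eq_zero_iff _).mpr h2
  rw [map_sub, sub_eq_zero] at h3
  exact h3.symm

/-- **The inertia groups act through `1` and transpositions.** -/
theorem inertia (hn : 2 ≤ n) (hc : n.Coprime a) {A : ValuationSubring (AlgebraicClosure ℚ)}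
    {σ : GQ} (hσ : σ ∈ A.inertiaSubgroupIn ℚ) :
    MulAction.toPermHom GQ (Rt n a) σ = 1 ∨ (MulAction.toPermHom GQ (Rt n a) σ).IsSwap := by
  let f : Zbar →+* IsLocalRing.ResidueField A := (IsLocalRing.residue A).comp (toVal A)
  have hf : ∀ x : Rt n a, f x.1 = f (σ • x).1 := fun x => residue_eq hσ x
  by_cases hall : ∀ x : Rt n a, σ • x = x
  · exact Or.inl (Equiv.ext hall)
  · push Not at hall
    obtain ⟨b, hb⟩ := hall
    refine Or.inr ⟨b, σ • b, Ne.symm hb, Equiv.ext fun z => ?_⟩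
    have key : ∀ z : Rt n a, σ • z ≠ z → z = b ∨ z = σ • b := by
      intro z hz
      rcases eq_or_eq_of_pairs f hn hc b.2 (σ • b).2 z.2 (σ • z).2
        (fun h => hb (Subtype.ext h).symm) (fun h => hz (Subtype.ext h).symm) (hf b) (hf z) with
        h | h
      · exact Or.inl (Subtype.ext h)
      · exact Or.inr (Subtype.ext h)
    change σ • z = _
    by_cases h1 : z = b
    · rw [h1, Equiv.swap_apply_left]
    · by_cases h2 : z = σ • b
      · rw [h2, Equiv.swap_apply_right]
        rcases key (σ • σ • b) (fun h => by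
          have h3 := smul_left_cancel σ h
          exact hb (smul_left_cancel σ h3)) with h3 | h3
        · exact h3
        · exact absurd (smul_left_cancel σ h3) hb
      · rw [Equiv.swap_apply_of_ne_of_ne h1 h2]
        by_contra h3
        rcases key z h3 with h4 | h4
        · exact h1 h4
        · exact h2 h4

/-- **At the primes dividing `a` or `n` the inertia groups act trivially.** -/
theorem inertia_eq_one (hn : 2 ≤ n) (hc : n.Coprime a) {q : ℕ} (hq : q ∣ a ∨ q ∣ n)
    {A : ValuationSubring (AlgebraicClosure ℚ)} (hA : A.LiesOverPrime q) {σ : GQ}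
    (hσ : σ ∈ A.inertiaSubgroupIn ℚ) : MulAction.toPermHom GQ (Rt n a) σ = 1 := by
  let f : Zbar →+* IsLocalRing.ResidueField A := (IsLocalRing.residue A).comp (toVal A)
  have hf : ∀ x : Rt n a, f x.1 = f (σ • x).1 := fun x => residue_eq hσ x
  have hq0 : ((q : ℕ) : IsLocalRing.ResidueField A) = 0 := Fermat.Agent.FrobDensity.natCast_residue_eq_zero hA
  refine Equiv.ext fun x => ?_
  by_contra hx
  have hx' : x.1 ≠ (σ • x).1 := fun h => hx (Subtype.ext h).symm
  obtain ⟨h1, h2⟩ := ne_zero_of_two f hn hc x.2 (σ • x).2 hx' (hf x)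
  rcases hq with ⟨c, rfl⟩ | ⟨c, rfl⟩
  · rw [Nat.cast_mul, hq0, zero_mul] at h2
    exact h2 rfl
  · rw [Nat.cast_mul, hq0, zero_mul] at h1
    exact h1 rfl

theorem finite_rt (hn : 2 ≤ n) (ha : n < a) : Finite (Rt n a) :=
  Nat.finite_of_card_ne_zero (by rw [card_rt hn ha]; omega)

theorem isOpen_ker_toPermHom (hn : 2 ≤ n) (ha : n < a) :
    IsOpen ((MulAction.toPermHom GQ (Rt n a)).ker : Set GQ) := by
  have := finite_rt hn ha
  let S : Set (AlgebraicClosure ℚ) :=
    Set.range (fun x : Rt n a => ((x.1 : Zbar) : AlgebraicClosure ℚ))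
  have hS : S.Finite := Set.finite_range _
  have := hS.to_subtype
  have : FiniteDimensional ℚ (IntermediateField.adjoin ℚ S) :=
    IntermediateField.finiteDimensional_adjoin fun x _ =>
      (Algebra.IsIntegral.isIntegral (R := ℚ) x)
  refine Subgroup.isOpen_mono (H₁ := (IntermediateField.adjoin ℚ S).fixingSubgroup) ?_
    (IntermediateField.fixingSubgroup_isOpen _)
  intro σ hσ
  rw [MonoidHom.mem_ker]
  refine Equiv.ext fun x => Rt.ext ?_
  exact (IntermediateField.mem_fixingSubgroup_iff _ _).mp hσ _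
    (IntermediateField.subset_adjoin ℚ S ⟨x, rfl⟩)

/-- **The absolute Galois group of `ℚ` acts on the roots of `X ^ n - a X - 1` through the full
symmetric group.** -/
theorem surjective_toPermHom (hn : 2 ≤ n) (ha : n < a) (hc : n.Coprime a) :
    Function.Surjective (MulAction.toPermHom GQ (Rt n a)) := by
  have := finite_rt hn ha
  have := isPretransitive hn ha
  let S : Set GQ := {σ | ∃ ℓ : ℕ, ℓ.Prime ∧ ∃ A : ValuationSubring (AlgebraicClosure ℚ),
    A.LiesOverPrime ℓ ∧ σ ∈ A.inertiaSubgroupIn ℚ} ∪ (MulAction.toPermHom GQ (Rt n a)).ker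
  have htop : Subgroup.normalClosure S = ⊤ := by
    refine eq_top_of_inertia_le _ ?_ fun ℓ hℓ A hA σ hσ =>
      Subgroup.subset_normalClosure (Or.inl ⟨ℓ, hℓ, A, hA, hσ⟩)
    exact Subgroup.isOpen_mono (H₁ := (MulAction.toPermHom GQ (Rt n a)).ker)
      (fun σ hσ => Subgroup.subset_normalClosure (Or.inr hσ)) (isOpen_ker_toPermHom hn ha)
  refine surjective_of_isSwap_of_isPretransitive' (Group.conjugatesOfSet S) ?_ htop
  intro σ hσ
  obtain ⟨b, hb, hcj⟩ := Group.mem_conjugatesOfSet_iff.mp hσ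
  obtain ⟨g, rfl⟩ := isConj_iff.mp hcj
  have h1 : MulAction.toPermHom GQ (Rt n a) b = 1 ∨ (MulAction.toPermHom GQ (Rt n a) b).IsSwap := by
    rcases hb with ⟨ℓ, hℓ, A, hA, h⟩ | h
    · exact inertia hn hc h
    · exact Or.inl h
  rw [map_mul, map_mul, map_inv]
  rcases h1 with h1 | ⟨x, y, hxy, h1⟩
  · left
    rw [h1, mul_one, mul_inv_cancel]
  · right
    refine ⟨MulAction.toPermHom GQ (Rt n a) g x, MulAction.toPermHom GQ (Rt n a) g y,
      fun h => hxy (Equiv.injective _ h), ?_⟩
    rw [h1, Equiv.swap_apply_apply]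

end Fermat.Agent.Cor.InvGal.SymA

namespace Fermat.Agent.Cor

open Fermat.Agent.Frob InvGal.SymA NumberField

/-- A multiplier: prime to `n`, larger than `n`, divisible by the primes `≤ B` which do not divide
`n`. -/
theorem InvGal.SymA.exists_mult (n B : ℕ) (hn : 2 ≤ n) : ∃ a : ℕ, n < a ∧ n.Coprime a ∧
    ∀ q : ℕ, q.Prime → q ≤ B → q ∣ a ∨ q ∣ n := by
  obtain ⟨p, hp1, hp2⟩ := Nat.exists_infinite_primes (n + 1)
  refine ⟨∏ q ∈ (Finset.range (max B p + 1)).filter (fun q => q.Prime ∧ ¬ q ∣ n), q, ?_, ?_, ?_⟩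
  · have h1 : p ∈ (Finset.range (max B p + 1)).filter (fun q => q.Prime ∧ ¬ q ∣ n) := by
      rw [Finset.mem_filter, Finset.mem_range]
      exact ⟨by omega, hp2, fun h => by
        have := Nat.le_of_dvd (by omega) h
        omega⟩
    have h2 : p ≤ ∏ q ∈ (Finset.range (max B p + 1)).filter (fun q => q.Prime ∧ ¬ q ∣ n), q := by
      refine Nat.le_of_dvd (Finset.prod_pos fun q hq => ?_) (Finset.dvd_prod_of_mem _ h1)
      exact (Finset.mem_filter.mp hq).2.1.pos
    omega
  · refine Nat.Coprime.prod_right fun q hq => ?_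
    obtain ⟨-, hq1, hq2⟩ := Finset.mem_filter.mp hq
    exact ((Nat.Prime.coprime_iff_not_dvd hq1).mpr hq2).symm
  · intro q hq hqB
    by_cases h : q ∣ n
    · exact Or.inr h
    · refine Or.inl (Finset.dvd_prod_of_mem (fun q => q) ?_)
      rw [Finset.mem_filter, Finset.mem_range]
      exact ⟨by omega, hq, h⟩

/-- **The symmetric groups are Galois groups over `ℚ` of number fields whose discriminants have only
prime factors larger than a given bound.** -/
theorem exists_galois_perm_gt (n B : ℕ) :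
    ∃ (L : Type) (_ : Field L) (_ : NumberField L) (_ : IsGalois ℚ L),
      Nonempty ((L ≃ₐ[ℚ] L) ≃* Equiv.Perm (Fin n)) ∧
        ∀ q : ℕ, q.Prime → (q : ℤ) ∣ discr L → B < q := by
  letI : TopologicalSpace (Equiv.Perm (Fin n)) := ⊥
  haveI : DiscreteTopology (Equiv.Perm (Fin n)) := ⟨rfl⟩
  rw [exists_galois_ram_iff]
  rcases lt_or_ge n 2 with hn | hn
  · have : Subsingleton (Equiv.Perm (Fin n)) := by
      interval_cases n <;> infer_instance
    exact ⟨1, continuous_const, fun x => ⟨1, Subsingleton.elim _ _⟩,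
      fun q hq _ A hA σ hσ => Subsingleton.elim _ _⟩
  · obtain ⟨a, ha, hc, hq⟩ := exists_mult n B hn
    have := finite_rt hn ha
    letI : TopologicalSpace (Equiv.Perm (Rt n a)) := ⊥
    haveI : DiscreteTopology (Equiv.Perm (Rt n a)) := ⟨rfl⟩
    have e : Rt n a ≃ Fin n := Finite.equivFinOfCardEq (card_rt hn ha)
    refine ⟨(e.permCongrHom).toMonoidHom.comp (MulAction.toPermHom GQ (Rt n a)), ?_,
      (e.permCongrHom).surjective.comp (surjective_toPermHom hn ha hc), ?_⟩
    · refine InvGal.continuous_of_isOpen_ker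
        (Subgroup.isOpen_mono (fun σ hσ => ?_) (isOpen_ker_toPermHom hn ha))
      rw [MonoidHom.mem_ker] at hσ ⊢
      rw [MonoidHom.comp_apply, hσ, map_one]
    · intro q hqp hqB A hA σ hσ
      have h1 := inertia_eq_one hn hc (hq q hqp (not_lt.mp hqB)) hA hσ
      rw [MonoidHom.comp_apply, h1, map_one]

/-- `G` is a Galois group over `ℚ` with ramification only at large primes. -/
def IsGaloisGroupGt (G : Type) [Group G] : Prop := ∀ B : ℕ,
  ∃ (L : Type) (_ : Field L) (_ : NumberField L) (_ : IsGalois ℚ L),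
    Nonempty ((L ≃ₐ[ℚ] L) ≃* G) ∧ ∀ q : ℕ, q.Prime → (q : ℤ) ∣ discr L → B < q

theorem IsGaloisGroupGt.prod {G H : Type} [Group G] [Group H] (hG : IsGaloisGroupGt G)
    (hH : IsGaloisGroupGt H) : IsGaloisGroupGt (G × H) := by
  intro B
  obtain ⟨L, h1, h2, h3, h4, h5⟩ := hG B
  obtain ⟨M, i1, i2, i3, i4, i5⟩ := hH (max B (discr L).natAbs)
  obtain ⟨N, j1, j2, j3, j4, j5⟩ := exists_galois_prod_of_disjoint (G := G) (H := H)
    (S := fun q => B < q ∧ (q : ℤ) ∣ discr L) (T := fun q => max B (discr L).natAbs < q)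
    (fun _ _ hS hT => absurd (Nat.le_of_dvd (Int.natAbs_pos.mpr (discr_ne_zero L))
      (Int.natCast_dvd.mp hS.2)) (not_le.mpr (lt_of_le_of_lt (le_max_right _ _) hT)))
    ⟨L, h1, h2, h3, h4, fun q hq h => ⟨h5 q hq h, h⟩⟩ ⟨M, i1, i2, i3, i4, i5⟩
  refine ⟨N, j1, j2, j3, j4, fun q hq h => ?_⟩
  rcases j5 q hq h with h6 | h6
  · exact h6.1
  · exact lt_of_le_of_lt (le_max_left _ _) h6

theorem IsGaloisGroupGt.of_equiv {G H : Type} [Group G] [Group H] (e : G ≃* H)
    (hG : IsGaloisGroupGt G) : IsGaloisGroupGt H := by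
  intro B
  obtain ⟨L, h1, h2, h3, ⟨h4⟩, h5⟩ := hG B
  exact ⟨L, h1, h2, h3, ⟨h4.trans e⟩, h5⟩

theorem isGaloisGroupGt_perm (n : ℕ) : IsGaloisGroupGt (Equiv.Perm (Fin n)) :=
  fun B => exists_galois_perm_gt n B

theorem isGaloisGroupGt_comm (A : Type) [CommGroup A] [Finite A] : IsGaloisGroupGt A :=
  fun B => exists_galois_comm_gt A B

theorem isGaloisGroupGt_pi : ∀ (k : ℕ) (G : Fin k → Type) [∀ i, Group (G i)],
    (∀ i, IsGaloisGroupGt (G i)) → IsGaloisGroupGt (∀ i, G i) := by
  intro k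
  induction k with
  | zero =>
    intro G _ _
    exact IsGaloisGroupGt.of_equiv (G := Unit)
      { toFun := fun _ => 1
        invFun := fun _ => ()
        left_inv := fun _ => rfl
        right_inv := fun _ => Subsingleton.elim _ _
        map_mul' := fun _ _ => Subsingleton.elim _ _ } (isGaloisGroupGt_comm Unit)
  | succ k ih =>
    intro G _ h
    exact IsGaloisGroupGt.of_equiv (G := G 0 × (∀ i : Fin k, G i.succ))
      { toFun := fun p => Fin.cons p.1 p.2
        invFun := fun f => (f 0, fun i => f i.succ)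
        left_inv := fun p => by simp
        right_inv := fun f => Fin.cons_self_tail f
        map_mul' := fun p q => by
          funext i
          refine Fin.cases ?_ (fun j => ?_) i
          · simp
          · simp } ((h 0).prod (ih _ fun i => h i.succ))

/-- **`S_{n₁} × ⋯ × S_{n_k} × A` is a Galois group over `ℚ`**, `A` a finite abelian group, with a field
whose discriminant has only prime factors larger than a given bound. -/
theorem exists_galois_pi_perm_prod (k : ℕ) (n : Fin k → ℕ) (A : Type) [CommGroup A] [Finite A]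
    (B : ℕ) : ∃ (L : Type) (_ : Field L) (_ : NumberField L) (_ : IsGalois ℚ L),
      Nonempty ((L ≃ₐ[ℚ] L) ≃* ((i : Fin k) → Equiv.Perm (Fin (n i))) × A) ∧
        ∀ q : ℕ, q.Prime → (q : ℤ) ∣ discr L → B < q :=
  ((isGaloisGroupGt_pi k _ fun i => isGaloisGroupGt_perm (n i)).prod (isGaloisGroupGt_comm A)) B

/-- **If `G` is a Galois group over `ℚ`, so is `G × S_{n₁} × ⋯ × S_{n_k} × A`.** -/
theorem exists_galois_prod_pi_perm {G : Type} [Group G]
    (h : ∃ (L : Type) (_ : Field L) (_ : NumberField L) (_ : IsGalois ℚ L),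
      Nonempty ((L ≃ₐ[ℚ] L) ≃* G)) (k : ℕ) (n : Fin k → ℕ) (A : Type) [CommGroup A] [Finite A] :
    ∃ (L : Type) (_ : Field L) (_ : NumberField L) (_ : IsGalois ℚ L),
      Nonempty ((L ≃ₐ[ℚ] L) ≃* G × ((i : Fin k) → Equiv.Perm (Fin (n i))) × A) := by
  obtain ⟨L, _, _, _, ⟨e⟩⟩ := h
  obtain ⟨M, h1, h2, h3, h4, -⟩ := exists_galois_prod_of_disjoint (G := G)
    (H := ((i : Fin k) → Equiv.Perm (Fin (n i))) × A)
    (S := fun q => (q : ℤ) ∣ discr L) (T := fun q => (discr L).natAbs < q)
    (fun _ _ hS hT => absurd (Nat.le_of_dvd (Int.natAbs_pos.mpr (discr_ne_zero L))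
      (Int.natCast_dvd.mp hS)) (not_le.mpr hT))
    ⟨L, inferInstance, inferInstance, inferInstance, ⟨e⟩, fun _ _ h => h⟩
    (exists_galois_pi_perm_prod k n A _)
  exact ⟨M, h1, h2, h3, h4⟩

end Fermat.Agent.Cor
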