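import Mathlib

/-!
# Every finite abelian group is a Galois group over `ℚ`

`exists_subfield_cyclotomic`: for every finite abelian group `G` and every bound `B` there are a
squarefree `N` all of whose prime factors are larger than `B` and a subfield `F` of `ℚ(ζ_N)` with
`Gal(F/ℚ) ≃* G`.
-/

set_option autoImplicit false

namespace Fermat.Agent.Cor.InvGal

open NumberField

/-- An increasing sequence of primes `q k ≡ 1 mod n k`, all larger than `B`. -/
theorem exists_primes_seq (B : ℕ) (n : ℕ → ℕ) (hn : ∀ k, n k ≠ 0) :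
    ∃ q : ℕ → ℕ, StrictMono q ∧ ∀ k, (q k).Prime ∧ B < q k ∧ n k ∣ q k - 1 := by
  have step : ∀ k m : ℕ, ∃ p : ℕ, p.Prime ∧ m < p ∧ n k ∣ p - 1 := by
    intro k m
    obtain ⟨p, hp, hm, h⟩ := Nat.exists_prime_gt_modEq_one m (hn k)
    exact ⟨p, hp, hm, (Nat.modEq_iff_dvd' hp.one_lt.le).1 h.symm⟩
  choose g hg using step
  let q : ℕ → ℕ := fun k => Nat.rec (g 0 B) (fun k r => g (k + 1) (max B r)) k
  have hq0 : q 0 = g 0 B := rfl
  have hqs : ∀ k, q (k + 1) = g (k + 1) (max B (q k)) := fun k => rfl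
  refine ⟨q, strictMono_nat_of_lt_succ fun k => ?_, fun k => ?_⟩
  · rw [hqs]
    exact (le_max_right _ _).trans_lt (hg _ _).2.1
  · cases k with
    | zero => exact hg 0 B
    | succ k =>
      rw [hqs]
      exact ⟨(hg _ _).1, (le_max_left _ _).trans_lt (hg _ _).2.1, (hg _ _).2.2⟩

/-- `(ℤ/q)ˣ` maps onto `ℤ/n` if `n ∣ q - 1`. -/
theorem exists_surjective_zmod_of_dvd {q n : ℕ} (hq : q.Prime) (h : n ∣ q - 1) :
    ∃ f : (ZMod q)ˣ →* Multiplicative (ZMod n), Function.Surjective f := by
  have := Fact.mk hq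
  have hc : Nat.card (ZMod q)ˣ = q - 1 := by
    rw [Nat.card_eq_fintype_card, ZMod.card_units_eq_totient, Nat.totient_prime hq]
  have hcyc : IsCyclic (ZMod q)ˣ := inferInstance
  have hd : n ∣ Nat.card (ZMod q)ˣ := hc ▸ h
  refine ⟨(AddMonoidHom.toMultiplicative (ZMod.castHom hd (ZMod n)).toAddMonoidHom).comp
    (zmodCyclicMulEquiv hcyc).symm.toMonoidHom, ?_⟩
  intro y
  obtain ⟨x, hx⟩ := ZMod.castHom_surjective hd y.toAdd
  refine ⟨zmodCyclicMulEquiv hcyc (Multiplicative.ofAdd x), ?_⟩
  simp only [MonoidHom.comp_apply, MulEquiv.toMonoidHom_eq_coe, MonoidHom.coe_coe,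
    MulEquiv.symm_apply_apply]
  exact hx

/-- Every finite abelian group is a quotient of `(ℤ/N)ˣ` for some squarefree `N` with large prime
factors. -/
theorem exists_surjective_zmodUnits (G : Type*) [CommGroup G] [Finite G] (B : ℕ) :
    ∃ (N : ℕ) (f : (ZMod N)ˣ →* G), N ≠ 0 ∧ Squarefree N ∧ (∀ q : ℕ, q.Prime → q ∣ N → B < q) ∧
      Function.Surjective f := by
  obtain ⟨ι, hι, n, hn1, ⟨e⟩⟩ := CommGroup.equiv_prod_multiplicative_zmod_of_finite G
  let n' : ℕ → ℕ := fun k => if h : k < Fintype.card ι then n ((Fintype.equivFin ι).symm ⟨k, h⟩)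
    else 1
  have hn' : ∀ k, n' k ≠ 0 := by
    intro k
    by_cases h : k < Fintype.card ι
    · simp only [n', h, dif_pos]
      have := hn1 ((Fintype.equivFin ι).symm ⟨k, h⟩)
      omega
    · simp [n', h]
  obtain ⟨q, hmono, hq⟩ := exists_primes_seq B n' hn'
  let r : ι → ℕ := fun i => q (Fintype.equivFin ι i)
  have hr : ∀ i, n i ∣ r i - 1 := by
    intro i
    have h1 := (hq (Fintype.equivFin ι i)).2.2
    have h2 : n' (Fintype.equivFin ι i) = n i := by
      simp only [n']
      rw [dif_pos (Fintype.equivFin ι i).2]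
      congr 1
      simp
    rwa [h2] at h1
  have hrp : ∀ i, (r i).Prime := fun i => (hq _).1
  have hinj : Function.Injective r := by
    intro i j h
    exact (Fintype.equivFin ι).injective (Fin.ext (hmono.injective h))
  have hcop : Pairwise (Function.onFun Nat.Coprime r) := by
    intro i j hij
    exact (Nat.coprime_primes (hrp i) (hrp j)).2 (fun h => hij (hinj h))
  choose f hf using fun i => exists_surjective_zmod_of_dvd (hrp i) (hr i)
  let F : (∀ i, (ZMod (r i))ˣ) →* ∀ i, Multiplicative (ZMod (n i)) := MonoidHom.pi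
    fun i => (f i).comp (Pi.evalMonoidHom _ i)
  have hF : Function.Surjective F := by
    intro y
    choose x hx using fun i => hf i (y i)
    exact ⟨x, funext hx⟩
  refine ⟨∏ i, r i, e.symm.toMonoidHom.comp (F.comp ((MulEquiv.piUnits).toMonoidHom.comp
    (Units.mapEquiv (ZMod.prodEquivPi r hcop).toMulEquiv).toMonoidHom)), ?_, ?_, ?_, ?_⟩
  · exact Finset.prod_ne_zero_iff.2 fun i _ => (hrp i).ne_zero
  · exact Finset.squarefree_prod_of_pairwise_isCoprime (fun i _ j _ hij =>
      Nat.coprime_iff_isRelPrime.1 (hcop hij)) fun i _ => (hrp i).prime.squarefree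
  · intro p hp hd
    obtain ⟨i, -, hi⟩ := (hp.prime.dvd_finsetProd_iff _).1 hd
    rw [(Nat.prime_dvd_prime_iff_eq hp (hrp i)).1 hi]
    exact (hq _).2.1
  · exact e.symm.surjective.comp (hF.comp ((MulEquiv.piUnits).surjective.comp
      (Units.mapEquiv (ZMod.prodEquivPi r hcop).toMulEquiv).surjective))

/-- `CyclotomicField N ℚ` is a cyclotomic extension for the canonical `ℚ`-algebra structure. -/
theorem isCyclotomicExtension_rat (N : ℕ) [NeZero N] :
    IsCyclotomicExtension {N} ℚ (CyclotomicField N ℚ) := by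
  have hz : NeZero ((N : ℕ) : ℚ) := ⟨by exact_mod_cast NeZero.ne N⟩
  have h : @IsCyclotomicExtension {N} ℚ (CyclotomicField N ℚ) _ _
    (CyclotomicField.algebra N ℚ) := CyclotomicField.isCyclotomicExtension N ℚ
  have e : (DivisionRing.toRatAlgebra : Algebra ℚ (CyclotomicField N ℚ)) =
    CyclotomicField.algebra N ℚ := Subsingleton.elim _ _
  rw [e]
  exact h

/-- **Every finite abelian group is the Galois group of a subfield of a cyclotomic field**
`ℚ(ζ_N)`, where `N` is squarefree and prime to any given number. -/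
theorem exists_subfield_cyclotomic (G : Type*) [CommGroup G] [Finite G] (B : ℕ) :
    ∃ (N : ℕ) (_ : NeZero N) (F : IntermediateField ℚ (CyclotomicField N ℚ)), Squarefree N ∧
      (∀ q : ℕ, q.Prime → q ∣ N → B < q) ∧ IsGalois ℚ F ∧ Nonempty ((F ≃ₐ[ℚ] F) ≃* G) := by
  obtain ⟨N, f, hN, hsq, hB, hf⟩ := exists_surjective_zmodUnits G B
  have hNZ : NeZero N := ⟨hN⟩
  have hcyc := isCyclotomicExtension_rat N
  have hGal : IsGalois ℚ (CyclotomicField N ℚ) := IsCyclotomicExtension.isGalois {N} ℚ _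
  let g : (CyclotomicField N ℚ ≃ₐ[ℚ] CyclotomicField N ℚ) →* G :=
    f.comp (IsCyclotomicExtension.Rat.galEquivZMod N (CyclotomicField N ℚ)).toMonoidHom
  have hg : Function.Surjective g :=
    hf.comp (IsCyclotomicExtension.Rat.galEquivZMod N (CyclotomicField N ℚ)).surjective
  have hn : g.ker.Normal := g.normal_ker
  refine ⟨N, hNZ, IntermediateField.fixedField g.ker, hsq, hB,
    IsGalois.of_fixedField_normal_subgroup g.ker,
    ⟨(IsGalois.normalAutEquivQuotient g.ker).symm.trans
      (QuotientGroup.quotientKerEquivOfSurjective g hg)⟩⟩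

/-- **The inverse Galois problem for abelian groups**: every finite abelian group is the Galois
group of a Galois extension of `ℚ`. -/
theorem exists_galois_comm (G : Type*) [CommGroup G] [Finite G] :
    ∃ (L : Type) (_ : Field L) (_ : NumberField L) (_ : IsGalois ℚ L),
      Nonempty ((L ≃ₐ[ℚ] L) ≃* G) := by
  obtain ⟨N, hN, F, -, -, hG, he⟩ := exists_subfield_cyclotomic G 0
  exact ⟨F, inferInstance, inferInstance, hG, he⟩

end Fermat.Agent.Cor.InvGal
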