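import Fermat.Agent.Classic.Rep3

/-!
# Galois groups over `ℚ` from continuous homomorphisms

`K / k` a Galois extension, `ρ : Gal(K/k) → G` continuous, `G` discrete. The fixed field
`cutField ρ` of `ker ρ` is a finite Galois extension of `k`, and if `ρ` is surjective, it induces
an isomorphism of `Gal(cutField ρ / k)` with `G`.

Hence a group `G` is the Galois group of a number field over `ℚ` if and only if there is a
continuous surjective homomorphism `Gal(ℚ̄/ℚ) → G`, `G` with the discrete topology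
(`exists_galois_iff`).

For an elliptic curve `W` over `ℚ` and a prime `p`: if every linear automorphism of `W[p]` is given
by an element of `Gal(ℚ̄/ℚ)`, then `GL₂(𝔽_p)` is the Galois group of the field of the `p`-torsion
points over `ℚ` (`exists_galois_GL2_of_forall`).
-/

set_option autoImplicit false
set_option linter.style.haveILetI false

noncomputable section

namespace Fermat.Agent.Cor

namespace InvGal

section General

variable {k K : Type*} [Field k] [Field K] [Algebra k K] {G : Type*} [Group G]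

/-- The field cut out by a homomorphism from a Galois group: the fixed field of its kernel. -/
def cutField (ρ : (K ≃ₐ[k] K) →* G) : IntermediateField k K := IntermediateField.fixedField ρ.ker

variable [IsGalois k K] [TopologicalSpace G] [DiscreteTopology G] {ρ : (K ≃ₐ[k] K) →* G}

omit [IsGalois k K] in
lemma isOpen_ker (hρ : Continuous ρ) : IsOpen (ρ.ker : Set (K ≃ₐ[k] K)) :=
  (isOpen_discrete ({1} : Set G)).preimage hρ

omit [IsGalois k K] in
lemma isClosed_ker (hρ : Continuous ρ) : IsClosed (ρ.ker : Set (K ≃ₐ[k] K)) :=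
  (isClosed_discrete ({1} : Set G)).preimage hρ

/-- The group fixing `cutField ρ` is `ker ρ`. -/
theorem fixingSubgroup_cutField (hρ : Continuous ρ) : (cutField ρ).fixingSubgroup = ρ.ker :=
  InfiniteGalois.fixingSubgroup_fixedField ⟨ρ.ker, isClosed_ker hρ⟩

theorem eq_one_iff (hρ : Continuous ρ) (σ : K ≃ₐ[k] K) : ρ σ = 1 ↔ ∀ x ∈ cutField ρ, σ x = x := by
  rw [← MonoidHom.mem_ker, ← fixingSubgroup_cutField hρ, IntermediateField.mem_fixingSubgroup_iff]

/-- `cutField ρ` is a finite extension of `k`. -/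
theorem finiteDimensional_cutField (hρ : Continuous ρ) : FiniteDimensional k (cutField ρ) := by
  refine (InfiniteGalois.isOpen_iff_finite (cutField ρ)).mp ?_
  have h : IsOpen ((cutField ρ).fixingSubgroup : Set (K ≃ₐ[k] K)) := by
    rw [fixingSubgroup_cutField hρ]
    exact isOpen_ker hρ
  exact h

/-- `cutField ρ` is a Galois extension of `k`. -/
theorem isGalois_cutField (hρ : Continuous ρ) : IsGalois k (cutField ρ) := by
  refine (InfiniteGalois.normal_iff_isGalois (cutField ρ)).mp ?_
  rw [fixingSubgroup_cutField hρ]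
  infer_instance

/-- `ρ` induces an isomorphism of `Gal(cutField ρ / k)` with `G`, if it is surjective. -/
theorem exists_equiv_cutField (hρ : Continuous ρ) (hs : Function.Surjective ρ) :
    ∃ e : (cutField ρ ≃ₐ[k] cutField ρ) ≃* G, ∀ (σ : K ≃ₐ[k] K)
      (τ : cutField ρ ≃ₐ[k] cutField ρ), (∀ x, ((τ x : cutField ρ) : K) = σ x) → e τ = ρ σ := by
  haveI := isGalois_cutField hρ
  have h1 : (AlgEquiv.restrictNormalHom (F := k) (K₁ := K) (cutField ρ)).ker = ρ.ker := by
    rw [IntermediateField.restrictNormalHom_ker, fixingSubgroup_cutField hρ]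
  have h2 : Function.Surjective (AlgEquiv.restrictNormalHom (F := k) (K₁ := K) (cutField ρ)) :=
    AlgEquiv.restrictNormalHom_surjective K
  refine ⟨(QuotientGroup.quotientKerEquivOfSurjective _ h2).symm.trans
    ((QuotientGroup.quotientMulEquivOfEq h1).trans
      (QuotientGroup.quotientKerEquivOfSurjective ρ hs)), fun σ τ hτ => ?_⟩
  have h3 : τ = AlgEquiv.restrictNormalHom (cutField ρ) σ := by
    ext x
    rw [hτ]
    exact (AlgEquiv.restrictNormal_commutes σ (cutField ρ) x).symm
  have h4 : (QuotientGroup.quotientKerEquivOfSurjective _ h2).symm τ =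
      (σ : (K ≃ₐ[k] K) ⧸ (AlgEquiv.restrictNormalHom (F := k) (K₁ := K) (cutField ρ)).ker) := by
    rw [MulEquiv.symm_apply_eq, h3]
    rfl
  rw [MulEquiv.trans_apply, MulEquiv.trans_apply, h4]
  rfl

/-- The number of elements. -/
theorem finrank_cutField (hρ : Continuous ρ) (hs : Function.Surjective ρ) :
    Module.finrank k (cutField ρ) = Nat.card G := by
  haveI := isGalois_cutField hρ
  haveI := finiteDimensional_cutField hρ
  obtain ⟨e, -⟩ := exists_equiv_cutField hρ hs
  rw [← IsGalois.card_aut_eq_finrank, Nat.card_congr e.toEquiv]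

end General

/-- the same with any structure of `ℚ`-algebra on the field -/
lemma exists_galois_aux {L : Type} [Field L] [A : Algebra ℚ L] [FiniteDimensional ℚ L]
    [IsGalois ℚ L] {G : Type*} [Group G] (e : (L ≃ₐ[ℚ] L) ≃* G) :
    ∃ (L : Type) (_ : Field L) (_ : NumberField L) (_ : IsGalois ℚ L),
      Nonempty ((L ≃ₐ[ℚ] L) ≃* G) := by
  haveI : CharZero L := algebraRat.charZero L
  obtain rfl : A = DivisionRing.toRatAlgebra := Subsingleton.elim _ _
  exact ⟨L, inferInstance, ⟨⟩, inferInstance, ⟨e⟩⟩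

end InvGal

open InvGal

/-- **A discrete group which is a continuous quotient of `Gal(ℚ̄/ℚ)` is the Galois group of a number
field over `ℚ`.** -/
theorem exists_galois_of_continuous {G : Type*} [Group G] [TopologicalSpace G]
    [DiscreteTopology G] (ρ : (AlgebraicClosure ℚ ≃ₐ[ℚ] AlgebraicClosure ℚ) →* G)
    (hρ : Continuous ρ) (hs : Function.Surjective ρ) :
    ∃ (L : Type) (_ : Field L) (_ : NumberField L) (_ : IsGalois ℚ L),
      Nonempty ((L ≃ₐ[ℚ] L) ≃* G) := by
  obtain ⟨e, -⟩ := exists_equiv_cutField hρ hs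
  exact @exists_galois_aux (cutField ρ) _ _ (finiteDimensional_cutField hρ)
    (isGalois_cutField hρ) G _ e

theorem exists_galois_of_surjective {G : Type*} [Group G] [Finite G] [TopologicalSpace G]
    [DiscreteTopology G] (ρ : (AlgebraicClosure ℚ ≃ₐ[ℚ] AlgebraicClosure ℚ) →* G)
    (hρ : Continuous ρ) (hs : Function.Surjective ρ) :
    ∃ (L : Type) (_ : Field L) (_ : NumberField L) (_ : IsGalois ℚ L),
      Nonempty ((L ≃ₐ[ℚ] L) ≃* G) :=
  exists_galois_of_continuous ρ hρ hs

/-- Conversely, the Galois group of a number field is a continuous quotient of `Gal(ℚ̄/ℚ)`. -/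
theorem exists_surjective_of_galois {L : Type*} [Field L] [NumberField L] [IsGalois ℚ L]
    {G : Type*} [Group G] [TopologicalSpace G] [DiscreteTopology G] (e : (L ≃ₐ[ℚ] L) ≃* G) :
    ∃ ρ : (AlgebraicClosure ℚ ≃ₐ[ℚ] AlgebraicClosure ℚ) →* G,
      Continuous ρ ∧ Function.Surjective ρ := by
  let i : L →ₐ[ℚ] AlgebraicClosure ℚ := IsAlgClosed.lift
  letI : Algebra L (AlgebraicClosure ℚ) := i.toRingHom.toAlgebra
  haveI : IsScalarTower ℚ L (AlgebraicClosure ℚ) := IsScalarTower.of_algebraMap_eq fun x =>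
    (i.commutes x).symm
  let r : (AlgebraicClosure ℚ ≃ₐ[ℚ] AlgebraicClosure ℚ) →* (L ≃ₐ[ℚ] L) :=
    AlgEquiv.restrictNormalHom L
  have hr : Function.Surjective r := AlgEquiv.restrictNormalHom_surjective (AlgebraicClosure ℚ)
  have hr1 : ∀ σ x, i (r σ x) = σ (i x) := fun σ x => AlgEquiv.restrictNormal_commutes σ L x
  haveI : FiniteDimensional ℚ i.fieldRange :=
    Module.Finite.of_surjective (i.rangeRestrict).toLinearMap i.rangeRestrict_surjective
  refine ⟨e.toMonoidHom.comp r, ?_, e.surjective.comp hr⟩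
  refine continuous_of_continuousAt_one _ ?_
  have h1 : (i.fieldRange.fixingSubgroup : Set (AlgebraicClosure ℚ ≃ₐ[ℚ] AlgebraicClosure ℚ)) ∈
      nhds 1 := (IntermediateField.fixingSubgroup_isOpen i.fieldRange).mem_nhds (one_mem _)
  have h2 : (fun _ => (1 : G)) =ᶠ[nhds 1] (e.toMonoidHom.comp r) := by
    filter_upwards [h1] with σ hσ
    have h3 : r σ = 1 := by
      ext x
      apply i.injective
      exact (hr1 σ x).trans ((IntermediateField.mem_fixingSubgroup_iff _ _).mp hσ _ ⟨x, rfl⟩)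
    change 1 = e (r σ)
    rw [h3, map_one]
  exact continuousAt_const.congr h2

/-- **A discrete group is the Galois group of a number field over `ℚ` if and only if it is a
continuous quotient of `Gal(ℚ̄/ℚ)`.** -/
theorem exists_galois_iff {G : Type*} [Group G] [TopologicalSpace G] [DiscreteTopology G] :
    (∃ (L : Type) (_ : Field L) (_ : NumberField L) (_ : IsGalois ℚ L),
      Nonempty ((L ≃ₐ[ℚ] L) ≃* G)) ↔
    ∃ ρ : (AlgebraicClosure ℚ ≃ₐ[ℚ] AlgebraicClosure ℚ) →* G,
      Continuous ρ ∧ Function.Surjective ρ :=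
  ⟨fun ⟨_, _, _, _, ⟨e⟩⟩ => exists_surjective_of_galois e,
    fun ⟨ρ, hρ, hs⟩ => exists_galois_of_continuous ρ hρ hs⟩

/-- **A quotient of a Galois group over `ℚ` is a Galois group over `ℚ`.** -/
theorem exists_galois_map {G G' : Type*} [Group G] [Group G'] (f : G →* G')
    (hf : Function.Surjective f)
    (h : ∃ (L : Type) (_ : Field L) (_ : NumberField L) (_ : IsGalois ℚ L),
      Nonempty ((L ≃ₐ[ℚ] L) ≃* G)) :
    ∃ (L : Type) (_ : Field L) (_ : NumberField L) (_ : IsGalois ℚ L),
      Nonempty ((L ≃ₐ[ℚ] L) ≃* G') := by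
  letI : TopologicalSpace G := ⊥
  haveI : DiscreteTopology G := ⟨rfl⟩
  letI : TopologicalSpace G' := ⊥
  haveI : DiscreteTopology G' := ⟨rfl⟩
  obtain ⟨ρ, hρ, hs⟩ := exists_galois_iff.mp h
  have h1 : Continuous f := continuous_of_discreteTopology
  exact exists_galois_of_continuous (f.comp ρ) (h1.comp hρ) (hf.comp hs)

theorem exists_galois_quotient {G : Type*} [Group G] (N : Subgroup G) [N.Normal]
    (h : ∃ (L : Type) (_ : Field L) (_ : NumberField L) (_ : IsGalois ℚ L),
      Nonempty ((L ≃ₐ[ℚ] L) ≃* G)) :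
    ∃ (L : Type) (_ : Field L) (_ : NumberField L) (_ : IsGalois ℚ L),
      Nonempty ((L ≃ₐ[ℚ] L) ≃* G ⧸ N) :=
  exists_galois_map (QuotientGroup.mk' N) (QuotientGroup.mk'_surjective N) h

/-! ### The field of the `p`-torsion points of an elliptic curve -/

section EllipticCurve

open WeierstrassCurve WeierstrassCurve.Affine WeierstrassCurve.Affine.Point
open Fermat.Agent.Classic
open Matrix

local notation "Γℚ" => (AlgebraicClosure ℚ ≃ₐ[ℚ] AlgebraicClosure ℚ)

variable {W : WeierstrassCurve ℤ} {p : ℕ} [hp : Fact p.Prime] (hΔ : W.Δ ≠ 0)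

/-- **`repP` is onto `GL₂(𝔽_p)` if and only if every linear automorphism of `W[p]` is given by an
element of `Gal(ℚ̄/ℚ)`.** -/
theorem surjective_repP_iff : Function.Surjective (repP p hΔ) ↔
    ∀ g : Submodule.torsionBy ℤ ((W.map (Int.castRingHom ℚ))⁄(AlgebraicClosure ℚ)).Point (p : ℕ)
      ≃ₗ[ZMod p]
        Submodule.torsionBy ℤ ((W.map (Int.castRingHom ℚ))⁄(AlgebraicClosure ℚ)).Point (p : ℕ),
      ∃ σ : Γℚ, ∀ x, σ • x = g x := by
  obtain ⟨e, he⟩ := exists_equiv p hΔ
  let Φ : GL (Fin 2) (ZMod p) ≃* ((Fin 2 → ZMod p) ≃ₗ[ZMod p] (Fin 2 → ZMod p)) :=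
    Matrix.GeneralLinearGroup.toLin.trans (LinearMap.GeneralLinearGroup.generalLinearEquiv _ _)
  have hΦ : ∀ A v, Φ A v = (A : Matrix (Fin 2) (Fin 2) (ZMod p)) *ᵥ v := fun A v => rfl
  constructor
  · intro h g
    obtain ⟨σ, hσ⟩ := h (Φ.symm (e.symm.trans (g.trans e)))
    refine ⟨σ, fun x => e.injective ?_⟩
    rw [he, hσ, ← hΦ, MulEquiv.apply_symm_apply]
    simp
  · intro h A
    obtain ⟨σ, hσ⟩ := h (e.trans ((Φ A).trans e.symm))
    refine ⟨σ, Φ.injective (LinearEquiv.ext fun v => ?_)⟩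
    have h1 := hσ (e.symm v)
    have h2 := he σ (e.symm v)
    rw [h1, LinearEquiv.apply_symm_apply] at h2
    rw [hΦ, ← h2]
    simp

include hΔ in
/-- If the Galois action on `W[p]` is surjective, then **`GL₂(𝔽_p)` is a Galois group over `ℚ`**. -/
theorem exists_galois_GL2_of_surjective (hs : Function.Surjective (repP p hΔ)) :
    ∃ (L : Type) (_ : Field L) (_ : NumberField L) (_ : IsGalois ℚ L),
      Nonempty ((L ≃ₐ[ℚ] L) ≃* GL (Fin 2) (ZMod p)) :=
  exists_galois_of_continuous (repP p hΔ) (continuous_repP p hΔ) hs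

include hΔ in
theorem exists_galois_GL2_of_forall
    (h : ∀ g : Submodule.torsionBy ℤ
        ((W.map (Int.castRingHom ℚ))⁄(AlgebraicClosure ℚ)).Point (p : ℕ) ≃ₗ[ZMod p]
        Submodule.torsionBy ℤ ((W.map (Int.castRingHom ℚ))⁄(AlgebraicClosure ℚ)).Point (p : ℕ),
      ∃ σ : Γℚ, ∀ x, σ • x = g x) :
    ∃ (L : Type) (_ : Field L) (_ : NumberField L) (_ : IsGalois ℚ L),
      Nonempty ((L ≃ₐ[ℚ] L) ≃* GL (Fin 2) (ZMod p)) :=
  exists_galois_GL2_of_surjective hΔ ((surjective_repP_iff hΔ).mpr h)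

end EllipticCurve

end Fermat.Agent.Cor
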