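import Mathlib.Analysis.Complex.Polynomial.Basic
import Mathlib.FieldTheory.KummerPolynomial
import Mathlib.LinearAlgebra.Matrix.GeneralLinearGroup.Card
import Mathlib.NumberTheory.NumberField.Basic
import Mathlib.NumberTheory.Padics.PadicVal.Basic
import Mathlib.Algebra.Field.ZMod

/-!
# `GL₂(F₂)` is a Galois group over `ℚ`

The Galois group of `X³ - 2` over `ℚ` is the symmetric group on three letters, and so is `GL₂(F₂)`.
-/

set_option autoImplicit false

open Polynomial Matrix

noncomputable section

namespace Fermat.Agent.Cor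

/-! ### `GL₂(F₂)` is the symmetric group on the three non-zero vectors -/

/-- The action of `GL₂(F₂)` on the non-zero vectors. -/
def permHom : GL (Fin 2) (ZMod 2) →* Equiv.Perm {v : Fin 2 → ZMod 2 // v ≠ 0} where
  toFun g :=
    { toFun := fun v => ⟨(g : Matrix (Fin 2) (Fin 2) (ZMod 2)) *ᵥ v.1, fun h => v.2 (by
        have h1 := congrArg (fun w => ((g⁻¹ : GL (Fin 2) (ZMod 2)) :
          Matrix (Fin 2) (Fin 2) (ZMod 2)) *ᵥ w) h
        simpa using h1)⟩
      invFun := fun v => ⟨((g⁻¹ : GL (Fin 2) (ZMod 2)) : Matrix (Fin 2) (Fin 2) (ZMod 2)) *ᵥ v.1,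
        fun h => v.2 (by
        have h1 := congrArg (fun w => (g : Matrix (Fin 2) (Fin 2) (ZMod 2)) *ᵥ w) h
        simpa using h1)⟩
      left_inv := fun v => by ext1; simp
      right_inv := fun v => by ext1; simp }
  map_one' := by ext v; simp
  map_mul' g h := by
    ext1 v
    apply Subtype.ext
    change ((g * h : GL (Fin 2) (ZMod 2)) : Matrix (Fin 2) (Fin 2) (ZMod 2)) *ᵥ v.1 =
      (g : Matrix (Fin 2) (Fin 2) (ZMod 2)) *ᵥ ((h : Matrix (Fin 2) (Fin 2) (ZMod 2)) *ᵥ v.1)
    rw [Units.val_mul, mulVec_mulVec]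

theorem permHom_injective : Function.Injective permHom := by
  rw [injective_iff_map_eq_one]
  intro g hg
  refine Units.ext (Matrix.ext_of_mulVec_single fun i => ?_)
  have h0 : (Pi.single i 1 : Fin 2 → ZMod 2) ≠ 0 := by
    intro h
    have := congrFun h i
    simp at this
  have h1 := congrArg Subtype.val (DFunLike.congr_fun hg ⟨Pi.single i 1, h0⟩)
  rw [Units.val_one, one_mulVec]
  exact h1

theorem card_GL2_two : Nat.card (GL (Fin 2) (ZMod 2)) = 6 := by
  have h := card_GL_field (𝔽 := ZMod 2) 2
  rw [Fin.prod_univ_two, ZMod.card] at h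
  exact h

/-- `GL₂(F₂)` is the group of permutations of a set with three elements. -/
theorem exists_mulEquiv_perm {α : Type*} [Fintype α] (hα : Fintype.card α = 3) :
    Nonempty (Equiv.Perm α ≃* GL (Fin 2) (ZMod 2)) := by
  classical
  have hc : Fintype.card {v : Fin 2 → ZMod 2 // v ≠ 0} = 3 := by decide
  have h1 : Function.Bijective permHom := by
    rw [Fintype.bijective_iff_injective_and_card]
    refine ⟨permHom_injective, ?_⟩
    rw [← Nat.card_eq_fintype_card, card_GL2_two, Fintype.card_perm, hc]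
    rfl
  exact ⟨((Fintype.equivOfCardEq (hα.trans hc.symm)).permCongrHom).trans
    (MulEquiv.ofBijective permHom h1).symm⟩

/-! ### The Galois group of `X³ - 2` -/

/-- `X³ - 2`. -/
def cubic : ℚ[X] := X ^ 3 - C 2

theorem not_cube_two (b : ℚ) : b ^ 3 ≠ 2 := by
  intro h
  have h1 := congrArg (padicValRat 2) h
  rw [padicValRat.pow] at h1
  have h2 : padicValRat 2 (2 : ℚ) = 1 := by
    have := padicValRat.self (p := 2) (by norm_num)
    exact_mod_cast this
  rw [h2] at h1
  push_cast at h1
  omega

theorem irreducible_cubic : Irreducible cubic :=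
  X_pow_sub_C_irreducible_of_prime Nat.prime_three not_cube_two

theorem natDegree_cubic : cubic.natDegree = 3 := natDegree_X_pow_sub_C

theorem card_rootSet_complex : Fintype.card (cubic.rootSet ℂ) = 3 := by
  rw [card_rootSet_eq_natDegree irreducible_cubic.separable (IsAlgClosed.splits _),
    natDegree_cubic]

theorem card_rootSet_real : Fintype.card (cubic.rootSet ℝ) = 1 := by
  rw [Fintype.card_eq_one_iff]
  have hne : cubic ≠ 0 := irreducible_cubic.ne_zero
  have hmem : ∀ x : ℝ, x ∈ cubic.rootSet ℝ ↔ x ^ 3 = 2 := by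
    intro x
    rw [mem_rootSet_of_ne hne]
    simp only [cubic, map_sub, map_pow, aeval_X, aeval_C, sub_eq_zero]
    norm_num
  have h3 : Odd 3 := by decide
  refine ⟨⟨(2 : ℝ) ^ ((1 : ℝ) / 3), (hmem _).mpr ?_⟩, fun y => ?_⟩
  · rw [← Real.rpow_natCast, ← Real.rpow_mul (by norm_num)]
    norm_num
  · apply Subtype.ext
    refine h3.pow_injective ?_
    change (y : ℝ) ^ 3 = ((2 : ℝ) ^ ((1 : ℝ) / 3)) ^ 3
    rw [(hmem _).mp y.2, ← Real.rpow_natCast, ← Real.rpow_mul (by norm_num)]
    norm_num

/-- **`GL₂(F₂)` is a Galois group over `ℚ`.** -/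
theorem exists_galois_GL2_two : ∃ (L : Type) (_ : Field L) (_ : NumberField L) (_ : IsGalois ℚ L),
    Nonempty ((L ≃ₐ[ℚ] L) ≃* GL (Fin 2) (ZMod 2)) := by
  have hb := Gal.galActionHom_bijective_of_prime_degree irreducible_cubic
    (by rw [natDegree_cubic]; exact Nat.prime_three)
    (by rw [card_rootSet_complex, card_rootSet_real])
  obtain ⟨e⟩ := exists_mulEquiv_perm card_rootSet_complex
  have h1 : IsSplittingField ℚ cubic.SplittingField cubic :=
    IsSplittingField.splittingField cubic
  have h2 : IsGalois ℚ cubic.SplittingField :=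
    IsGalois.of_separable_splitting_field irreducible_cubic.separable
  have h3 : NumberField cubic.SplittingField :=
    { to_charZero := inferInstance
      to_finiteDimensional := IsSplittingField.finiteDimensional _ cubic }
  exact ⟨cubic.SplittingField, inferInstance, h3, h2, ⟨(MulEquiv.ofBijective _ hb).trans e⟩⟩

end Fermat.Agent.Cor
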