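import Fermat.Agent.Corollaries.Surj.Core
import Fermat.Agent.Corollaries.Surj.TwoTors
import Fermat.Agent.Corollaries.InvGal.Curve37
import Fermat.Agent.Corollaries.InvGal.Gal
import Fermat.Agent.Corollaries.InvGal.Two

/-!
# The inverse Galois problem for `GL₂(𝔽_p)`

For the elliptic curve `37a : y² + y = x³ - x` the Galois group of `ℚ` acts on the `p`-torsion
through the full group `GL₂(𝔽_p)`, for every prime `p` (`repP37_surjective_all`): the curve is
semistable, its discriminant is `37`, and the representation is irreducible for every `p`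
(`#E(𝔽₂) = 5`, `#E(𝔽₃) = 7`); for `p = 2`, `37` is not a square. Hence `GL₂(𝔽_p)` is a Galois group
over `ℚ` for every prime `p`.
-/

set_option autoImplicit false

namespace Fermat.Agent.Cor.InvGal

open WeierstrassCurve WeierstrassCurve.Affine WeierstrassCurve.Affine.Point
open Fermat.Agent.Classic
open Matrix

/-- **The mod `p` representation of the curve `37a` is surjective for every odd prime `p`.** -/
theorem repP37_surjective {p : ℕ} [hp : Fact p.Prime] (hp2 : p ≠ 2) :
    Function.Surjective (repP p W37_Δ_ne) := by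
  refine repP_surjective_of_exists_val W37_Δ_ne semistable37 hp2 (irr37 hp.out) ⟨37, by norm_num,
    by rw [W37_Δ]; norm_num, ?_⟩
  rw [val37]
  exact hp.out.one_lt.not_ge ∘ Nat.le_of_dvd one_pos

/-- **The mod `2` representation of the curve `37a` is surjective.** -/
theorem repP37_surjective_two : Function.Surjective (repP 2 W37_Δ_ne) := by
  refine (repP_two_surjective_iff W37_Δ_ne).mpr ⟨irr37 Nat.prime_two, ?_⟩
  rw [W37_Δ]
  rintro ⟨m, hm⟩
  have h1 : m.natAbs * m.natAbs = 37 := by
    rw [← Int.natAbs_mul, ← hm]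
    rfl
  have h2 : m.natAbs ≤ 6 := by
    by_contra h
    nlinarith
  interval_cases m.natAbs <;> omega

/-- **The mod `p` representation of the curve `37a` is surjective for every prime `p`.** -/
theorem repP37_surjective_all (p : ℕ) [hp : Fact p.Prime] :
    Function.Surjective (repP p W37_Δ_ne) := by
  by_cases hp2 : p = 2
  · subst hp2
    exact repP37_surjective_two
  · exact repP37_surjective hp2

/-- The same without a basis: every automorphism of the `p`-torsion of `37a` is the action of an
element of the Galois group. -/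
theorem surjective37_all (p : ℕ) [hp : Fact p.Prime]
    (g : Submodule.torsionBy ℤ ((W37.map (Int.castRingHom ℚ))⁄(AlgebraicClosure ℚ)).Point (p : ℕ)
      ≃ₗ[ZMod p] Submodule.torsionBy ℤ
        ((W37.map (Int.castRingHom ℚ))⁄(AlgebraicClosure ℚ)).Point (p : ℕ)) :
    ∃ σ : AlgebraicClosure ℚ ≃ₐ[ℚ] AlgebraicClosure ℚ, ∀ x : Submodule.torsionBy ℤ
      ((W37.map (Int.castRingHom ℚ))⁄(AlgebraicClosure ℚ)).Point (p : ℕ), σ • x = g x :=
  exists_smul_eq_of_repP_surjective W37_Δ_ne (repP37_surjective_all p) g

/-- The same without a basis. -/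
theorem surjective37 {p : ℕ} [hp : Fact p.Prime] (hp2 : p ≠ 2)
    (g : Submodule.torsionBy ℤ ((W37.map (Int.castRingHom ℚ))⁄(AlgebraicClosure ℚ)).Point (p : ℕ)
      ≃ₗ[ZMod p] Submodule.torsionBy ℤ
        ((W37.map (Int.castRingHom ℚ))⁄(AlgebraicClosure ℚ)).Point (p : ℕ)) :
    ∃ σ : AlgebraicClosure ℚ ≃ₐ[ℚ] AlgebraicClosure ℚ, ∀ x : Submodule.torsionBy ℤ
      ((W37.map (Int.castRingHom ℚ))⁄(AlgebraicClosure ℚ)).Point (p : ℕ), σ • x = g x :=
  exists_smul_eq_of_repP_surjective W37_Δ_ne (repP37_surjective hp2) g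

end Fermat.Agent.Cor.InvGal

namespace Fermat.Agent.Cor

/-- **The inverse Galois problem for `GL₂(𝔽_p)`: for every prime `p` there is a Galois extension
of `ℚ` with Galois group `GL₂(𝔽_p)`.** (The field of the `p`-torsion points of the elliptic curve
`y² + y = x³ - x`; for `p = 2` the proof below uses the splitting field of `X³ - 2`.) -/
theorem exists_galois_GL2 (p : ℕ) [hp : Fact p.Prime] :
    ∃ (L : Type) (_ : Field L) (_ : NumberField L) (_ : IsGalois ℚ L),
      Nonempty ((L ≃ₐ[ℚ] L) ≃* GL (Fin 2) (ZMod p)) := by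
  by_cases hp2 : p = 2
  · subst hp2
    exact exists_galois_GL2_two
  · exact exists_galois_GL2_of_surjective InvGal.W37_Δ_ne (InvGal.repP37_surjective hp2)

end Fermat.Agent.Cor
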