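import Fermat.Agent.Corollaries.InvGal.DivRam
import Fermat.Agent.Corollaries.InvGal.Abelian
import Fermat.Agent.Corollaries.InvGal.Main37
import Fermat.Agent.Corollaries.KW.Kap

/-!
# Products of Galois groups over `ℚ`

* `prod_surjective`: if `ρ₁`, `ρ₂` are continuous surjective homomorphisms of `Gal(ℚ̄/ℚ)` to discrete
  groups and at every prime one of the two is unramified, then `(ρ₁, ρ₂)` is surjective
  (Minkowski);
* `exists_galois_ram_iff`: a discrete group `G` is the Galois group of a number field `L` over `ℚ`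
  whose discriminant is divisible by primes in `S` only if and only if it is a continuous quotient
  of `Gal(ℚ̄/ℚ)` unramified outside `S`;
* `exists_galois_prod`: the compositum of two Galois number fields with coprime discriminants;
* `exists_galois_prod_comm`: if `G` is a Galois group over `ℚ`, so is `G × A` for every finite
  abelian group `A`; for example `GL₂(𝔽_p) × A` (`exists_galois_GL2_prod`).
-/

set_option autoImplicit false
set_option linter.style.haveILetI false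

noncomputable section

namespace Fermat.Agent.Cor

open NumberField InvGal

local notation "Γℚ" => (AlgebraicClosure ℚ ≃ₐ[ℚ] AlgebraicClosure ℚ)

/-- **Linearly disjoint**: if at every prime one of two continuous surjective homomorphisms of
`Gal(ℚ̄/ℚ)` is unramified, then their product is surjective. -/
theorem prod_surjective {G H : Type*} [Group G] [Group H] [TopologicalSpace G]
    [DiscreteTopology G] {ρ₁ : Γℚ →* G} {ρ₂ : Γℚ →* H} (h₁ : Continuous ρ₁)
    (s₁ : Function.Surjective ρ₁) (s₂ : Function.Surjective ρ₂)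
    (h : ∀ q : ℕ, q.Prime → KW.UnrAt ρ₁ q ∨ KW.UnrAt ρ₂ q) :
    Function.Surjective (ρ₁.prod ρ₂) := by
  have htop : ρ₁.ker ⊔ ρ₂.ker = ⊤ := by
    refine Minkowski.eq_top_of_inertia_le _
      (Subgroup.isOpen_mono (le_sup_left : ρ₁.ker ≤ ρ₁.ker ⊔ ρ₂.ker) (isOpen_ker h₁)) ?_
    intro q hq A hA σ hσ
    rcases h q hq with h' | h'
    · exact Subgroup.mem_sup_left (h' A hA σ hσ)
    · exact Subgroup.mem_sup_right (h' A hA σ hσ)
  rintro ⟨g, k⟩
  obtain ⟨σ, hσ⟩ := s₁ g
  obtain ⟨τ, hτ⟩ := s₂ k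
  have h1 : σ⁻¹ * τ ∈ ρ₁.ker ⊔ ρ₂.ker := by
    rw [htop]
    trivial
  rw [Subgroup.mem_sup_of_normal_right] at h1
  obtain ⟨a, ha, b, hb, hab⟩ := h1
  have h2 : σ * a = τ * b⁻¹ := by
    rw [eq_mul_inv_iff_mul_eq, mul_assoc, hab, mul_inv_cancel_left]
  refine ⟨σ * a, ?_⟩
  rw [MonoidHom.prod_apply]
  refine Prod.ext ?_ ?_
  · change ρ₁ (σ * a) = g
    rw [map_mul, hσ, MonoidHom.mem_ker.mp ha, mul_one]
  · change ρ₂ (σ * a) = k
    rw [h2, map_mul, map_inv, hτ, MonoidHom.mem_ker.mp hb, inv_one, mul_one]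

namespace InvGal

/-- A homomorphism with open kernel is continuous. -/
theorem continuous_of_isOpen_ker {Γ G : Type*} [Group Γ] [TopologicalSpace Γ]
    [IsTopologicalGroup Γ] [Group G] [TopologicalSpace G] [IsTopologicalGroup G] {ρ : Γ →* G}
    (h : IsOpen (ρ.ker : Set Γ)) : Continuous ρ := by
  refine continuous_of_continuousAt_one _ ?_
  have h2 : (fun _ => (1 : G)) =ᶠ[nhds 1] ρ := by
    filter_upwards [h.mem_nhds (one_mem ρ.ker)] with σ hσ
    exact (MonoidHom.mem_ker.mp hσ).symm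
  rw [ContinuousAt, map_one]
  exact (tendsto_const_nhds).congr' h2

/-- change of the structure of `ℚ`-algebra -/
lemma exists_galois_ram_aux {L : Type} [Field L] [A : Algebra ℚ L] [NumberField L]
    [IsGalois ℚ L] {G : Type*} [Group G] (e : (L ≃ₐ[ℚ] L) ≃* G) (P : ℤ → Prop)
    (hP : P (discr L)) :
    ∃ (L : Type) (_ : Field L) (_ : NumberField L) (_ : IsGalois ℚ L),
      Nonempty ((L ≃ₐ[ℚ] L) ≃* G) ∧ P (discr L) := by
  obtain rfl : A = DivisionRing.toRatAlgebra := Subsingleton.elim _ _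
  exact ⟨L, inferInstance, inferInstance, inferInstance, ⟨e⟩, hP⟩

/-- The field cut out by `ρ` and its discriminant. -/
theorem exists_field_of_hom {G : Type*} [Group G] [TopologicalSpace G] [DiscreteTopology G]
    {ρ : Γℚ →* G} (hρ : Continuous ρ) (hs : Function.Surjective ρ) :
    ∃ (L : Type) (_ : Field L) (_ : NumberField L) (_ : IsGalois ℚ L),
      Nonempty ((L ≃ₐ[ℚ] L) ≃* G) ∧
        ∀ q : ℕ, q.Prime → (KW.UnrAt ρ q ↔ ¬ (q : ℤ) ∣ discr L) := by
  obtain ⟨e, -⟩ := exists_equiv_cutField hρ hs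
  have h1 := finiteDimensional_cutField hρ
  have h2' := isGalois_cutField hρ
  have h2 : IsGalois ℚ (cutField ρ) := h2'
  have h3 : NumberField (cutField ρ) := @NumberField.mk _ _ inferInstance h1
  refine @exists_galois_ram_aux (cutField ρ) _ _ h3 h2' G _ e
    (fun d => ∀ q : ℕ, q.Prime → (KW.UnrAt ρ q ↔ ¬ (q : ℤ) ∣ d)) ?_
  intro q hq
  rw [not_dvd_discr_iff_inertia (cutField ρ) hq]
  exact ⟨fun h A hA σ hσ => (eq_one_iff hρ σ).mp (h A hA σ hσ),
    fun h A hA σ hσ => (eq_one_iff hρ σ).mpr (h A hA σ hσ)⟩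

/-- The homomorphism attached to a Galois number field and its ramification. -/
theorem exists_hom_of_field {L : Type*} [Field L] [NumberField L] [IsGalois ℚ L] {G : Type*}
    [Group G] [TopologicalSpace G] [DiscreteTopology G] (e : (L ≃ₐ[ℚ] L) ≃* G) :
    ∃ ρ : Γℚ →* G, Continuous ρ ∧ Function.Surjective ρ ∧
      ∀ q : ℕ, q.Prime → (KW.UnrAt ρ q ↔ ¬ (q : ℤ) ∣ discr L) := by
  let i : L →ₐ[ℚ] AlgebraicClosure ℚ := IsAlgClosed.lift
  let K : IntermediateField ℚ (AlgebraicClosure ℚ) := i.fieldRange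
  let e₀ : @AlgEquiv ℚ L K _ _ _ _ K.algebra' := AlgEquiv.ofInjectiveField i
  have h1 : FiniteDimensional ℚ K := Module.Finite.equiv e₀.toLinearEquiv
  have h2 : NumberField K := @NumberField.mk _ _ inferInstance h1
  have h3' := IsGalois.of_algEquiv e₀
  have h3 : IsGalois ℚ K := h3'
  have h3'' : @Normal ℚ K _ _ K.algebra' := h3'.to_normal
  let r : Γℚ →* (K ≃ₐ[ℚ] K) := AlgEquiv.restrictNormalHom K
  have hr : Function.Surjective r := AlgEquiv.restrictNormalHom_surjective (AlgebraicClosure ℚ)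
  let e₁ : (K ≃ₐ[ℚ] K) ≃* G := (AlgEquiv.autCongr e₀.symm).trans e
  have hker : ∀ σ : Γℚ, e₁ (r σ) = 1 ↔ ∀ x ∈ K, σ x = x := by
    intro σ
    rw [map_eq_one_iff e₁ e₁.injective, ← IntermediateField.mem_fixingSubgroup_iff,
      ← IntermediateField.restrictNormalHom_ker, MonoidHom.mem_ker]
    exact Iff.rfl
  refine ⟨e₁.toMonoidHom.comp r, ?_, e₁.surjective.comp hr, ?_⟩
  · refine continuous_of_isOpen_ker ?_
    have h4 : ((e₁.toMonoidHom.comp r).ker : Set Γℚ) = K.fixingSubgroup := by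
      ext σ
      rw [SetLike.mem_coe, SetLike.mem_coe, MonoidHom.mem_ker,
        IntermediateField.mem_fixingSubgroup_iff]
      exact hker σ
    rw [h4]
    exact IntermediateField.fixingSubgroup_isOpen K
  · intro q hq
    rw [discr_eq_discr_of_ringEquiv L e₀.toRingEquiv, not_dvd_discr_iff_inertia K hq]
    exact ⟨fun h A hA σ hσ => (hker σ).mp (h A hA σ hσ),
      fun h A hA σ hσ => (hker σ).mpr (h A hA σ hσ)⟩

end InvGal

/-- **Galois groups over `ℚ` with given ramification.** -/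
theorem exists_galois_ram_iff {G : Type*} [Group G] [TopologicalSpace G] [DiscreteTopology G]
    (S : ℕ → Prop) :
    (∃ (L : Type) (_ : Field L) (_ : NumberField L) (_ : IsGalois ℚ L),
      Nonempty ((L ≃ₐ[ℚ] L) ≃* G) ∧ ∀ q : ℕ, q.Prime → (q : ℤ) ∣ discr L → S q) ↔
    ∃ ρ : Γℚ →* G, Continuous ρ ∧ Function.Surjective ρ ∧
      ∀ q : ℕ, q.Prime → ¬ S q → KW.UnrAt ρ q := by
  constructor
  · rintro ⟨L, _, _, _, ⟨e⟩, h⟩
    obtain ⟨ρ, h1, h2, h3⟩ := exists_hom_of_field e
    exact ⟨ρ, h1, h2, fun q hq hqS => (h3 q hq).mpr fun hd => hqS (h q hq hd)⟩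
  · rintro ⟨ρ, h1, h2, h3⟩
    obtain ⟨L, _, _, _, he, h4⟩ := exists_field_of_hom h1 h2
    refine ⟨L, inferInstance, inferInstance, inferInstance, he, fun q hq hd => ?_⟩
    by_contra hS
    exact (h4 q hq).mp (h3 q hq hS) hd

/-- Products of Galois groups with disjoint ramification. -/
theorem exists_galois_prod_of_disjoint {G H : Type*} [Group G] [Group H] {S T : ℕ → Prop}
    (hST : ∀ q : ℕ, q.Prime → S q → ¬ T q)
    (hG : ∃ (L : Type) (_ : Field L) (_ : NumberField L) (_ : IsGalois ℚ L),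
      Nonempty ((L ≃ₐ[ℚ] L) ≃* G) ∧ ∀ q : ℕ, q.Prime → (q : ℤ) ∣ discr L → S q)
    (hH : ∃ (L : Type) (_ : Field L) (_ : NumberField L) (_ : IsGalois ℚ L),
      Nonempty ((L ≃ₐ[ℚ] L) ≃* H) ∧ ∀ q : ℕ, q.Prime → (q : ℤ) ∣ discr L → T q) :
    ∃ (L : Type) (_ : Field L) (_ : NumberField L) (_ : IsGalois ℚ L),
      Nonempty ((L ≃ₐ[ℚ] L) ≃* G × H) ∧ ∀ q : ℕ, q.Prime → (q : ℤ) ∣ discr L → S q ∨ T q := by
  letI : TopologicalSpace G := ⊥
  have : DiscreteTopology G := ⟨rfl⟩
  letI : TopologicalSpace H := ⊥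
  have : DiscreteTopology H := ⟨rfl⟩
  obtain ⟨ρ₁, c₁, s₁, r₁⟩ := (exists_galois_ram_iff S).mp hG
  obtain ⟨ρ₂, c₂, s₂, r₂⟩ := (exists_galois_ram_iff T).mp hH
  rw [exists_galois_ram_iff]
  refine ⟨ρ₁.prod ρ₂, c₁.prodMk c₂, prod_surjective c₁ s₁ s₂ fun q hq => ?_, fun q hq h => ?_⟩
  · by_cases hS : S q
    · exact Or.inr (r₂ q hq (hST q hq hS))
    · exact Or.inl (r₁ q hq hS)
  · intro A hA σ hσ
    rw [not_or] at h
    refine Prod.ext ?_ ?_
    · exact r₁ q hq h.1 A hA σ hσ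
    · exact r₂ q hq h.2 A hA σ hσ

/-- **The compositum of two Galois number fields with coprime discriminants**: its group is the
product of the groups, and the primes dividing its discriminant divide one of the two
discriminants. -/
theorem exists_galois_prod (L F : Type) [Field L] [NumberField L] [IsGalois ℚ L] [Field F]
    [NumberField F] [IsGalois ℚ F] (h : IsCoprime (discr L) (discr F)) :
    ∃ (M : Type) (_ : Field M) (_ : NumberField M) (_ : IsGalois ℚ M),
      Nonempty ((M ≃ₐ[ℚ] M) ≃* (L ≃ₐ[ℚ] L) × (F ≃ₐ[ℚ] F)) ∧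
        ∀ q : ℕ, q.Prime → (q : ℤ) ∣ discr M → (q : ℤ) ∣ discr L ∨ (q : ℤ) ∣ discr F :=
  exists_galois_prod_of_disjoint (S := fun q => (q : ℤ) ∣ discr L)
    (T := fun q => (q : ℤ) ∣ discr F)
    (fun _ hq h1 h2 => (Nat.prime_iff_prime_int.mp hq).not_isUnit (h.isUnit_of_dvd' h1 h2))
    ⟨L, inferInstance, inferInstance, inferInstance, ⟨MulEquiv.refl _⟩, fun _ _ h => h⟩
    ⟨F, inferInstance, inferInstance, inferInstance, ⟨MulEquiv.refl _⟩, fun _ _ h => h⟩

/-- Every finite abelian group is the Galois group over `ℚ` of a number field whose discriminant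
has only prime factors larger than a given bound. -/
theorem exists_galois_comm_gt (A : Type*) [CommGroup A] [Finite A] (B : ℕ) :
    ∃ (L : Type) (_ : Field L) (_ : NumberField L) (_ : IsGalois ℚ L),
      Nonempty ((L ≃ₐ[ℚ] L) ≃* A) ∧ ∀ q : ℕ, q.Prime → (q : ℤ) ∣ discr L → B < q := by
  letI : TopologicalSpace A := ⊥
  have : DiscreteTopology A := ⟨rfl⟩
  rw [exists_galois_ram_iff]
  obtain ⟨N, f, hN, -, hNB, hf⟩ := exists_surjective_zmodUnits A B
  have : NeZero N := ⟨hN⟩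
  obtain ⟨κ, -, hκs, -, hκL, hκu, -⟩ := KW.kapStmt N
  refine ⟨f.comp κ, ?_, hf.comp hκs, fun q hq hqB => ?_⟩
  · exact continuous_of_isOpen_ker (hκL.comp f).isOpen_ker
  · exact (hκu q hq fun hd => hqB (hNB q hq hd)).comp f

/-- **If `G` is a Galois group over `ℚ`, then so is `G × A` for every finite abelian group `A`.** -/
theorem exists_galois_prod_comm {G : Type*} [Group G]
    (h : ∃ (L : Type) (_ : Field L) (_ : NumberField L) (_ : IsGalois ℚ L),
      Nonempty ((L ≃ₐ[ℚ] L) ≃* G)) (A : Type*) [CommGroup A] [Finite A] :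
    ∃ (L : Type) (_ : Field L) (_ : NumberField L) (_ : IsGalois ℚ L),
      Nonempty ((L ≃ₐ[ℚ] L) ≃* G × A) := by
  obtain ⟨L, _, _, _, ⟨e⟩⟩ := h
  obtain ⟨M, h1, h2, h3, h4, -⟩ := exists_galois_prod_of_disjoint (G := G) (H := A)
    (S := fun q => (q : ℤ) ∣ discr L) (T := fun q => (discr L).natAbs < q)
    (fun _ _ hS hT => absurd (Nat.le_of_dvd (Int.natAbs_pos.mpr (discr_ne_zero L))
      (Int.natCast_dvd.mp hS)) (not_le.mpr hT))
    ⟨L, inferInstance, inferInstance, inferInstance, ⟨e⟩, fun _ _ h => h⟩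
    (exists_galois_comm_gt A _)
  exact ⟨M, h1, h2, h3, h4⟩

/-- **`GL₂(𝔽_p) × A` is a Galois group over `ℚ`**, for every prime `p` and every finite abelian
group `A`. -/
theorem exists_galois_GL2_prod (p : ℕ) [Fact p.Prime] (A : Type*) [CommGroup A] [Finite A] :
    ∃ (L : Type) (_ : Field L) (_ : NumberField L) (_ : IsGalois ℚ L),
      Nonempty ((L ≃ₐ[ℚ] L) ≃* Matrix.GeneralLinearGroup (Fin 2) (ZMod p) × A) :=
  exists_galois_prod_comm (exists_galois_GL2 p) A

end Fermat.Agent.Cor
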