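import Fermat.Agent.Corollaries.InvGal.Family

/-!
# The inverse Galois problem for `GL₂(ℤ/N)`, every `N`

For every `N ≥ 1` the group `GL₂(ℤ/N)` is a Galois group over `ℚ` (`exists_galois_GL2_all`), and the
field can be chosen unramified at all prime factors of a given `M ≠ 0` which do not divide `N`
(`exists_galois_GL2_all_ram`).

For a prime power `N = pⁿ` it is the field of the `pⁿ`-torsion points of a curve
`y² + y = x³ - x + t`; in general the compositum of such fields for different curves, whose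
discriminants are coprime, hence linearly disjoint (Minkowski).  No single elliptic curve over `ℚ`
does it for even `N`: the square root of the discriminant is in a cyclotomic field.
-/

set_option autoImplicit false

noncomputable section

namespace Fermat.Agent.Cor

open Matrix NumberField

namespace InvGal

/-- Matrices over a product of rings. -/
theorem bijective_mapMatrix_prod (R S : Type*) [CommRing R] [CommRing S] :
    Function.Bijective ((RingHom.fst R S).mapMatrix.prod (RingHom.snd R S).mapMatrix :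
      Matrix (Fin 2) (Fin 2) (R × S) →+*
        Matrix (Fin 2) (Fin 2) R × Matrix (Fin 2) (Fin 2) S) := by
  constructor
  · intro A B h
    have h1 := congrArg Prod.fst h
    have h2 := congrArg Prod.snd h
    ext i j
    · exact congrFun (congrFun h1 i) j
    · exact congrFun (congrFun h2 i) j
  · rintro ⟨A, B⟩
    exact ⟨Matrix.of fun i j => (A i j, B i j), rfl⟩

/-- **`GL₂(ℤ/mn) ≃ GL₂(ℤ/m) × GL₂(ℤ/n)`** for coprime `m` and `n`. -/
theorem nonempty_GL2_mulEquiv {m n : ℕ} (h : Nat.Coprime m n) :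
    Nonempty (GL (Fin 2) (ZMod (m * n)) ≃* GL (Fin 2) (ZMod m) × GL (Fin 2) (ZMod n)) :=
  ⟨((Units.mapEquiv (ZMod.chineseRemainder h).mapMatrix.toMulEquiv).trans
    (Units.mapEquiv (RingEquiv.ofBijective _
      (bijective_mapMatrix_prod (ZMod m) (ZMod n))).toMulEquiv)).trans MulEquiv.prodUnits⟩

end InvGal

open InvGal

/-- **The inverse Galois problem for `GL₂(ℤ/N)` with ramification**: `N, M ≠ 0`; there is a
Galois extension of `ℚ` with Galois group `GL₂(ℤ/N)` which is unramified at the prime factors of `M`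
not dividing `N`. -/
theorem exists_galois_GL2_all_ram (N : ℕ) : N ≠ 0 → ∀ M : ℕ, M ≠ 0 →
    ∃ (L : Type) (_ : Field L) (_ : NumberField L) (_ : IsGalois ℚ L),
      Nonempty ((L ≃ₐ[ℚ] L) ≃* GL (Fin 2) (ZMod N)) ∧
        ∀ q : ℕ, q.Prime → (q : ℤ) ∣ discr L → q ∣ N ∨ ¬ q ∣ M := by
  induction N using Nat.recOnPosPrimePosCoprime with
  | prime_pow p n hp hn =>
    intro _ M hM
    have : Fact p.Prime := ⟨hp⟩
    obtain ⟨L, i1, i2, i3, he, hr⟩ := exists_galois_GL2_pow_ram p n hM
    refine ⟨L, i1, i2, i3, he, fun q hq hd => (hr q hq hd).imp_left ?_⟩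
    rintro rfl
    exact dvd_pow_self _ hn.ne'
  | zero =>
    intro h
    exact absurd rfl h
  | one =>
    intro _ M hM
    obtain ⟨p, hpM, hp⟩ := Nat.exists_infinite_primes (M + 1)
    have : Fact p.Prime := ⟨hp⟩
    have h := exists_galois_GL2_pow_ram p 0 hM
    rw [pow_zero] at h
    obtain ⟨L, i1, i2, i3, he, hr⟩ := h
    refine ⟨L, i1, i2, i3, he, fun q hq hd => Or.inr ?_⟩
    rcases hr q hq hd with rfl | h1
    · intro h2
      have h3 := Nat.le_of_dvd (Nat.pos_of_ne_zero hM) h2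
      omega
    · exact h1
  | coprime a b ha hb hab iha ihb =>
    intro _ M hM
    have ha0 : a ≠ 0 := by omega
    have hb0 : b ≠ 0 := by omega
    obtain ⟨L, i1, i2, i3, he, hr⟩ := iha ha0 (M * b) (mul_ne_zero hM hb0)
    have hd0 : (discr L).natAbs ≠ 0 := Int.natAbs_ne_zero.mpr (discr_ne_zero L)
    obtain ⟨K, j1, j2, j3, hf, hs⟩ := ihb hb0 (M * (discr L).natAbs) (mul_ne_zero hM hd0)
    obtain ⟨F, k1, k2, k3, ⟨e⟩, ht⟩ := exists_galois_prod_of_disjoint
      (S := fun q => (q : ℤ) ∣ discr L) (T := fun q => (q : ℤ) ∣ discr K)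
      (fun q hq h1 h2 => by
        rcases hs q hq h2 with h3 | h3
        · rcases hr q hq h1 with h4 | h4
          · have h5 := Nat.dvd_gcd h4 h3
            rw [hab.gcd_eq_one] at h5
            exact hq.one_lt.ne' (Nat.dvd_one.mp h5)
          · exact h4 (dvd_mul_of_dvd_right h3 M)
        · exact h3 (dvd_mul_of_dvd_right (Int.natCast_dvd.mp h1) M))
      ⟨L, i1, i2, i3, he, fun _ _ h => h⟩ ⟨K, j1, j2, j3, hf, fun _ _ h => h⟩
    obtain ⟨u⟩ := nonempty_GL2_mulEquiv hab
    refine ⟨F, k1, k2, k3, ⟨e.trans u.symm⟩, fun q hq hd => ?_⟩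
    rcases ht q hq hd with h1 | h1
    · rcases hr q hq h1 with h2 | h2
      · exact Or.inl (dvd_mul_of_dvd_left h2 b)
      · exact Or.inr fun h3 => h2 (dvd_mul_of_dvd_left h3 b)
    · rcases hs q hq h1 with h2 | h2
      · exact Or.inl (dvd_mul_of_dvd_right h2 a)
      · exact Or.inr fun h3 => h2 (dvd_mul_of_dvd_left h3 _)

/-- **The inverse Galois problem for `GL₂(ℤ/N)`**, every `N ≠ 0`. -/
theorem exists_galois_GL2_all {N : ℕ} (hN : N ≠ 0) :
    ∃ (L : Type) (_ : Field L) (_ : NumberField L) (_ : IsGalois ℚ L),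
      Nonempty ((L ≃ₐ[ℚ] L) ≃* GL (Fin 2) (ZMod N)) := by
  obtain ⟨L, h1, h2, h3, h4, -⟩ := exists_galois_GL2_all_ram N hN 1 one_ne_zero
  exact ⟨L, h1, h2, h3, h4⟩

/-- **`G × GL₂(ℤ/N)` is a Galois group over `ℚ`** if `G` is the Galois group of a number field which
is unramified at the prime factors of `N`. -/
theorem exists_galois_prod_GL2 {N : ℕ} (hN : N ≠ 0) (K : Type) [Field K] [NumberField K]
    [IsGalois ℚ K] (h : ∀ q : ℕ, q.Prime → q ∣ N → ¬ (q : ℤ) ∣ discr K) :
    ∃ (L : Type) (_ : Field L) (_ : NumberField L) (_ : IsGalois ℚ L),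
      Nonempty ((L ≃ₐ[ℚ] L) ≃* (K ≃ₐ[ℚ] K) × GL (Fin 2) (ZMod N)) := by
  have hd0 : (discr K).natAbs ≠ 0 := Int.natAbs_ne_zero.mpr (discr_ne_zero K)
  obtain ⟨L, i1, i2, i3, he, hr⟩ := exists_galois_GL2_all_ram N hN _ hd0
  obtain ⟨F, k1, k2, k3, he, -⟩ := exists_galois_prod_of_disjoint
    (S := fun q => (q : ℤ) ∣ discr K) (T := fun q => (q : ℤ) ∣ discr L)
    (fun q hq h1 h2 => by
      rcases hr q hq h2 with h3 | h3
      · exact h q hq h3 h1
      · exact h3 (Int.natCast_dvd.mp h1))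
    ⟨K, inferInstance, inferInstance, inferInstance, ⟨MulEquiv.refl _⟩, fun _ _ h => h⟩
    ⟨L, i1, i2, i3, he, fun _ _ h => h⟩
  exact ⟨F, k1, k2, k3, he⟩

end Fermat.Agent.Cor

end
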