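import Fermat.Agent.Corollaries.InvGal.Gal
import Fermat.Agent.EC.MultPlace

/-!
# The fields `ℚ(E[n])`

`W` a Weierstrass curve over `ℤ` with `Δ ≠ 0`. `divField W n` is the field generated over `ℚ` by the
coordinates of the points `P` of `W(ℚ̄)` with `n P = 0`. It is a Galois extension of `ℚ`, finite for
`n ≠ 0`. For `n = p` prime it is the field cut out by the representation `repP p hΔ` on `W[p]`, its
Galois group is the image of `repP p hΔ`, and it contains the `p`-th roots of unity. If the
representation is surjective, then `[ℚ(E[p]) : ℚ] = (p² - 1)(p² - p)`.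
-/

set_option autoImplicit false
set_option linter.style.haveILetI false

noncomputable section

namespace Fermat.Agent.Cor

open WeierstrassCurve WeierstrassCurve.Affine WeierstrassCurve.Affine.Point
open Fermat.Agent.Classic Fermat.Agent.ECRed Fermat.Agent.ECFrob
open InvGal

local notation "Qbar" => AlgebraicClosure ℚ
local notation "Γℚ" => (AlgebraicClosure ℚ ≃ₐ[ℚ] AlgebraicClosure ℚ)

variable {W : WeierstrassCurve ℤ} {n : ℕ}

/-- The coordinates of the affine points of order dividing `n`. -/
def torsionCoords (W : WeierstrassCurve ℤ) (n : ℕ) : Set Qbar :=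
  {z | ∃ (x y : Qbar) (h : (EQ W).Nonsingular x y),
    n • (Point.some x y h : (EQ W).Point) = 0 ∧ (z = x ∨ z = y)}

/-- The field `ℚ(E[n])`. -/
def divField (W : WeierstrassCurve ℤ) (n : ℕ) : IntermediateField ℚ Qbar :=
  IntermediateField.adjoin ℚ (torsionCoords W n)

/-- An automorphism fixes `ℚ(E[n])` if and only if it fixes the points of order dividing `n`. -/
theorem fixes_divField_iff (σ : Γℚ) :
    (∀ x ∈ divField W n, σ x = x) ↔ ∀ P : (EQ W).Point, n • P = 0 → σ • P = P := by
  constructor
  · rintro h (_ | ⟨x, y, hxy⟩) hP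
    · rfl
    · have hx := h x (IntermediateField.subset_adjoin ℚ _ ⟨x, y, hxy, hP, Or.inl rfl⟩)
      have hy := h y (IntermediateField.subset_adjoin ℚ _ ⟨x, y, hxy, hP, Or.inr rfl⟩)
      rw [algEquiv_smul_def]
      change Point.some (σ x) (σ y) _ = _
      simp only [hx, hy]
  · intro h x hx
    have h1 : torsionCoords W n ⊆ (IntermediateField.fixedField (Subgroup.zpowers σ) :
        IntermediateField ℚ Qbar) := by
      rintro z ⟨x, y, hxy, hP, hz⟩
      have h2 := h _ hP
      rw [algEquiv_smul_def] at h2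
      have h5 : σ x = x ∧ σ y = y := by
        injection h2 with h6 h7
        exact ⟨h6, h7⟩
      have h3 : σ z = z := by
        rcases hz with rfl | rfl
        exacts [h5.1, h5.2]
      have h4 : Subgroup.zpowers σ ≤ MulAction.stabilizer Γℚ z :=
        Subgroup.zpowers_le.mpr (MulAction.mem_stabilizer_iff.mpr h3)
      rintro ⟨τ, hτ⟩
      exact MulAction.mem_stabilizer_iff.mp (h4 hτ)
    have h2 := (IntermediateField.adjoin_le_iff.mpr h1) hx
    exact h2 ⟨σ, Subgroup.mem_zpowers σ⟩

theorem mem_fixingSubgroup_divField_iff (σ : Γℚ) : σ ∈ (divField W n).fixingSubgroup ↔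
    ∀ P : (EQ W).Point, n • P = 0 → σ • P = P := by
  rw [IntermediateField.mem_fixingSubgroup_iff, fixes_divField_iff]

/-- `ℚ(E[n])` is a Galois extension of `ℚ`. -/
theorem isGalois_divField : IsGalois ℚ (divField W n) := by
  refine (InfiniteGalois.normal_iff_isGalois (divField W n)).mp ⟨fun τ hτ σ => ?_⟩
  rw [mem_fixingSubgroup_divField_iff] at hτ ⊢
  intro P hP
  have h1 : n • (σ⁻¹ • P) = 0 := by
    have h2 : σ⁻¹ • (n • P) = n • (σ⁻¹ • P) := (Point.map (σ⁻¹).toAlgHom).map_nsmul n P
    rw [← h2, hP]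
    rfl
  rw [mul_smul, mul_smul, hτ _ h1, smul_inv_smul]

/-- `ℚ(E[n])` is a number field for `n ≠ 0`. -/
theorem finiteDimensional_divField (hΔ : W.Δ ≠ 0) (hn : n ≠ 0) :
    FiniteDimensional ℚ (divField W n) := by
  have hfin : (torsionCoords W n).Finite := by
    haveI := finite_rat hΔ hn
    let S : Set (EQ W).Point := {P | n • P = 0}
    have hS : S.Finite := by
      refine Set.Finite.subset (Set.finite_range (fun P : Submodule.torsionBy ℤ (EQ W).Point n =>
        (P : (EQ W).Point))) fun P hP => ⟨⟨P, ?_⟩, rfl⟩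
      rw [Submodule.mem_torsionBy_iff, natCast_zsmul]
      exact hP
    let f : (EQ W).Point → Set Qbar := fun P => match P with
      | Point.zero => ∅
      | Point.some x y _ => {x, y}
    have hf : ∀ P, (f P).Finite := by
      rintro (_ | ⟨x, y, h⟩)
      · exact Set.finite_empty
      · exact Set.toFinite _
    refine (hS.biUnion fun P _ => hf P).subset ?_
    rintro z ⟨x, y, h, hP, hz⟩
    refine Set.mem_biUnion (x := Point.some x y h) hP ?_
    exact hz
  haveI := hfin.to_subtype
  exact IntermediateField.finiteDimensional_adjoin fun x _ =>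
    (Algebra.IsIntegral.isIntegral (R := ℚ) x)

theorem numberField_divField (hΔ : W.Δ ≠ 0) (hn : n ≠ 0) : NumberField (divField W n) :=
  haveI := finiteDimensional_divField hΔ hn
  ⟨⟩

/-! ### Fields with fixing group `ker ρ` -/

namespace InvGal

variable {k K : Type*} [Field k] [Field K] [Algebra k K] [IsGalois k K] {G : Type*} [Group G]
  {ρ : (K ≃ₐ[k] K) →* G} {L : IntermediateField k K}

theorem eq_cutField (hL : L.fixingSubgroup = ρ.ker) : L = cutField ρ := by
  rw [cutField, ← hL, InfiniteGalois.fixedField_fixingSubgroup]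

/-- `Gal(L/k)` is isomorphic to the image of `ρ`, if `ker ρ` is the group fixing `L`. -/
theorem exists_equiv_range [TopologicalSpace G] [DiscreteTopology G] (hρ : Continuous ρ)
    (hL : L.fixingSubgroup = ρ.ker) : ∃ e : (L ≃ₐ[k] L) ≃* ρ.range,
      ∀ (σ : K ≃ₐ[k] K) (τ : L ≃ₐ[k] L), (∀ x, ((τ x : L) : K) = σ x) → (e τ : G) = ρ σ := by
  have h1 : Continuous ρ.rangeRestrict := hρ.subtype_mk _
  have h2 : L = cutField ρ.rangeRestrict := eq_cutField (by rw [hL, MonoidHom.ker_rangeRestrict])
  subst h2
  obtain ⟨e, he⟩ := exists_equiv_cutField h1 ρ.rangeRestrict_surjective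
  exact ⟨e, fun σ τ h => congrArg Subtype.val (he σ τ h)⟩

/-- `Gal(L/k)` is isomorphic to `G`, if `ρ` is surjective and `ker ρ` is the group fixing `L`. -/
theorem exists_equiv_of_surjective [TopologicalSpace G] [DiscreteTopology G] (hρ : Continuous ρ)
    (hs : Function.Surjective ρ) (hL : L.fixingSubgroup = ρ.ker) : ∃ e : (L ≃ₐ[k] L) ≃* G,
      ∀ (σ : K ≃ₐ[k] K) (τ : L ≃ₐ[k] L), (∀ x, ((τ x : L) : K) = σ x) → e τ = ρ σ := by
  obtain rfl := eq_cutField hL
  exact exists_equiv_cutField hρ hs

/-- An element fixed by `ker ρ` is in `L`. -/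
theorem mem_of_fixed (hL : L.fixingSubgroup = ρ.ker) {x : K} (hx : ∀ σ, ρ σ = 1 → σ x = x) :
    x ∈ L := by
  rw [eq_cutField hL]
  rintro ⟨σ, hσ⟩
  exact hx σ hσ

end InvGal

/-! ### `n = p` prime -/

section Prime

open Matrix

variable {p : ℕ} [hp : Fact p.Prime] (hΔ : W.Δ ≠ 0)

/-- **`ℚ(E[p])` is the field cut out by the representation on `W[p]`.** -/
theorem fixingSubgroup_divField : (divField W p).fixingSubgroup = (repP p hΔ).ker := by
  obtain ⟨e, he⟩ := exists_equiv p hΔ
  ext σ
  rw [mem_fixingSubgroup_divField_iff, MonoidHom.mem_ker]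
  constructor
  · intro h
    refine Units.ext (Matrix.ext_of_mulVec_single fun i => ?_)
    obtain ⟨x, hx⟩ := e.surjective (Pi.single i 1)
    have h1 : σ • x = x := by
      refine Subtype.ext (h x ?_)
      have h2 := (Submodule.mem_torsionBy_iff _ _).mp x.2
      rwa [natCast_zsmul] at h2
    rw [← hx, ← he, h1, Units.val_one, one_mulVec]
  · intro h P hP
    have h1 : P ∈ Submodule.torsionBy ℤ (EQ W).Point (p : ℤ) := by
      rw [Submodule.mem_torsionBy_iff, natCast_zsmul]
      exact hP
    have h2 := he σ ⟨P, h1⟩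
    rw [h, Units.val_one, one_mulVec] at h2
    exact congrArg Subtype.val (e.injective h2)

/-- **The Galois group of `ℚ(E[p])` over `ℚ` is the image of the representation on `W[p]`.** -/
theorem exists_equiv_divField_range :
    ∃ e : (divField W p ≃ₐ[ℚ] divField W p) ≃* (repP p hΔ).range,
      ∀ (σ : Γℚ) (τ : divField W p ≃ₐ[ℚ] divField W p), (∀ x, ((τ x : divField W p) : Qbar) = σ x) →
        (e τ : GL (Fin 2) (ZMod p)) = repP p hΔ σ :=
  exists_equiv_range (continuous_repP p hΔ) (fixingSubgroup_divField hΔ)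

/-- **If the representation on `W[p]` is surjective, then the Galois group of `ℚ(E[p])` over `ℚ` is
`GL₂(𝔽_p)`.** -/
theorem exists_equiv_divField (hs : Function.Surjective (repP p hΔ)) :
    ∃ e : (divField W p ≃ₐ[ℚ] divField W p) ≃* GL (Fin 2) (ZMod p),
      ∀ (σ : Γℚ) (τ : divField W p ≃ₐ[ℚ] divField W p), (∀ x, ((τ x : divField W p) : Qbar) = σ x) →
        e τ = repP p hΔ σ :=
  exists_equiv_of_surjective (continuous_repP p hΔ) hs (fixingSubgroup_divField hΔ)

include hΔ in
theorem card_gal_divField : Nat.card (divField W p ≃ₐ[ℚ] divField W p) =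
    Module.finrank ℚ (divField W p) := by
  haveI := finiteDimensional_divField (n := p) hΔ hp.out.ne_zero
  haveI : IsGalois ℚ (divField W p) := isGalois_divField
  exact IsGalois.card_aut_eq_finrank ℚ (divField W p)

/-- `[ℚ(E[p]) : ℚ]` is the order of the image of the representation. -/
theorem finrank_divField_eq_card_range :
    Module.finrank ℚ (divField W p) = Nat.card (repP p hΔ).range := by
  obtain ⟨e, -⟩ := exists_equiv_divField_range (p := p) hΔ
  rw [← card_gal_divField (p := p) hΔ, Nat.card_congr e.toEquiv]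

include hΔ in
/-- **`[ℚ(E[p]) : ℚ] = (p² - 1)(p² - p)`** if the representation on `W[p]` is surjective. -/
theorem finrank_divField (hs : Function.Surjective (repP p hΔ)) :
    Module.finrank ℚ (divField W p) = (p ^ 2 - 1) * (p ^ 2 - p) := by
  obtain ⟨e, -⟩ := exists_equiv_divField hΔ hs
  rw [← card_gal_divField (p := p) hΔ, Nat.card_congr e.toEquiv, Matrix.card_GL_field,
    Fin.prod_univ_two, ZMod.card]
  simp

include hΔ in
/-- **`ℚ(E[p])` contains the `p`-th roots of unity.** -/
theorem rootOfUnity_mem_divField {ζ : Qbar} (hζ : ζ ^ p = 1) : ζ ∈ divField W p := by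
  refine mem_of_fixed (fixingSubgroup_divField (p := p) hΔ) fun σ hσ => ?_
  have h1 := det_repP p hΔ σ
  rw [hσ, Units.val_one, det_one] at h1
  have h2 := cycMod_spec p σ hζ
  have h3 : 1 < p := hp.out.one_lt
  haveI : Fact (1 < p) := ⟨h3⟩
  rw [h2, ← h1, ZMod.val_one, pow_one]

end Prime

end Fermat.Agent.Cor
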