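import Fermat.Agent.Corollaries.UnramIff
import Fermat.Agent.Corollaries.InvGal.DivField
import Fermat.Agent.Classic.Level.Disc.Inertia
import Mathlib.NumberTheory.NumberField.Discriminant.Different
import Mathlib.NumberTheory.NumberField.Cyclotomic.Basic

/-!
# The primes dividing the discriminant of `ℚ(E[p])`

`K ⊂ ℚ̄` a finite Galois extension of `ℚ`: a prime `q` does not divide the discriminant of `K` if
and only if the inertia groups above `q` fix `K` (`not_dvd_discr_iff_inertia`). In particular `q`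
does not divide the discriminant of `ℚ(E[n])` if and only if `W[n]` is unramified at `q`.

For `W` semistable and `p` an odd prime, the primes dividing the discriminant of `ℚ(E[p])` are `p`
and the prime factors of `serreLevel W p`, i.e. the primes `q` with `q ∣ Δ`, `p ∤ v_q(Δ)`.
-/

set_option autoImplicit false

namespace Fermat.Agent.Cor

open scoped Pointwise NumberField
open WeierstrassCurve WeierstrassCurve.Affine WeierstrassCurve.Affine.Point
open Fermat.Agent.Classic Fermat.Agent.Classic.Disc Fermat.Agent.ECRed Fermat.Agent.ECFrob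
open Fermat.Agent.Frob Fermat.Agent.Minkowski

local notation "Qbar" => AlgebraicClosure ℚ
local notation "Γℚ" => (AlgebraicClosure ℚ ≃ₐ[ℚ] AlgebraicClosure ℚ)

namespace InvGal

section Discr

variable (K : IntermediateField ℚ (AlgebraicClosure ℚ)) [NumberField K] [IsGalois ℚ K] {q : ℕ}

/-- The inertia group of a place has `e` elements. -/
theorem card_inertia_centre (hq : q.Prime) {A : ValuationSubring (AlgebraicClosure ℚ)}
    (hA : A.LiesOverPrime q) (Q : Ideal (𝓞 K)) [hQ : Q.IsPrime] (hqQ : (q : 𝓞 K) ∈ Q) :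
    Nat.card (((centre A).comap (incl K)).inertia (K ≃ₐ[ℚ] K)) = Q.ramificationIdx ℤ := by
  let P : Ideal (𝓞 K) := (centre A).comap (incl K)
  have hP : P.IsPrime := Ideal.comap_isPrime _ _
  have hPq : (q : 𝓞 K) ∈ P := by
    change incl K (q : 𝓞 K) ∈ centre A
    rw [map_natCast]
    exact natCast_mem_centre hA
  have hPu := under_eq_span hq P hPq
  have hQu := under_eq_span hq Q hqQ
  have hp'p : (Ideal.span {(q : ℤ)}).IsPrime := by rw [← hPu]; infer_instance
  have hlP : P.LiesOver (Ideal.span {(q : ℤ)}) := ⟨hPu.symm⟩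
  have hlQ : Q.LiesOver (Ideal.span {(q : ℤ)}) := ⟨hQu.symm⟩
  have hp0 : Ideal.span {(q : ℤ)} ≠ ⊥ := by
    simpa using hq.ne_zero
  have hfin : Finite (ℤ ⧸ Ideal.span {(q : ℤ)}) := Ring.HasFiniteQuotients.finiteQuotient hp0
  have hp'm : (Ideal.span {(q : ℤ)}).IsMaximal := hp'p.isMaximal hp0
  have hfin2 : Finite (Ideal.span {(q : ℤ)}).ResidueField := inferInstance
  have hcard := Ideal.card_inertia_eq_ramificationIdxIn (G := K ≃ₐ[ℚ] K) (Ideal.span {(q : ℤ)}) P
  rwa [Ideal.ramificationIdxIn_eq_ramificationIdx (Ideal.span {(q : ℤ)}) Q (K ≃ₐ[ℚ] K)] at hcard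

/-- **A prime `q` does not divide the discriminant of a finite Galois extension `K ⊂ ℚ̄` of `ℚ` if
and only if the inertia groups above `q` act trivially on `K`.** -/
theorem not_dvd_discr_iff_inertia (hq : q.Prime) : ¬ (q : ℤ) ∣ NumberField.discr K ↔
    ∀ A : ValuationSubring (AlgebraicClosure ℚ), A.LiesOverPrime q →
      ∀ σ ∈ A.inertiaSubgroupIn ℚ, ∀ x ∈ K, σ x = x := by
  rw [NumberField.not_dvd_discr_iff_forall_mem K (𝓞 K) (Nat.prime_iff_prime_int.mp hq)]
  constructor
  · intro h A hA σ hσ x hx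
    let P : Ideal (𝓞 K) := (centre A).comap (incl K)
    have hP : P.IsPrime := Ideal.comap_isPrime _ _
    have hPq : (q : 𝓞 K) ∈ P := by
      change incl K (q : 𝓞 K) ∈ centre A
      rw [map_natCast]
      exact natCast_mem_centre hA
    have hun : Algebra.IsUnramifiedAt ℤ P := h P hP (by simpa using hPq)
    have hcard := card_inertia_centre K hq hA P hPq
    rw [Ideal.ramificationIdx_eq_one P ℤ, Nat.card_eq_one_iff_unique] at hcard
    obtain ⟨hsub, -⟩ := hcard
    let τ : K ≃ₐ[ℚ] K := AlgEquiv.restrictNormalHom K σ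
    have hτ1 : ∀ z : K, ((τ z : K) : AlgebraicClosure ℚ) = σ z := fun z =>
      AlgEquiv.restrictNormal_commutes σ K z
    have hτ : τ ∈ P.inertia (K ≃ₐ[ℚ] K) := by
      intro z
      change incl K (τ • z - z) ∈ centre A
      rw [mem_centre_iff]
      have h1 := (sub_mem_nonunits_of_mem_inertia hσ (mem_of_mem_Zbar A (incl K z))).2
      have h2 : ((incl K (τ • z - z) : Zbar) : AlgebraicClosure ℚ) =
          σ ((incl K z : Zbar) : AlgebraicClosure ℚ) - ((incl K z : Zbar) : AlgebraicClosure ℚ) := by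
        rw [map_sub]
        change ((τ (z : K) : K) : AlgebraicClosure ℚ) - ((z : K) : AlgebraicClosure ℚ) = _
        rw [hτ1]
        rfl
      rw [h2]
      exact h1
    have h3 : (⟨τ, hτ⟩ : P.inertia (K ≃ₐ[ℚ] K)) = 1 := Subsingleton.elim _ _
    have h4 : τ = 1 := congrArg Subtype.val h3
    have h5 := hτ1 ⟨x, hx⟩
    rw [h4] at h5
    exact h5.symm
  · intro h Q hQ hqQ
    have hqQ' : (q : 𝓞 K) ∈ Q := by simpa using hqQ
    obtain ⟨A, hA⟩ := exists_liesOverPrime q hq
    have hcard := card_inertia_centre K hq hA Q hqQ'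
    have hQu := under_eq_span hq Q hqQ'
    have hp0 : Q.under ℤ ≠ ⊥ := by
      rw [hQu]
      simpa using hq.ne_zero
    have hfin : Finite (ℤ ⧸ Q.under ℤ) := Ring.HasFiniteQuotients.finiteQuotient hp0
    have hp'm : (Q.under ℤ).IsMaximal := Ideal.IsPrime.isMaximal inferInstance hp0
    have hfin2 : Finite (Q.under ℤ).ResidueField := inferInstance
    rw [← Ideal.ramificationIdx_eq_one_iff (q := Q), ← hcard, Nat.card_eq_one_iff_unique]
    refine ⟨⟨fun a b => ?_⟩, ⟨1⟩⟩
    have h1 : ∀ τ : ((centre A).comap (incl K)).inertia (K ≃ₐ[ℚ] K), τ = 1 := by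
      rintro ⟨τ, hτ⟩
      obtain ⟨σ, hσ, hσF⟩ := exists_lift_inertia K hq hA τ
        (fun x => ⟨τ • x - x, rfl, hτ x⟩)
      refine Subtype.ext (AlgEquiv.ext fun x => Subtype.ext ?_)
      rw [← hσF x]
      exact h A hA σ hσ x x.2
    rw [h1 a, h1 b]

end Discr

/-- An odd prime `p` divides the discriminant of a number field which contains a primitive `p`-th
root of unity. -/
theorem dvd_discr_of_isPrimitiveRoot {K : Type*} [Field K] [NumberField K] {p : ℕ} (hp : p.Prime)
    (hp2 : p ≠ 2) {ζ : K} (hζ : IsPrimitiveRoot ζ p) : (p : ℤ) ∣ NumberField.discr K := by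
  have : Fact p.Prime := ⟨hp⟩
  let F : IntermediateField ℚ K := IntermediateField.adjoin ℚ {ζ}
  have hF : IsCyclotomicExtension {p} ℚ F := hζ.intermediateField_adjoin_isCyclotomicExtension ℚ
  have h1 := IsCyclotomicExtension.Rat.discr_prime p F
  have h2 : NumberField.discr F ∣ NumberField.discr K := NumberField.discr_dvd_discr F K
  refine dvd_trans ?_ h2
  rw [h1]
  refine Dvd.dvd.mul_left (dvd_pow_self _ ?_) _
  have := hp.two_le
  omega

end InvGal

open InvGal

variable {W : WeierstrassCurve ℤ} {n p q : ℕ}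

/-- **`q` does not divide the discriminant of `ℚ(E[n])` iff `W[n]` is unramified at `q`.** -/
theorem not_dvd_discr_divField_iff [NumberField (divField W n)] (hq : q.Prime) :
    ¬ (q : ℤ) ∣ NumberField.discr (divField W n) ↔
      GaloisRepUnramifiedAt (K := AlgebraicClosure ℚ) ℚ (W.map (Int.castRingHom ℚ)) n q := by
  have : IsGalois ℚ (divField W n) := isGalois_divField
  rw [not_dvd_discr_iff_inertia _ hq]
  refine forall₄_congr fun A _ σ _ => ?_
  rw [fixes_divField_iff]
  constructor
  · intro h x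
    have hx := (Submodule.mem_torsionBy_iff _ _).mp x.2
    rw [natCast_zsmul] at hx
    exact Subtype.ext (h x hx)
  · intro h P hP
    have h1 : P ∈ Submodule.torsionBy ℤ (EQ W).Point (n : ℤ) := by
      rw [Submodule.mem_torsionBy_iff, natCast_zsmul]
      exact hP
    exact congrArg Subtype.val (h ⟨P, h1⟩)

/-- **`p` divides the discriminant of `ℚ(E[p])`**, `p` an odd prime. -/
theorem self_dvd_discr_divField (hΔ : W.Δ ≠ 0) [NumberField (divField W p)] (hp : p.Prime)
    (hp2 : p ≠ 2) : (p : ℤ) ∣ NumberField.discr (divField W p) := by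
  have : Fact p.Prime := ⟨hp⟩
  obtain ⟨ζ, hζ⟩ := HasEnoughRootsOfUnity.exists_primitiveRoot (AlgebraicClosure ℚ) p
  have h1 : ζ ∈ divField W p := rootOfUnity_mem_divField hΔ hζ.pow_eq_one
  have h2 : IsPrimitiveRoot (⟨ζ, h1⟩ : divField W p) p :=
    IsPrimitiveRoot.of_map_of_injective (f := algebraMap (divField W p) (AlgebraicClosure ℚ)) hζ
      (FaithfulSMul.algebraMap_injective _ _)
  exact dvd_discr_of_isPrimitiveRoot hp hp2 h2

/-- **The primes dividing the discriminant of `ℚ(E[p])`** are `p` and the prime factors of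
`serreLevel W p` (`W` semistable, `p` odd). -/
theorem prime_dvd_discr_divField_iff (hΔ : W.Δ ≠ 0) (hW : W.IsSemistableModel)
    [NumberField (divField W p)] (hp : p.Prime) (hp2 : p ≠ 2) (hq : q.Prime) :
    (q : ℤ) ∣ NumberField.discr (divField W p) ↔ q = p ∨ q ∣ serreLevel W p := by
  rcases eq_or_ne q p with rfl | hqp
  · simp [self_dvd_discr_divField hΔ hp hp2]
  · rw [dvd_serreLevel_iff_ramified hΔ hW hq hp hp2 hqp, ← not_dvd_discr_divField_iff hq, not_not]
    simp [hqp]

/-- Explicitly: `q` divides the discriminant of `ℚ(E[p])` iff `q = p`, or `q ∣ Δ` and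
`p ∤ v_q(Δ)`. -/
theorem prime_dvd_discr_divField_iff' (hΔ : W.Δ ≠ 0) (hW : W.IsSemistableModel)
    [NumberField (divField W p)] (hp : p.Prime) (hp2 : p ≠ 2) (hq : q.Prime) :
    (q : ℤ) ∣ NumberField.discr (divField W p) ↔
      q = p ∨ ((q : ℤ) ∣ W.Δ ∧ ¬ p ∣ padicValInt q W.Δ) := by
  rw [prime_dvd_discr_divField_iff hΔ hW hp hp2 hq, prime_dvd_serreLevel_iff hΔ hq]

end Fermat.Agent.Cor
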