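import Fermat.Agent.Corollaries.InvGal.Main37
import Fermat.Agent.Corollaries.InvGal.DivRam
import Fermat.Agent.TW.PUnits

/-!
# `GL₂(𝔽_p)` as the Galois group of a number field ramified exactly at `p` and `37`

The field `L = ℚ(E[p])` of the `p`-torsion points of the elliptic curve `E = 37a : y² + y = x³ - x`
is a Galois extension of `ℚ` with Galois group `GL₂(𝔽_p)`, of degree `(p² - 1)(p² - p)`, for every
prime `p`. The primes dividing its discriminant are `p` and `37` (`prime_dvd_discr37_iff`).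

For `p ≠ 2` this is the description of the ramification of `ℚ(E[p])` for semistable curves
(`DivRam.lean`). For `p = 2`: `√Δ = √37` is in `ℚ(E[2])`, and `u = 2 t`, where `t` is the abscissa
of a point of order two, satisfies `u³ = 4 u - 2`, so its valuation at a place above `2` is one
third of the valuation of `2`.
-/

set_option autoImplicit false

namespace Fermat.Agent.Cor

open InvGal
open Matrix
open WeierstrassCurve WeierstrassCurve.Affine WeierstrassCurve.Affine.Point
open Fermat.Agent.Classic Fermat.Agent.ECRed Fermat.Agent.ECFrob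

variable {W : WeierstrassCurve ℤ}

/-- **`ℚ(E[n])` is unramified at the primes of good reduction not dividing `n`**: a prime which
divides the discriminant of `ℚ(E[n])` divides `n` or `Δ`. -/
theorem dvd_or_dvd_of_dvd_discr_divField {n q : ℕ} [NumberField (divField W n)] (hq : q.Prime)
    (h : (q : ℤ) ∣ NumberField.discr (divField W n)) : q ∣ n ∨ (q : ℤ) ∣ W.Δ := by
  by_contra hc
  rw [not_or] at hc
  have : Fact q.Prime := ⟨hq⟩
  exact (not_dvd_discr_divField_iff hq).mpr (fun A hA σ hσ x =>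
    LinearMap.congr_fun (ECFrob.rho_inertia (W := W) (n := n) (ℓ := q) hc.2 hA hσ hc.1) x) h

namespace InvGal

/-- If `x ∈ K` and `v(x) ^ m = v(q) ^ k` for a place `v` above `q`, `m ∤ k`, then `q` divides the
discriminant of `K` (`K ⊂ ℚ̄` a finite Galois extension of `ℚ`). -/
theorem dvd_discr_of_valuation (K : IntermediateField ℚ (AlgebraicClosure ℚ)) [NumberField K]
    [IsGalois ℚ K] {q : ℕ} (hq : q.Prime) {A : ValuationSubring (AlgebraicClosure ℚ)}
    (hA : A.LiesOverPrime q) {x : AlgebraicClosure ℚ} (hx : x ∈ K) (hx0 : x ≠ 0) {m k : ℤ}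
    (h : A.valuation x ^ m = A.valuation (q : AlgebraicClosure ℚ) ^ k) (hmk : ¬ m ∣ k) :
    (q : ℤ) ∣ NumberField.discr K := by
  by_contra hc
  rw [not_dvd_discr_iff_inertia K hq] at hc
  obtain ⟨n, hn⟩ := TW.exists_valuation_eq_zpow_of_fixed hq hA (fun σ hσ => hc A hA σ hσ x hx) hx0
  rw [hn, ← _root_.zpow_mul] at h
  have h3 := zpow_right_injective₀ (TW.val_p_pos hq) (TW.val_p_lt_one hA).ne h
  exact hmk ⟨n, by rw [← h3, mul_comm]⟩

/-- The valuation of an integer. -/
theorem valuation_intCast {q : ℕ} (hq : q.Prime) {A : ValuationSubring (AlgebraicClosure ℚ)}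
    (hA : A.LiesOverPrime q) {a : ℤ} (ha : a ≠ 0) :
    A.valuation (a : AlgebraicClosure ℚ) =
      A.valuation (q : AlgebraicClosure ℚ) ^ (padicValInt q a : ℤ) := by
  have : Fact q.Prime := ⟨hq⟩
  obtain ⟨m, hm⟩ := padicValInt_dvd (p := q) a
  have h1 : ¬ (q : ℤ) ∣ m := by
    rintro ⟨c, rfl⟩
    have h2 : (q : ℤ) ^ (padicValInt q a + 1) ∣ a := ⟨c, by rw [pow_succ, mul_assoc]; exact hm⟩
    rw [padicValInt_dvd_iff] at h2
    rcases h2 with h2 | h2
    · exact ha h2
    · omega
  have h3 := FermatAgent.ECVal.val_intCast_eq_one A.valuation hq (TW.val_p_lt_one hA) h1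
  have h4 : (a : AlgebraicClosure ℚ) = (q : AlgebraicClosure ℚ) ^ padicValInt q a * m := by
    conv_lhs => rw [hm]
    push_cast
    rfl
  rw [h4, map_mul, map_pow, h3, mul_one, zpow_natCast]

end InvGal

/-- The roots of the `2`-division polynomial are in `ℚ(E[2])`. -/
theorem mem_divField_of_psiTwo (hΔ : W.Δ ≠ 0) {t : AlgebraicClosure ℚ} (ht : psiTwo W t = 0) :
    t ∈ divField W 2 := by
  obtain ⟨u, h, h2⟩ := exists_point_of_psiTwo hΔ ht
  exact IntermediateField.subset_adjoin ℚ _ ⟨t, u, h, h2, Or.inl rfl⟩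

/-- **`√Δ ∈ ℚ(E[2])`.** -/
theorem sqrt_Δ_mem_divField (hΔ : W.Δ ≠ 0) :
    ∃ z ∈ divField W 2, z ^ 2 = ((W.Δ : ℤ) : AlgebraicClosure ℚ) := by
  obtain ⟨x, y, z, -, hd, hroot⟩ := exists_two_roots hΔ
  have hx : x ∈ divField W 2 := mem_divField_of_psiTwo hΔ (by rw [hroot]; ring)
  have hy : y ∈ divField W 2 := mem_divField_of_psiTwo hΔ (by rw [hroot]; ring)
  have hz : z ∈ divField W 2 := mem_divField_of_psiTwo hΔ (by rw [hroot]; ring)
  refine ⟨_, mul_mem ?_ (mul_mem (mul_mem (sub_mem hx hy) (sub_mem hx hz)) (sub_mem hy hz)), hd⟩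
  exact ofNat_mem _ 4

/-- **A prime with `v_q(Δ)` odd divides the discriminant of `ℚ(E[2])`.** -/
theorem dvd_discr_divField_two (hΔ : W.Δ ≠ 0) [NumberField (divField W 2)] {q : ℕ} (hq : q.Prime)
    (h : ¬ 2 ∣ padicValInt q W.Δ) : (q : ℤ) ∣ NumberField.discr (divField W 2) := by
  have : IsGalois ℚ (divField W 2) := isGalois_divField
  obtain ⟨z, hz, hz2⟩ := sqrt_Δ_mem_divField hΔ
  obtain ⟨A, hA⟩ := Fermat.Agent.Frob.exists_liesOverPrime q hq
  have hz0 : z ≠ 0 := by
    rintro rfl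
    apply hΔ
    have : ((W.Δ : ℤ) : AlgebraicClosure ℚ) = 0 := by rw [← hz2]; norm_num
    exact_mod_cast this
  refine dvd_discr_of_valuation (divField W 2) hq hA hz hz0 (m := 2) (k := padicValInt q W.Δ) ?_ ?_
  · rw [← valuation_intCast hq hA hΔ, ← hz2, map_pow]
    rfl
  · intro h1
    exact h (by exact_mod_cast h1)

namespace InvGal

/-- `2` divides the discriminant of `ℚ(37a[2])`: with `t` a root of `4 t³ - 4 t + 1`, `u = 2 t`
satisfies `u³ = 4 u - 2`. -/
theorem two_dvd_discr37 [NumberField (divField W37 2)] :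
    ((2 : ℕ) : ℤ) ∣ NumberField.discr (divField W37 2) := by
  have : IsGalois ℚ (divField W37 2) := isGalois_divField
  obtain ⟨x, y, z, -, -, hroot⟩ := exists_two_roots W37_Δ_ne
  have hx0 : psiTwo W37 x = 0 := by rw [hroot]; ring
  have hx : x ∈ divField W37 2 := mem_divField_of_psiTwo W37_Δ_ne hx0
  obtain ⟨A, hA⟩ := Fermat.Agent.Frob.exists_liesOverPrime 2 Nat.prime_two
  have h1 : 4 * x ^ 3 - 4 * x + 1 = 0 := by
    have h2 : W37.b₂ = 0 := by decide
    have h3 : W37.b₄ = -2 := by decide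
    have h4 : W37.b₆ = 1 := by decide
    rw [psiTwo, EQ_b₂, EQ_b₄, EQ_b₆, h2, h3, h4] at hx0
    push_cast at hx0
    linear_combination hx0
  have hu : (2 * x) ^ 3 = ((2 : ℕ) : AlgebraicClosure ℚ) * (2 * (2 * x) - 1) := by
    push_cast
    linear_combination 2 * h1
  have hu0 : 2 * x ≠ 0 := by
    intro h
    rw [h] at hu
    norm_num at hu
  have hint : _root_.IsIntegral ℤ (2 * x) := by
    refine ⟨Polynomial.X ^ 3 - Polynomial.C 4 * Polynomial.X + Polynomial.C 2, ?_, ?_⟩
    · monicity!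
    · simp only [Polynomial.eval₂_add, Polynomial.eval₂_sub, Polynomial.eval₂_mul,
        Polynomial.eval₂_pow, Polynomial.eval₂_X, Polynomial.eval₂_C, hu]
      push_cast
      simp only [map_ofNat]
      ring
  have h2 : A.valuation ((2 : ℕ) : AlgebraicClosure ℚ) < 1 := TW.val_p_lt_one hA
  have hle : A.valuation (2 * x) ≤ 1 := by
    rw [ValuationSubring.valuation_le_one_iff]
    exact Fermat.Agent.Frob.mem_of_mem_Zbar A ⟨2 * x, hint⟩
  have h3 : A.valuation (2 * (2 * x) - 1) = 1 := by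
    have h4 : A.valuation (2 * (2 * x)) < 1 := by
      rw [map_mul]
      exact mul_lt_one_of_lt_of_le (by exact_mod_cast h2) hle
    have h5 : A.valuation (-(2 * (2 * x)) + 1) = 1 := by
      rw [Valuation.map_add_eq_of_lt_right, map_one]
      rwa [Valuation.map_neg, map_one]
    rw [← Valuation.map_neg]
    have h6 : -(2 * (2 * x) - 1) = -(2 * (2 * x)) + 1 := by ring
    rw [h6, h5]
  refine dvd_discr_of_valuation (divField W37 2) Nat.prime_two hA
    (mul_mem (ofNat_mem _ 2) hx) hu0 (m := 3) (k := 1) ?_ (by norm_num)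
  rw [zpow_one]
  have h4 : A.valuation ((2 * x) ^ 3) = A.valuation ((2 : ℕ) : AlgebraicClosure ℚ) := by
    rw [hu, map_mul, h3, mul_one]
  rw [map_pow] at h4
  exact h4

end InvGal

namespace InvGal

variable (p : ℕ) [hp : Fact p.Prime]

/-- `ℚ(37a[p])` is a number field. -/
instance numberField_divField37 : NumberField (divField W37 p) :=
  numberField_divField W37_Δ_ne hp.out.ne_zero

/-- **The Galois group of `ℚ(37a[p])` is `GL₂(𝔽_p)`, for every prime `p`.** -/
theorem nonempty_equiv_divField37 :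
    Nonempty ((divField W37 p ≃ₐ[ℚ] divField W37 p) ≃* GL (Fin 2) (ZMod p)) := by
  obtain ⟨e, -⟩ := exists_equiv_divField W37_Δ_ne (repP37_surjective_all p)
  exact ⟨e⟩

theorem finrank_divField37 : Module.finrank ℚ (divField W37 p) = (p ^ 2 - 1) * (p ^ 2 - p) :=
  finrank_divField W37_Δ_ne (repP37_surjective_all p)

variable {p}

/-- `ℚ(37a[p])` is unramified outside `p` and `37`. -/
theorem eq_or_eq_of_dvd_discr37 {q : ℕ} (hq : q.Prime)
    (h : (q : ℤ) ∣ NumberField.discr (divField W37 p)) : q = p ∨ q = 37 := by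
  rcases dvd_or_dvd_of_dvd_discr_divField hq h with h1 | h1
  · exact Or.inl ((Nat.prime_dvd_prime_iff_eq hq hp.out).mp h1)
  · exact Or.inr (eq_37_of_dvd hq h1)

/-- **The primes dividing the discriminant of `ℚ(37a[p])` are `p` and `37`**, for every prime
`p`. -/
theorem prime_dvd_discr37_iff {q : ℕ} (hq : q.Prime) :
    (q : ℤ) ∣ NumberField.discr (divField W37 p) ↔ q = p ∨ q = 37 := by
  refine ⟨eq_or_eq_of_dvd_discr37 hq, ?_⟩
  have h37 : ¬ p ∣ padicValInt 37 W37.Δ := by
    rw [val37]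
    exact hp.out.one_lt.not_ge ∘ Nat.le_of_dvd one_pos
  by_cases hp2 : p = 2
  · subst hp2
    rintro (rfl | rfl)
    · exact two_dvd_discr37
    · exact dvd_discr_divField_two W37_Δ_ne hq h37
  · rw [prime_dvd_discr_divField_iff' W37_Δ_ne semistable37 hp.out hp2 hq]
    rintro (h | rfl)
    · exact Or.inl h
    · exact Or.inr ⟨by rw [W37_Δ]; norm_num, h37⟩

end InvGal

/-- **For every prime `p` there is a number field, Galois over `ℚ`, with Galois group `GL₂(𝔽_p)` and
ramified exactly at `p` and `37`.** -/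
theorem exists_galois_GL2_ramified (p : ℕ) [hp : Fact p.Prime] :
    ∃ (L : Type) (_ : Field L) (_ : NumberField L) (_ : IsGalois ℚ L),
      Nonempty ((L ≃ₐ[ℚ] L) ≃* GL (Fin 2) (ZMod p)) ∧
        ∀ q : ℕ, q.Prime → ((q : ℤ) ∣ NumberField.discr L ↔ q = p ∨ q = 37) :=
  ⟨divField W37 p, inferInstance, inferInstance, isGalois_divField, nonempty_equiv_divField37 p,
    fun _ hq => prime_dvd_discr37_iff hq⟩

end Fermat.Agent.Cor
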