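import Fermat.Agent.Corollaries.Surj.Basis
import Fermat.Agent.Corollaries.InvGal.Ram37

/-!
# The fields `ℚ(E[N])`, `N` composite (helper62)

`W` a Weierstrass curve over `ℤ` with `Δ ≠ 0`, `N ≥ 1`.

* `exists_equiv_divField_rangeN`: `Gal(ℚ(E[N])/ℚ)` is the image of the representation on `W[N]` in a
  basis of `W[N]` over `ℤ/N`.
* `nonempty_equiv_divFieldN`: if `Gal(ℚ̄/ℚ)` acts on `W[N]` through all automorphisms, then
  `Gal(ℚ(E[N])/ℚ) ≅ GL₂(ℤ/N)`; `surjMod_iff_finrank`: this is the case if and only if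
  `[ℚ(E[N]) : ℚ] = #GL₂(ℤ/N)`.
-/

set_option autoImplicit false

noncomputable section

namespace Fermat.Agent.Cor

open WeierstrassCurve WeierstrassCurve.Affine WeierstrassCurve.Affine.Point Module
open scoped WeierstrassCurve.Affine
open Fermat.Agent.Classic Fermat.Agent.Tate Fermat.Agent.ECRed Fermat.Agent.ECFrob
open InvGal

local notation "Qbar" => AlgebraicClosure ℚ
local notation "Γℚ" => (AlgebraicClosure ℚ ≃ₐ[ℚ] AlgebraicClosure ℚ)

variable {W : WeierstrassCurve ℤ} {N : ℕ}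

section Basis

variable (b : Basis (Fin 2) (ZMod N) (Submodule.torsionBy ℤ
      ((W.map (Int.castRingHom ℚ))⁄(AlgebraicClosure ℚ)).Point (N : ℤ)))

/-- **`ℚ(E[N])` is the field cut out by the representation on `W[N]`.** -/
theorem fixingSubgroup_divFieldN : (divField W N).fixingSubgroup = (repZ b).ker := by
  ext σ
  rw [mem_fixingSubgroup_divField_iff, MonoidHom.mem_ker]
  constructor
  · intro h
    refine Units.ext ?_
    rw [repZ_val, Units.val_one]
    have h1 : galoisRepModuleEnd (K := AlgebraicClosure ℚ) ℚ (W.map (Int.castRingHom ℚ)) N σ =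
        1 := LinearMap.ext fun x => Subtype.ext (h _
          ((Fermat.Agent.Torsion.mem_torsionBy_nat_iff N _).1 x.2))
    rw [h1, LinearMap.toMatrix_one]
  · intro h P hP
    have h1 := congrArg Units.val h
    rw [repZ_val, Units.val_one, ← LinearMap.toMatrix_one b] at h1
    have h2 := (LinearMap.toMatrix b b).injective h1
    exact congrArg Subtype.val (LinearMap.congr_fun h2
      ⟨P, (Fermat.Agent.Torsion.mem_torsionBy_nat_iff N P).2 hP⟩)

end Basis

/-- **The Galois group of `ℚ(E[N])` over `ℚ` is the image of the representation on `W[N]`.** -/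
theorem exists_equiv_divField_rangeN (hΔ : W.Δ ≠ 0) (hN : N ≠ 0)
    (b : Basis (Fin 2) (ZMod N) (Submodule.torsionBy ℤ
      ((W.map (Int.castRingHom ℚ))⁄(AlgebraicClosure ℚ)).Point (N : ℤ))) :
    ∃ e : (divField W N ≃ₐ[ℚ] divField W N) ≃* (repZ b).range,
      ∀ (σ : Γℚ) (τ : divField W N ≃ₐ[ℚ] divField W N), (∀ x, ((τ x : divField W N) : Qbar) = σ x) →
        (e τ : GL (Fin 2) (ZMod N)) = repZ b σ :=
  exists_equiv_range (continuous_repZ b hΔ hN) (fixingSubgroup_divFieldN b)

/-- **If `Gal(ℚ̄/ℚ)` acts on `W[N]` through all automorphisms, then the Galois group of `ℚ(E[N])`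
over `ℚ` is `GL₂(ℤ/N)`.** -/
theorem nonempty_equiv_divFieldN (hΔ : W.Δ ≠ 0) (hN : N ≠ 0) (h : SurjMod W N) :
    Nonempty ((divField W N ≃ₐ[ℚ] divField W N) ≃* GL (Fin 2) (ZMod N)) := by
  obtain ⟨b⟩ := exists_basis_torsionBy hΔ hN
  obtain ⟨e, -⟩ := exists_equiv_of_surjective (continuous_repZ b hΔ hN) (repZ_surjective b h)
    (fixingSubgroup_divFieldN b)
  exact ⟨e⟩

/-- `Gal(ℚ(E[N])/ℚ)` is isomorphic to a subgroup of `GL₂(ℤ/N)`. -/
theorem exists_injective_divFieldN (hΔ : W.Δ ≠ 0) (hN : N ≠ 0) :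
    ∃ f : (divField W N ≃ₐ[ℚ] divField W N) →* GL (Fin 2) (ZMod N), Function.Injective f := by
  obtain ⟨b⟩ := exists_basis_torsionBy hΔ hN
  obtain ⟨e, -⟩ := exists_equiv_divField_rangeN hΔ hN b
  exact ⟨(repZ b).range.subtype.comp e.toMonoidHom,
    (Subtype.val_injective.comp e.injective)⟩

theorem card_gal_divFieldN (hΔ : W.Δ ≠ 0) (hN : N ≠ 0) :
    Nat.card (divField W N ≃ₐ[ℚ] divField W N) = Module.finrank ℚ (divField W N) := by
  have := finiteDimensional_divField (n := N) hΔ hN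
  have : IsGalois ℚ (divField W N) := isGalois_divField
  exact IsGalois.card_aut_eq_finrank ℚ (divField W N)

/-- If all elements of `GL₂(ℤ/N)` are in the image, all automorphisms of `W[N]` come from the Galois
group. -/
theorem surjMod_of_repZ (b : Basis (Fin 2) (ZMod N) (Submodule.torsionBy ℤ
      ((W.map (Int.castRingHom ℚ))⁄(AlgebraicClosure ℚ)).Point (N : ℤ)))
    (h : Function.Surjective (repZ b)) : SurjMod W N := by
  intro g
  have h1 : IsUnit (LinearMap.toMatrix b b (g : _ →ₗ[ZMod N] _)) :=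
    (Matrix.isUnit_iff_isUnit_det _).2 (LinearEquiv.isUnit_det g b b)
  obtain ⟨σ, hσ⟩ := h h1.unit
  refine ⟨σ, fun x => ?_⟩
  have h2 := congrArg Units.val hσ
  rw [repZ_val, IsUnit.unit_spec] at h2
  exact LinearMap.congr_fun ((LinearMap.toMatrix b b).injective h2) x

/-- **`Gal(ℚ̄/ℚ)` acts on `W[N]` through all automorphisms if and only if
`[ℚ(E[N]) : ℚ] = #GL₂(ℤ/N)`.** -/
theorem surjMod_iff_finrank (hΔ : W.Δ ≠ 0) (hN : N ≠ 0) :
    SurjMod W N ↔ Module.finrank ℚ (divField W N) = Nat.card (GL (Fin 2) (ZMod N)) := by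
  have : NeZero N := ⟨hN⟩
  constructor
  · intro h
    obtain ⟨e⟩ := nonempty_equiv_divFieldN hΔ hN h
    rw [← card_gal_divFieldN hΔ hN, Nat.card_congr e.toEquiv]
  · intro h
    obtain ⟨b⟩ := exists_basis_torsionBy hΔ hN
    obtain ⟨e, -⟩ := exists_equiv_divField_rangeN hΔ hN b
    rw [← card_gal_divFieldN hΔ hN, Nat.card_congr e.toEquiv] at h
    exact surjMod_of_repZ b (MonoidHom.range_eq_top.1 (Subgroup.eq_top_of_card_eq _ h))

/-- `ℚ(E[M])` is contained in `ℚ(E[N])`, if `M` divides `N`. -/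
theorem divField_mono {M : ℕ} (h : M ∣ N) : divField W M ≤ divField W N := by
  refine IntermediateField.adjoin.mono ℚ _ _ ?_
  rintro z ⟨x, y, hxy, hP, hz⟩
  refine ⟨x, y, hxy, ?_, hz⟩
  obtain ⟨k, rfl⟩ := h
  rw [mul_comm, mul_smul, hP]
  exact nsmul_zero k

/-- The discriminant of `ℚ(E[M])` divides the discriminant of `ℚ(E[N])`, if `M` divides `N`. -/
theorem discr_divField_dvd {M : ℕ} (h : M ∣ N) [NumberField (divField W M)]
    [NumberField (divField W N)] :
    NumberField.discr (divField W M) ∣ NumberField.discr (divField W N) := by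
  let _ : Algebra (divField W M) (divField W N) :=
    (IntermediateField.inclusion (divField_mono h)).toRingHom.toAlgebra
  exact NumberField.discr_dvd_discr (divField W M) (divField W N)

end Fermat.Agent.Cor

end
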