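import Fermat.Agent.Corollaries.Surj.Open
import Fermat.Agent.Corollaries.InvGal.Main37

/-!
# The inverse Galois problem for `GL₂(ℤ/pⁿ)`

If `Gal(ℚ̄/ℚ)` acts on `W[pⁿ]` through all automorphisms, then `GL₂(ℤ/pⁿ)` is a Galois group over
`ℚ` (`exists_galois_GL2_pow_of_surjMod`). For the elliptic curve `37a : y² + y = x³ - x` the
representations on `W[pⁿ]` and on the Tate module `T_p W` are surjective for every prime `p ≥ 5` and
every `n` (`InvGal.surjMod37_pow`, `InvGal.tate37`). Hence `GL₂(ℤ/pⁿ)` is a Galois group over `ℚ`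
for every prime `p ≥ 5` and every `n` (`exists_galois_GL2_pow`).
-/

set_option autoImplicit false

noncomputable section

namespace Fermat.Agent.Cor

open WeierstrassCurve WeierstrassCurve.Affine WeierstrassCurve.Affine.Point
open Fermat.Agent.Classic Fermat.Agent.Tate
open Matrix

local notation "Γℚ" => (AlgebraicClosure ℚ ≃ₐ[ℚ] AlgebraicClosure ℚ)

namespace Tb

variable {W : WeierstrassCurve ℤ} {p : ℕ} [hp : Fact p.Prime] (X : Tb W p) (n : ℕ)

/-- The representation of `Gal(ℚ̄/ℚ)` on `W[pⁿ]`, in a basis. -/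
def repN : Γℚ →* GL (Fin 2) (ZMod (p ^ n)) :=
  (((PadicInt.toZModPow n).mapMatrix : Matrix (Fin 2) (Fin 2) ℤ_[p] →+*
    Matrix (Fin 2) (Fin 2) (ZMod (p ^ n))).toMonoidHom.comp X.M).toHomUnits

theorem repN_val (σ : Γℚ) : ((X.repN n σ : GL (Fin 2) (ZMod (p ^ n))) :
    Matrix (Fin 2) (Fin 2) (ZMod (p ^ n))) = (X.M σ).map (PadicInt.toZModPow n) := rfl

/-- `repN` is the matrix of the action on the `pⁿ`-torsion. -/
theorem toMatrix_eq_repN (σ : Γℚ) : LinearMap.toMatrix (X.bn n) (X.bn n)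
    (galoisRepModuleEnd (K := AlgebraicClosure ℚ) ℚ (W.map (Int.castRingHom ℚ)) (p ^ n) σ) =
      (X.repN n σ : Matrix (Fin 2) (Fin 2) (ZMod (p ^ n))) := X.map_M σ n

theorem continuous_repN : Continuous (X.repN n) := by
  obtain ⟨L, hL, h⟩ := X.exists_level n
  refine continuous_of_continuousAt_one (X.repN n) ?_
  have h1 : (L.fixingSubgroup : Set Γℚ) ∈ nhds (1 : Γℚ) :=
    (IntermediateField.fixingSubgroup_isOpen L).mem_nhds (one_mem _)
  have h2 : (fun _ : Γℚ => (1 : GL (Fin 2) (ZMod (p ^ n)))) =ᶠ[nhds 1] X.repN n := by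
    filter_upwards [h1] with σ hσ
    refine (Units.ext ?_).symm
    rw [repN_val, cg_iff_map.1 (h σ hσ), Units.val_one]
    exact Matrix.map_one _ (_root_.map_zero _) (_root_.map_one _)
  exact continuousAt_const.congr h2

/-- If every automorphism of `W[pⁿ]` comes from Galois then `repN` is onto. -/
theorem repN_surjective (h : SurjMod W (p ^ n)) : Function.Surjective (X.repN n) := by
  intro g
  have h1 : IsUnit (LinearMap.toMatrix (X.bn n) (X.bn n)
      (Matrix.toLin (X.bn n) (X.bn n) (g : Matrix (Fin 2) (Fin 2) (ZMod (p ^ n))))).det := by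
    rw [LinearMap.toMatrix_toLin]
    exact (Matrix.isUnit_iff_isUnit_det _).1 g.isUnit
  obtain ⟨σ, hσ⟩ := h (LinearEquiv.ofIsUnitDet h1)
  refine ⟨σ, Units.ext ?_⟩
  rw [← toMatrix_eq_repN]
  have h2 : galoisRepModuleEnd (K := AlgebraicClosure ℚ) ℚ (W.map (Int.castRingHom ℚ)) (p ^ n) σ =
      Matrix.toLin (X.bn n) (X.bn n) (g : Matrix (Fin 2) (Fin 2) (ZMod (p ^ n))) :=
    LinearMap.ext hσ
  rw [h2, LinearMap.toMatrix_toLin]

end Tb

/-- If `Gal(ℚ̄/ℚ)` acts on `W[pⁿ]` through all automorphisms, then **`GL₂(ℤ/pⁿ)` is a Galois group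
over `ℚ`**. -/
theorem exists_galois_GL2_pow_of_surjMod {W : WeierstrassCurve ℤ} (hΔ : W.Δ ≠ 0) {p : ℕ}
    [hp : Fact p.Prime] {n : ℕ} (h : SurjMod W (p ^ n)) :
    ∃ (L : Type) (_ : Field L) (_ : NumberField L) (_ : IsGalois ℚ L),
      Nonempty ((L ≃ₐ[ℚ] L) ≃* GL (Fin 2) (ZMod (p ^ n))) := by
  obtain ⟨X⟩ := exists_tb (W := W) (p := p) hΔ
  exact exists_galois_of_continuous (X.repN n) (X.continuous_repN n) (X.repN_surjective n h)

namespace InvGal

/-- `Gal(ℚ̄/ℚ)` acts on the `p`-torsion of `37a` through all automorphisms, `p` any prime. -/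
theorem surjMod37 (p : ℕ) [hp : Fact p.Prime] : SurjMod W37 p := surjective37_all p

/-- **`Gal(ℚ̄/ℚ)` acts on the `pⁿ`-torsion of `37a` through all automorphisms**, for every prime
`p ≥ 5` and every `n`. -/
theorem surjMod37_pow {p : ℕ} [hp : Fact p.Prime] (hp5 : 5 ≤ p) (n : ℕ) : SurjMod W37 (p ^ n) :=
  SurjMod.pow W37_Δ_ne hp5 (surjMod37 p) n

/-- **`Gal(ℚ̄/ℚ)` acts on the Tate module `T_p` of `37a` through all automorphisms**, for every
prime `p ≥ 5`. -/
theorem tate37 {p : ℕ} [hp : Fact p.Prime] (hp5 : 5 ≤ p)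
    (e : TMod p ((W37.map (Int.castRingHom ℚ))⁄(AlgebraicClosure ℚ)).Point
      ≃ₗ[ℤ_[p]] TMod p ((W37.map (Int.castRingHom ℚ))⁄(AlgebraicClosure ℚ)).Point) :
    ∃ σ : Γℚ, (tateRep (W37.map (Int.castRingHom ℚ)) (map_Δ_ne_zero W37_Δ_ne) p).ρ σ =
      e.toLinearMap :=
  SurjMod.tate W37_Δ_ne hp5 (surjMod37 p) e

end InvGal

/-- **The inverse Galois problem for `GL₂(ℤ/pⁿ)`**, `p ≥ 5` a prime, `n` arbitrary: there is a
Galois extension of `ℚ` with Galois group `GL₂(ℤ/pⁿ)` (the field of the `pⁿ`-torsion points of the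
elliptic curve `y² + y = x³ - x`). -/
theorem exists_galois_GL2_pow {p : ℕ} [hp : Fact p.Prime] (hp5 : 5 ≤ p) (n : ℕ) :
    ∃ (L : Type) (_ : Field L) (_ : NumberField L) (_ : IsGalois ℚ L),
      Nonempty ((L ≃ₐ[ℚ] L) ≃* GL (Fin 2) (ZMod (p ^ n))) :=
  exists_galois_GL2_pow_of_surjMod InvGal.W37_Δ_ne (InvGal.surjMod37_pow hp5 n)

end Fermat.Agent.Cor
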