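import Fermat.Agent.Corollaries.Surj.TateAll
import Fermat.Agent.Corollaries.InvGal.Open37
import Fermat.Agent.Corollaries.InvGal.Prod

/-!
# A family of elliptic curves with surjective `p`-adic representations for every prime `p`

`Et t : y² + y = x³ - x + t`, `t ∈ ℤ`.  `c₄ = 48`, `Δ = 64 - 27 (1 + 4 t)²`: a semistable model for
every `t`, of odd discriminant `Δ ≡ 5` modulo `8`, so neither `Δ` nor `-Δ` is a square.  If `6 ∣ t`
then the curve is congruent to `37a` modulo `6`, hence `W[p]` is irreducible for every prime `p`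
(`irr_Et`) and **`Gal(ℚ̄/ℚ)` acts on `T_p` through all automorphisms, for every prime `p`**
(`tate_Et`).

The discriminant can be made prime to any given integer, hence (`exists_galois_GL2_pow_ram`) for
every `M ≠ 0` the group `GL₂(ℤ/pⁿ)` is the Galois group over `ℚ` of a number field which is
unramified at all primes `q ≠ p` dividing `M`.
-/

set_option autoImplicit false

noncomputable section

namespace Fermat.Agent.Cor

open WeierstrassCurve WeierstrassCurve.Affine WeierstrassCurve.Affine.Point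
open Fermat.Agent.Classic Fermat.Agent.Tate
open Matrix

local notation "Γℚ" => (AlgebraicClosure ℚ ≃ₐ[ℚ] AlgebraicClosure ℚ)

/-- A natural number all of whose valuations are even is a square. -/
theorem isSquare_of_forall_even {n : ℕ} (hn : n ≠ 0)
    (h : ∀ q : ℕ, q.Prime → 2 ∣ padicValNat q n) : IsSquare n := by
  obtain ⟨a, b, hab, hsq⟩ := Nat.sq_mul_squarefree n
  have ha0 : a ≠ 0 := by
    rintro rfl
    exact hn (by rw [← hab, mul_zero])
  have hb0 : b ≠ 0 := by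
    rintro rfl
    exact hn (by rw [← hab]; ring)
  have ha : a = 1 := by
    by_contra ha1
    obtain ⟨q, hq, hqa⟩ := Nat.exists_prime_and_dvd ha1
    have : Fact q.Prime := ⟨hq⟩
    have h1 := h q hq
    rw [← hab, padicValNat.mul (pow_ne_zero 2 hb0) ha0, padicValNat.pow] at h1
    have h2 : padicValNat q a = 1 := by
      refine le_antisymm ?_ (one_le_padicValNat_of_dvd ha0 hqa)
      by_contra h3
      have h4 : q ^ 2 ∣ a := (padicValNat_dvd_iff_le ha0).mpr (by omega)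
      rw [sq] at h4
      exact hq.one_lt.ne' (Nat.isUnit_iff.mp (hsq q h4))
    omega
  rw [← hab, ha, mul_one]
  exact ⟨b, sq b⟩

namespace InvGal

/-- The curve `y² + y = x³ - x + t`. -/
def Et (t : ℤ) : WeierstrassCurve ℤ := ⟨0, 0, 1, -1, t⟩

variable (t : ℤ)

theorem Et_Δ : (Et t).Δ = 64 - 27 * (1 + 4 * t) ^ 2 := by
  simp only [Et, WeierstrassCurve.Δ, WeierstrassCurve.b₂, WeierstrassCurve.b₄,
    WeierstrassCurve.b₆, WeierstrassCurve.b₈]
  ring

theorem Et_c₄ : (Et t).c₄ = 48 := by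
  simp only [Et, WeierstrassCurve.c₄, WeierstrassCurve.b₂, WeierstrassCurve.b₄]
  ring

theorem Et_Δ_emod : (Et t).Δ % 8 = 5 := by
  rw [Et_Δ]
  have h1 : 64 - 27 * (1 + 4 * t) ^ 2 = 8 * (4 - 27 * (t + 2 * t ^ 2)) + 5 := by ring
  omega

theorem Et_Δ_ne : (Et t).Δ ≠ 0 := by
  intro h
  have h1 := Et_Δ_emod t
  rw [h] at h1
  norm_num at h1

theorem ne_two_of_dvd {q : ℕ} (h : (q : ℤ) ∣ (Et t).Δ) : q ≠ 2 := by
  rintro rfl
  have h1 := Et_Δ_emod t
  obtain ⟨k, hk⟩ := h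
  push_cast at hk
  omega

theorem ne_three_of_dvd {q : ℕ} (h : (q : ℤ) ∣ (Et t).Δ) : q ≠ 3 := by
  rintro rfl
  obtain ⟨k, hk⟩ := h
  rw [Et_Δ] at hk
  push_cast at hk
  obtain ⟨u, hu⟩ : ∃ u, u = (1 + 4 * t) ^ 2 := ⟨_, rfl⟩
  rw [← hu] at hk
  omega

/-- **`Et t` is a semistable model for every `t`.** -/
theorem semistable_Et : (Et t).IsSemistableModel := by
  intro q hq hd hc
  have h2 := ne_two_of_dvd t hd
  have h3 := ne_three_of_dvd t hd
  rw [Et_c₄] at hc
  have h4 : q ∣ 2 ^ 4 * 3 := by exact_mod_cast hc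
  rcases (Nat.Prime.dvd_mul hq).mp h4 with h5 | h5
  · exact h2 ((Nat.prime_dvd_prime_iff_eq hq Nat.prime_two).mp (hq.dvd_of_dvd_pow h5))
  · exact h3 ((Nat.prime_dvd_prime_iff_eq hq Nat.prime_three).mp h5)

/-- **Some prime divides the discriminant of `Et t` with an odd exponent.** -/
theorem exists_odd_val : ∃ q : ℕ, q.Prime ∧ q ≠ 2 ∧ (q : ℤ) ∣ (Et t).Δ ∧
    ¬ 2 ∣ padicValInt q (Et t).Δ := by
  by_contra hcon
  push Not at hcon
  have h1 : IsSquare (Et t).Δ.natAbs := by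
    refine isSquare_of_forall_even (Int.natAbs_ne_zero.mpr (Et_Δ_ne t)) fun q hq => ?_
    by_cases hd : (q : ℤ) ∣ (Et t).Δ
    · exact hcon q hq (ne_two_of_dvd t hd) hd
    · have h2 := padicValInt.eq_zero_of_not_dvd hd
      rw [padicValInt] at h2
      rw [h2]
      exact dvd_zero _
  obtain ⟨m, hm⟩ := h1
  have h2 := Et_Δ_emod t
  have h3 : m * m % 8 = 0 ∨ m * m % 8 = 1 ∨ m * m % 8 = 4 := by
    have h4 : m % 8 < 8 := Nat.mod_lt _ (by norm_num)
    rw [Nat.mul_mod]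
    generalize m % 8 = r at h4
    interval_cases r <;> simp
  rw [← hm] at h3
  omega

/-! ### Irreducibility for `6 ∣ t` -/

variable {t}

theorem cnt_Et {ℓ : ℕ} [NeZero ℓ] (h : (ℓ : ℤ) ∣ t) : cnt (Et t) ℓ = cnt W37 ℓ := by
  have h1 : ((t : ℤ) : ZMod ℓ) = 0 := (ZMod.intCast_zmod_eq_zero_iff_dvd _ _).mpr h
  simp only [cnt, Et, W37, h1, Int.cast_zero]

theorem isGood_Et_two : (Et t).IsGoodPrimeFor 2 := fun h => ne_two_of_dvd t h rfl

theorem isGood_Et_three : (Et t).IsGoodPrimeFor 3 := fun h => ne_three_of_dvd t h rfl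

theorem ap_Et_two (h : (6 : ℤ) ∣ t) : (Et t).apOfModel 2 = -2 := by
  rw [← ap37_two, apOfModel_eq (Et t) Nat.prime_two isGood_Et_two,
    apOfModel_eq W37 Nat.prime_two (isGood37 Nat.prime_two (by decide)),
    cnt_Et (dvd_trans (by norm_num) h)]

theorem ap_Et_three (h : (6 : ℤ) ∣ t) : (Et t).apOfModel 3 = -3 := by
  rw [← ap37_three, apOfModel_eq (Et t) Nat.prime_three isGood_Et_three,
    apOfModel_eq W37 Nat.prime_three (isGood37 Nat.prime_three (by decide)),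
    cnt_Et (dvd_trans (by norm_num) h)]

/-- **`Et t [p]` is irreducible for every prime `p`**, `6 ∣ t`. -/
theorem irr_Et (h : (6 : ℤ) ∣ t) {p : ℕ} (hp : p.Prime) : (Et t).ModRepIsIrreducible p := by
  by_cases h2 : p = 2
  · subst h2
    refine irreducible_of_noroot (Et_Δ_ne t) hp Nat.prime_three isGood_Et_three (by decide) ?_
    rw [ap_Et_three h]
    decide
  by_cases h3 : p = 3
  · subst h3
    refine irreducible_of_noroot (Et_Δ_ne t) hp Nat.prime_two isGood_Et_two (by decide) ?_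
    rw [ap_Et_two h]
    decide
  · refine irreducible_of_coprime (Et_Δ_ne t) (semistable_Et t) hp h2 Nat.prime_two isGood_Et_two
      (Ne.symm h2) Nat.prime_three isGood_Et_three (Ne.symm h3) ?_
    rw [ap_Et_two h, ap_Et_three h]
    decide

/-- **`Gal(ℚ̄/ℚ)` acts on `Et t [pⁿ]` through all automorphisms**, `6 ∣ t`, for every prime `p` and
every `n`. -/
theorem surjMod_Et (h : (6 : ℤ) ∣ t) (p : ℕ) [hp : Fact p.Prime] (n : ℕ) :
    SurjMod (Et t) (p ^ n) := by
  by_cases hp2 : p = 2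
  · subst hp2
    obtain ⟨q, hq, hq2, hd, hv⟩ := exists_odd_val t
    exact surjMod_pow_of_isMultAt (isMultAt_of_semistable (semistable_Et t) (Et_Δ_ne t) hq hd)
      hq2 hv (irr_Et h hp.out) n
  · exact surjMod_pow_of_semistable (Et_Δ_ne t) (semistable_Et t) hp2 (irr_Et h hp.out) n

/-- **`Gal(ℚ̄/ℚ)` acts on the Tate module `T_p` of `y² + y = x³ - x + t` through all automorphisms,
for every prime `p` and every `t` divisible by `6`.** -/
theorem tate_Et (h : (6 : ℤ) ∣ t) (p : ℕ) [hp : Fact p.Prime]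
    (e : TMod p (((Et t).map (Int.castRingHom ℚ))⁄(AlgebraicClosure ℚ)).Point
      ≃ₗ[ℤ_[p]] TMod p (((Et t).map (Int.castRingHom ℚ))⁄(AlgebraicClosure ℚ)).Point) :
    ∃ σ : Γℚ, (tateRep ((Et t).map (Int.castRingHom ℚ)) (map_Δ_ne_zero (Et_Δ_ne t)) p).ρ σ =
      e.toLinearMap :=
  tate_surjective_of_pow (Et_Δ_ne t) (surjMod_Et h p) e

/-- One element of Galois for all odd primes at once, for every `t` divisible by `6`. -/
theorem adelic_Et (h : (6 : ℤ) ∣ t)
    (e : ∀ (p : ℕ) [Fact p.Prime],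
      TMod p (((Et t).map (Int.castRingHom ℚ))⁄(AlgebraicClosure ℚ)).Point ≃ₗ[ℤ_[p]]
        TMod p (((Et t).map (Int.castRingHom ℚ))⁄(AlgebraicClosure ℚ)).Point) :
    ∃ σ : Γℚ, ∀ (p : ℕ) [Fact p.Prime], p ≠ 2 →
      (tateRep ((Et t).map (Int.castRingHom ℚ)) (map_Δ_ne_zero (Et_Δ_ne t)) p).ρ σ =
        (e p).toLinearMap := by
  obtain ⟨σ, hσ⟩ := exists_adelic_of_odd (Et_Δ_ne t) (semistable_Et t) e
  exact ⟨σ, fun p hp hp2 => hσ p hp2 (irr_Et h hp.out)⟩

/-! ### Curves with good reduction at given primes -/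

/-- **For every `M ≠ 0` there is `t` divisible by `6` such that no prime factor of `M` divides the
discriminant of `Et t`.** -/
theorem exists_Et_coprime {M : ℕ} (hM : M ≠ 0) : ∃ t : ℤ, (6 : ℤ) ∣ t ∧
    ∀ q : ℕ, q.Prime → q ∣ M → ¬ (q : ℤ) ∣ (Et t).Δ := by
  classical
  -- the product of the prime factors of `M` prime to `6`
  let m : ℕ := ∏ q ∈ M.primeFactors.filter (fun q => q ≠ 2 ∧ q ≠ 3), q
  have hm2 : Nat.Coprime m 2 := Nat.Coprime.prod_left fun q hq => by
    have h1 := Finset.mem_filter.mp hq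
    exact (Nat.coprime_primes (Nat.prime_of_mem_primeFactors h1.1) Nat.prime_two).mpr h1.2.1
  have hm3 : Nat.Coprime m 3 := Nat.Coprime.prod_left fun q hq => by
    have h1 := Finset.mem_filter.mp hq
    exact (Nat.coprime_primes (Nat.prime_of_mem_primeFactors h1.1) Nat.prime_three).mpr h1.2.2
  -- `m² ≡ 1` modulo `24`
  obtain ⟨k, hk⟩ : ∃ k : ℕ, m ^ 2 = 24 * k + 1 := by
    have h1 : m % 2 ≠ 0 := fun h => by
      have h2 := Nat.dvd_gcd (Nat.dvd_of_mod_eq_zero h) (dvd_refl 2)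
      rw [hm2.gcd_eq_one] at h2
      exact absurd h2 (by decide)
    have h3 : m % 3 ≠ 0 := fun h => by
      have h2 := Nat.dvd_gcd (Nat.dvd_of_mod_eq_zero h) (dvd_refl 3)
      rw [hm3.gcd_eq_one] at h2
      exact absurd h2 (by decide)
    have h4 : m ^ 2 % 24 = 1 := by
      rw [Nat.pow_mod]
      have h5 : m % 24 < 24 := Nat.mod_lt _ (by norm_num)
      have h6 : m % 24 % 2 ≠ 0 := by omega
      have h7 : m % 24 % 3 ≠ 0 := by omega
      generalize m % 24 = r at h5 h6 h7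
      interval_cases r <;> simp_all
    exact ⟨m ^ 2 / 24, by omega⟩
  refine ⟨6 * k, ⟨k, rfl⟩, fun q hq hqM hd => ?_⟩
  have hq2 := ne_two_of_dvd _ hd
  have hq3 := ne_three_of_dvd _ hd
  have hqm : q ∣ m := Finset.dvd_prod_of_mem _
    (Finset.mem_filter.mpr ⟨Nat.mem_primeFactors.mpr ⟨hq, hqM, hM⟩, hq2, hq3⟩)
  have h1 : (1 + 4 * (6 * k) : ℤ) = (m : ℤ) ^ 2 := by
    have : ((m ^ 2 : ℕ) : ℤ) = ((24 * k + 1 : ℕ) : ℤ) := by rw [hk]
    push_cast at this
    linarith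
  rw [Et_Δ, h1] at hd
  have h2 : (q : ℤ) ∣ 27 * ((m : ℤ) ^ 2) ^ 2 :=
    Dvd.dvd.mul_left (dvd_pow (dvd_pow (Int.natCast_dvd_natCast.mpr hqm) two_ne_zero)
      two_ne_zero) _
  have h3 : (q : ℤ) ∣ ((2 ^ 6 : ℕ) : ℤ) := by
    have h4 := dvd_add hd h2
    rw [sub_add_cancel] at h4
    exact_mod_cast h4
  exact hq2 ((Nat.prime_dvd_prime_iff_eq hq Nat.prime_two).mp
    (hq.dvd_of_dvd_pow (Int.natCast_dvd_natCast.mp h3)))

end InvGal

/-- The representation on `W[pⁿ]` is unramified at the good primes `q ≠ p`. -/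
theorem Tb.unrAt_repN {W : WeierstrassCurve ℤ} {p : ℕ} [hp : Fact p.Prime] (X : Tb W p) (n : ℕ)
    {q : ℕ} (hq : q.Prime) (hqp : q ≠ p) (hgood : W.IsGoodPrimeFor q) :
    KW.UnrAt (X.repN n) q := by
  intro A hA σ hσ
  have h1 : (tateRep (W.map (Int.castRingHom ℚ)) X.hE p).ρ σ = 1 :=
    tateRep_unramified X.hE p hq hgood hqp A hA σ hσ
  have h2 : TMod.rep p Γℚ ((W.map (Int.castRingHom ℚ))⁄(AlgebraicClosure ℚ)).Point σ = 1 := h1
  have h3 : X.M σ = 1 := by
    have h4 : X.M σ = LinearMap.toMatrix X.b X.b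
      (TMod.rep p Γℚ ((W.map (Int.castRingHom ℚ))⁄(AlgebraicClosure ℚ)).Point σ) := rfl
    rw [h4, h2, LinearMap.toMatrix_one]
  refine Units.ext ?_
  rw [X.repN_val, h3, Units.val_one]
  exact Matrix.map_one _ (_root_.map_zero _) (_root_.map_one _)

/-- **`GL₂(ℤ/pⁿ)` is a Galois group over `ℚ` with ramification outside given primes**: for every
`M ≠ 0` it is the Galois group of a number field which is unramified at the primes `q ≠ p` dividing
`M`. -/
theorem exists_galois_GL2_pow_ram (p : ℕ) [hp : Fact p.Prime] (n : ℕ) {M : ℕ} (hM : M ≠ 0) :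
    ∃ (L : Type) (_ : Field L) (_ : NumberField L) (_ : IsGalois ℚ L),
      Nonempty ((L ≃ₐ[ℚ] L) ≃* GL (Fin 2) (ZMod (p ^ n))) ∧
        ∀ q : ℕ, q.Prime → (q : ℤ) ∣ NumberField.discr L → q = p ∨ ¬ q ∣ M := by
  obtain ⟨t, h6, ht⟩ := InvGal.exists_Et_coprime hM
  obtain ⟨X⟩ := exists_tb (W := InvGal.Et t) (p := p) (InvGal.Et_Δ_ne t)
  refine (exists_galois_ram_iff _).mpr ⟨X.repN n, X.continuous_repN n,
    X.repN_surjective n (InvGal.surjMod_Et h6 p n), fun q hq h => ?_⟩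
  rw [not_or, not_not] at h
  exact X.unrAt_repN n hq h.1 (ht q hq h.2)

end Fermat.Agent.Cor

end
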