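import Fermat.Agent.Corollaries.InvGal.Sym
import Mathlib.NumberTheory.RamificationInertia.Galois
import Mathlib.NumberTheory.RamificationInertia.Unramified
import Mathlib.NumberTheory.NumberField.Discriminant.Different

/-!
# Fröhlich's theorem: every finite group is the Galois group of an unramified extension

Let `L` be the splitting field of `X ^ n - X - 1`. Its Galois group over `ℚ` is the symmetric group
on the `n` roots, and every element of an inertia group is `1` or a transposition
(`eq_one_or_isSwap`). So for a subgroup `H` without transpositions, with fixed field `K`, the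
extension `L / K` is unramified at the finite primes. The polynomial has a real root, so every
complex conjugation of `L` fixes one of the roots; hence, if the elements `≠ 1` of `H` have no fixed
points, `L / K` is unramified at the infinite primes (`exists_unramified_of_subgroup`).

* `exists_galois_unramified`: every finite group is the Galois group of an everywhere unramified
  extension of number fields (Fröhlich 1962; `H` = two copies of the regular representation);
* `exists_galois_alternating`: for every `n ≥ 2` there is a quadratic field with an extension with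
  Galois group `A_n` which is unramified at the finite primes (Uchida, Yamamoto 1970);
* `natAbs_discr_of_unramified`: `|d_L| = |d_K| ^ [L : K]` for unramified extensions.
-/

set_option autoImplicit false
set_option linter.style.haveILetI false

namespace Fermat.Agent.Cor.InvGal.Sym

open Fermat.Agent.Frob Fermat.Agent.Minkowski
open scoped NumberField

variable {n : ℕ}

/-- An extension of number fields without inertia is unramified. -/
theorem unramified_of_inertia {K L : Type*} [Field K] [NumberField K] [Field L] [NumberField L]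
    [Algebra K L] [IsGalois K L]
    (h : ∀ P : Ideal (𝓞 L), P.IsMaximal → ∀ τ ∈ P.inertia (L ≃ₐ[K] L), τ = 1) :
    Algebra.Unramified (𝓞 K) (𝓞 L) := by
  rw [Algebra.unramified_iff_forall]
  rintro ⟨Q, hQ⟩
  change Algebra.IsUnramifiedAt (𝓞 K) Q
  by_cases hQ0 : Q = ⊥
  · subst hQ0
    exact Algebra.isUnramifiedAt_bot
  · have hQm : Q.IsMaximal := hQ.isMaximal hQ0
    let p : Ideal (𝓞 K) := Q.under (𝓞 K)
    have hp0 : p ≠ ⊥ := fun h0 => hQ0 (Ideal.eq_bot_of_comap_eq_bot h0)
    have hfin : Finite (𝓞 K ⧸ p) := Ring.HasFiniteQuotients.finiteQuotient hp0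
    have hpm : p.IsMaximal := Ideal.IsPrime.isMaximal inferInstance hp0
    have hfin2 : Finite p.ResidueField := inferInstance
    have hcard := Ideal.card_inertia_eq_ramificationIdxIn (G := L ≃ₐ[K] L) p Q
    rw [Ideal.ramificationIdxIn_eq_ramificationIdx p Q (L ≃ₐ[K] L)] at hcard
    rw [← Ideal.ramificationIdx_eq_one_iff (q := Q), ← hcard, Nat.card_eq_one_iff_unique]
    exact ⟨⟨fun a b => Subtype.ext ((h Q hQm a.1 a.2).trans (h Q hQm b.1 b.2).symm)⟩, ⟨1⟩⟩

/-- **The discriminant of an extension unramified at the finite primes.** -/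
theorem natAbs_discr_of_unramified {K L : Type*} [Field K] [NumberField K] [Field L]
    [NumberField L] [Algebra K L] (h : Algebra.Unramified (𝓞 K) (𝓞 L)) :
    (NumberField.discr L).natAbs = (NumberField.discr K).natAbs ^ Module.finrank K L := by
  have hd : differentIdeal (𝓞 K) (𝓞 L) = ⊤ := by
    by_contra hne
    obtain ⟨P, hP, hle⟩ := Ideal.exists_le_maximal _ hne
    have hun : Algebra.IsUnramifiedAt (𝓞 K) P :=
      Algebra.unramified_iff_forall.mp h ⟨P, hP.isPrime⟩
    exact not_dvd_differentIdeal_iff.mpr hun (Ideal.dvd_iff_le.mpr hle)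
  rw [NumberField.natAbs_discr_eq_absNorm_differentIdeal_mul_natAbs_discr_pow K (𝓞 K) L (𝓞 L),
    hd, ← Ideal.one_eq_top, map_one, one_mul]

/-- The splitting field of `X ^ n - X - 1`, its roots and its Galois group. -/
theorem exists_field_aux {L : Type} [Field L] [A : Algebra ℚ L] [FiniteDimensional ℚ L]
    [IsGalois ℚ L] (r : Rt n → L) (e : (L ≃ₐ[ℚ] L) ≃* Equiv.Perm (Rt n))
    (hint : ∀ x, IsIntegral ℤ (r x)) (hr : Function.Injective r) (hr1 : ∀ x, r x ^ n = r x + 1)
    (he : ∀ τ x, τ (r x) = r (e τ x)) :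
    ∃ (L : Type) (_ : Field L) (_ : NumberField L) (_ : IsGalois ℚ L) (r : Rt n → 𝓞 L)
      (e : (L ≃ₐ[ℚ] L) ≃* Equiv.Perm (Rt n)), Function.Injective r ∧
      (∀ x, r x ^ n = r x + 1) ∧ ∀ τ x, τ ((r x : 𝓞 L) : L) = (r (e τ x) : 𝓞 L) := by
  haveI : CharZero L := algebraRat.charZero L
  obtain rfl : A = DivisionRing.toRatAlgebra := Subsingleton.elim _ _
  have : NumberField L := ⟨⟩
  exact ⟨L, inferInstance, inferInstance, inferInstance, fun x => ⟨r x, hint x⟩, e,
    fun x y h => hr (congrArg (fun z : 𝓞 L => (z : L)) h),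
    fun x => NumberField.RingOfIntegers.ext (hr1 x), fun τ x => he τ x⟩

theorem exists_lift {k K : Type*} [Field k] [Field K] [Algebra k K] [IsGalois k K]
    (L : IntermediateField k K) [IsGalois k L] (τ : L ≃ₐ[k] L) :
    ∃ σ : K ≃ₐ[k] K, ∀ x : L, ((τ x : L) : K) = σ x := by
  obtain ⟨σ, hσ⟩ := AlgEquiv.restrictNormalHom_surjective (F := k) (K₁ := L) K τ
  refine ⟨σ, fun x => ?_⟩
  rw [← hσ]
  exact AlgEquiv.restrictNormal_commutes σ L x

theorem continuous_toPermHom [TopologicalSpace (Equiv.Perm (Rt n))]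
    [DiscreteTopology (Equiv.Perm (Rt n))] (hn : 2 ≤ n) :
    Continuous (MulAction.toPermHom GQ (Rt n)) := by
  refine continuous_of_continuousAt_one _ ?_
  have h1 : ((MulAction.toPermHom GQ (Rt n)).ker : Set GQ) ∈ nhds (1 : GQ) :=
    (isOpen_ker_toPermHom hn).mem_nhds (one_mem _)
  have h2 : (fun _ : GQ => (1 : Equiv.Perm (Rt n))) =ᶠ[nhds 1]
      MulAction.toPermHom GQ (Rt n) := by
    filter_upwards [h1] with σ hσ
    exact (MonoidHom.mem_ker.mp hσ).symm
  exact continuousAt_const.congr h2

theorem exists_field (hn : 2 ≤ n) :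
    ∃ (L : Type) (_ : Field L) (_ : NumberField L) (_ : IsGalois ℚ L) (r : Rt n → 𝓞 L)
      (e : (L ≃ₐ[ℚ] L) ≃* Equiv.Perm (Rt n)), Function.Injective r ∧
      (∀ x, r x ^ n = r x + 1) ∧ ∀ τ x, τ ((r x : 𝓞 L) : L) = (r (e τ x) : 𝓞 L) := by
  letI : TopologicalSpace (Equiv.Perm (Rt n)) := ⊥
  haveI : DiscreteTopology (Equiv.Perm (Rt n)) := ⟨rfl⟩
  let ρ := MulAction.toPermHom GQ (Rt n)
  have hρ : Continuous ρ := continuous_toPermHom hn
  obtain ⟨e, he⟩ := exists_equiv_cutField hρ (surjective_toPermHom hn)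
  have hmem : ∀ x : Rt n, ((x.1 : Zbar) : AlgebraicClosure ℚ) ∈ cutField ρ := by
    rintro x ⟨σ, hσ⟩
    have h1 : σ • x = x := congrArg (fun π : Equiv.Perm (Rt n) => π x) (MonoidHom.mem_ker.mp hσ)
    exact congrArg (fun y : Rt n => ((y.1 : Zbar) : AlgebraicClosure ℚ)) h1
  have hgal := isGalois_cutField hρ
  refine @exists_field_aux n (cutField ρ) _ _ (finiteDimensional_cutField hρ) hgal
    (fun x => ⟨x.1, hmem x⟩) e (fun x => ?_) (fun x y h => Rt.ext ?_) (fun x => Subtype.ext x.eq)
    fun τ x => Subtype.ext ?_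
  · exact (isIntegral_algHom_iff ((cutField ρ).val.toIntAlgHom)
      (FaithfulSMul.algebraMap_injective _ _)).mp x.1.2
  · exact congrArg (fun z : cutField ρ => (z : AlgebraicClosure ℚ)) h
  · obtain ⟨σ, hσ⟩ := @exists_lift ℚ (AlgebraicClosure ℚ) _ _ _ _ (cutField ρ) hgal τ
    refine (hσ ⟨_, hmem x⟩).trans ?_
    change σ ((x.1 : Zbar) : AlgebraicClosure ℚ) = (((e τ x).1 : Zbar) : AlgebraicClosure ℚ)
    rw [he σ τ hσ]
    rfl

/-- The inertia groups of the splitting field act through `1` and transpositions. -/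
theorem eq_one_or_isSwap (hn : 2 ≤ n) {L : Type*} [Field L] [NumberField L] (r : Rt n → 𝓞 L)
    (e : (L ≃ₐ[ℚ] L) ≃* Equiv.Perm (Rt n)) (hr : Function.Injective r)
    (hr1 : ∀ x, r x ^ n = r x + 1) (he : ∀ τ x, τ ((r x : 𝓞 L) : L) = (r (e τ x) : 𝓞 L))
    {P : Ideal (𝓞 L)} (hP : P.IsMaximal) {τ : L ≃ₐ[ℚ] L}
    (hτ : ∀ x : 𝓞 L, ∃ y ∈ P, (y : L) = τ x - x) : e τ = 1 ∨ (e τ).IsSwap := by
  letI := Ideal.Quotient.field P
  let f : 𝓞 L →+* 𝓞 L ⧸ P := Ideal.Quotient.mk P
  have hf : ∀ x : Rt n, f (r x) = f (r (e τ x)) := by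
    intro x
    obtain ⟨y, hy, hy1⟩ := hτ (r x)
    have h1 : y = r (e τ x) - r x := by
      apply NumberField.RingOfIntegers.ext
      rw [hy1, he]
      rfl
    rw [h1] at hy
    exact ((Ideal.Quotient.mk_eq_mk_iff_sub_mem _ _).mpr hy).symm
  set π := e τ with hπ
  by_cases hall : ∀ x : Rt n, π x = x
  · exact Or.inl (Equiv.ext hall)
  · push Not at hall
    obtain ⟨a, ha⟩ := hall
    refine Or.inr ⟨a, π a, Ne.symm ha, Equiv.ext fun z => ?_⟩
    have key : ∀ z : Rt n, π z ≠ z → z = a ∨ z = π a := by
      intro z hz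
      rcases eq_or_eq_of_pairs f hn (hr1 a) (hr1 (π a)) (hr1 z) (hr1 (π z))
        (fun h => ha (hr h).symm) (fun h => hz (hr h).symm) (hf a) (hf z) with h | h
      · exact Or.inl (hr h)
      · exact Or.inr (hr h)
    by_cases h1 : z = a
    · rw [h1, Equiv.swap_apply_left]
    · by_cases h2 : z = π a
      · rw [h2, Equiv.swap_apply_right]
        rcases key (π (π a)) (fun h => ha (π.injective (π.injective h))) with h3 | h3
        · exact h3
        · exact absurd (π.injective h3) ha
      · rw [Equiv.swap_apply_of_ne_of_ne h1 h2]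
        by_contra h3
        rcases key z h3 with h4 | h4
        · exact h1 h4
        · exact h2 h4

/-- `X ^ n - X - 1` has a real root. -/
theorem exists_real_root (hn : 2 ≤ n) : ∃ t : ℝ, t ^ n = t + 1 := by
  have hcont : ContinuousOn (fun t : ℝ => t ^ n - t - 1) (Set.Icc 1 2) := by fun_prop
  have h1 : (0 : ℝ) ∈ Set.Icc ((1 : ℝ) ^ n - 1 - 1) ((2 : ℝ) ^ n - 2 - 1) := by
    constructor
    · rw [one_pow]
      norm_num
    · have h2 : (2 : ℝ) ^ 2 ≤ 2 ^ n := pow_le_pow_right₀ (by norm_num) hn
      linarith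
  obtain ⟨t, -, ht⟩ := intermediate_value_Icc (by norm_num : (1 : ℝ) ≤ 2) hcont h1
  exact ⟨t, by linarith⟩

/-- Every complex embedding of a field which contains the roots sends one of them to a real
number. -/
theorem exists_conj_eq (hn : 2 ≤ n) {L : Type*} [Field L] (r : Rt n → L)
    (hr : Function.Injective r) (hr1 : ∀ x, r x ^ n = r x + 1) (φ : L →+* ℂ) :
    ∃ x : Rt n, starRingEnd ℂ (φ (r x)) = φ (r x) := by
  classical
  have := finite_rt hn
  letI : Fintype (Rt n) := Fintype.ofFinite _
  obtain ⟨t, ht⟩ := exists_real_root hn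
  let S : Finset ℂ := Finset.univ.image fun x : Rt n => φ (r x)
  have hS : S.card = n := by
    have h0 : S.card = (Finset.univ : Finset (Rt n)).card :=
      Finset.card_image_of_injective _ (φ.injective.comp hr)
    rw [h0, Finset.card_univ, ← Nat.card_eq_fintype_card, card_rt hn]
  have hne : pol ℂ n ≠ 0 := (monic_pol ℂ hn).ne_zero
  have hdeg : (pol ℂ n).natDegree = n := by
    rw [← map_pol (algebraMap ℚ ℂ), Polynomial.natDegree_map, natDegree_pol hn]
  have hsub : S ⊆ (pol ℂ n).roots.toFinset := by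
    intro z hz
    obtain ⟨x, -, rfl⟩ := Finset.mem_image.mp hz
    rw [Multiset.mem_toFinset, Polynomial.mem_roots hne, isRoot_pol, ← map_pow, hr1, map_add,
      map_one]
  have hcard : (pol ℂ n).roots.toFinset.card ≤ S.card := by
    rw [hS]
    exact (Multiset.toFinset_card_le _).trans ((Polynomial.card_roots' _).trans hdeg.le)
  have heq := Finset.eq_of_subset_of_card_le hsub hcard
  have htS : (t : ℂ) ∈ S := by
    rw [heq, Multiset.mem_toFinset, Polynomial.mem_roots hne, isRoot_pol]
    exact_mod_cast ht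
  obtain ⟨x, -, hx⟩ := Finset.mem_image.mp htS
  exact ⟨x, by rw [hx, Complex.conj_ofReal]⟩

/-- **A group of permutations without transpositions is the Galois group of an extension of number
fields unramified at the finite primes, and if the permutations `≠ 1` in the group have no fixed
points, also at the infinite primes.** -/
theorem exists_unramified_of_subgroup (hn : 2 ≤ n) (H : Subgroup (Equiv.Perm (Rt n)))
    (hH : ∀ π ∈ H, ¬ π.IsSwap) :
    ∃ (K L : Type) (_ : Field K) (_ : NumberField K) (_ : Field L) (_ : NumberField L)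
      (_ : Algebra K L) (_ : IsGalois K L), Nonempty ((L ≃ₐ[K] L) ≃* H) ∧
        Algebra.Unramified (𝓞 K) (𝓞 L) ∧ Module.finrank ℚ K = H.index ∧
          ((∀ π ∈ H, ∀ x, π x = x → π = 1) → IsUnramifiedAtInfinitePlaces K L) := by
  obtain ⟨L, _, _, _, r, e, hr, hr1, he⟩ := exists_field hn
  let H' : Subgroup (L ≃ₐ[ℚ] L) := H.comap e.toMonoidHom
  let K : IntermediateField ℚ L := IntermediateField.fixedField H'
  have h1 : K.fixingSubgroup = H' := IntermediateField.fixingSubgroup_fixedField H'
  have hres : ∀ τ : L ≃ₐ[K] L, e (τ.restrictScalars ℚ) ∈ H := by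
    intro τ
    have h2 : (τ.restrictScalars ℚ) ∈ K.fixingSubgroup := by
      rw [IntermediateField.mem_fixingSubgroup_iff]
      exact fun x hx => τ.commutes ⟨x, hx⟩
    rw [h1] at h2
    exact h2
  have hone : ∀ τ : L ≃ₐ[K] L, e (τ.restrictScalars ℚ) = 1 → τ = 1 := by
    intro τ h3
    have h4 : τ.restrictScalars ℚ = 1 := e.injective (h3.trans (map_one e).symm)
    ext x
    exact congrArg (fun g : L ≃ₐ[ℚ] L => g x) h4
  refine ⟨K, L, inferInstance, inferInstance, inferInstance, inferInstance, inferInstance,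
    inferInstance, ⟨(K.fixingSubgroupEquiv.symm.trans (MulEquiv.subgroupCongr h1)).trans
      (MulEquiv.ofBijective (e.toMonoidHom.subgroupComap H)
        ⟨fun a b hab => Subtype.ext (e.injective (congrArg Subtype.val hab)),
          MonoidHom.subgroupComap_surjective_of_surjective _ H e.surjective⟩)⟩, ?_, ?_, ?_⟩
  · refine unramified_of_inertia fun P hP τ hτ => ?_
    rcases eq_one_or_isSwap hn r e hr hr1 he hP (τ := τ.restrictScalars ℚ)
      (fun x => ⟨τ • x - x, hτ x, rfl⟩) with h3 | h3
    · exact hone τ h3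
    · exact absurd h3 (hH _ (hres τ))
  · rw [IntermediateField.finrank_eq_fixingSubgroup_index, h1]
    exact Subgroup.index_comap_of_surjective H e.surjective
  · intro hfree
    constructor
    intro w
    rw [← NumberField.InfinitePlace.mk_embedding w,
      NumberField.InfinitePlace.isUnramified_mk_iff_forall_isConj]
    intro τ hτ
    obtain ⟨x, hx⟩ := exists_conj_eq hn (fun x => ((r x : 𝓞 L) : L))
      (fun x y h => hr (NumberField.RingOfIntegers.ext h))
      (fun x => congrArg (fun z : 𝓞 L => (z : L)) (hr1 x)) w.embedding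
    have h3 : τ ((r x : 𝓞 L) : L) = (r x : 𝓞 L) := by
      apply w.embedding.injective
      rw [← hx]
      exact (NumberField.ComplexEmbedding.IsConj.eq hτ _)
    refine hone τ (hfree _ (hres τ) x (hr (NumberField.RingOfIntegers.ext ?_)))
    rw [← he]
    exact h3

end Fermat.Agent.Cor.InvGal.Sym

namespace Fermat.Agent.Cor

open InvGal.Sym
open scoped NumberField

/-- **Fröhlich's theorem: every finite group is the Galois group of an extension of number fields
which is unramified everywhere**, at the finite and at the infinite primes. -/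
theorem exists_galois_unramified (G : Type*) [Group G] [Finite G] :
    ∃ (K L : Type) (_ : Field K) (_ : NumberField K) (_ : Field L) (_ : NumberField L)
      (_ : Algebra K L) (_ : IsGalois K L), Nonempty ((L ≃ₐ[K] L) ≃* G) ∧
        Algebra.Unramified (𝓞 K) (𝓞 L) ∧ IsUnramifiedAtInfinitePlaces K L := by
  set n : ℕ := 2 * Nat.card G with hn
  have hG : 0 < Nat.card G := Nat.card_pos
  have hn2 : 2 ≤ n := by omega
  have := finite_rt hn2
  letI : Fintype (Rt n) := Fintype.ofFinite _
  let e : G ⊕ G ≃ Rt n := (Finite.equivFinOfCardEq (n := n) (by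
    rw [Nat.card_sum, hn, two_mul])).trans (Finite.equivFinOfCardEq (card_rt hn2)).symm
  let i : G →* Equiv.Perm (Rt n) := e.permCongrHom.toMonoidHom.comp
    (MulAction.toPermHom G (G ⊕ G))
  have hi : ∀ (g : G) (x : Rt n), i g x = e (g • e.symm x) := fun g x => rfl
  have hfree : ∀ (g : G) (x : Rt n), i g x = x → g = 1 := by
    intro g x h
    rw [hi] at h
    have h1 : g • e.symm x = e.symm x := e.injective (h.trans (e.apply_symm_apply x).symm)
    rcases hx : e.symm x with y | y
    · rw [hx, Sum.smul_inl] at h1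
      exact mul_eq_right.mp (Sum.inl.inj h1)
    · rw [hx, Sum.smul_inr] at h1
      exact mul_eq_right.mp (Sum.inr.inj h1)
  have x₀ : Rt n := e (Sum.inl 1)
  have hinj : Function.Injective i := by
    rw [injective_iff_map_eq_one]
    intro g hg
    exact hfree g x₀ (by rw [hg]; rfl)
  obtain ⟨K, L, h1, h2, h3, h4, h5, h6, ⟨f⟩, hun, -, hinf⟩ :=
    exists_unramified_of_subgroup hn2 i.range (by
    rintro _ ⟨g, rfl⟩ hswap
    have hg : g ≠ 1 := by
      rintro rfl
      rw [map_one] at hswap
      obtain ⟨a, b, hab, h⟩ := hswap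
      have h7 : (1 : Equiv.Perm (Rt n)) a = b := by rw [h, Equiv.swap_apply_left]
      exact hab h7
    have h7 : (i g).support.card = 2 := Equiv.Perm.card_support_eq_two.mpr hswap
    have h8 : (i g).support = Finset.univ := by
      ext x
      simp only [Equiv.Perm.mem_support, Finset.mem_univ, iff_true]
      exact fun h => hg (hfree g x h)
    rw [h8, Finset.card_univ, ← Nat.card_eq_fintype_card, card_rt hn2] at h7
    have h9 : Nat.card G = 1 := by omega
    have := (Nat.card_eq_one_iff_unique.mp h9).1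
    exact hg (Subsingleton.elim _ _))
  refine ⟨K, L, h1, h2, h3, h4, h5, h6, ⟨f.trans (MonoidHom.ofInjective hinj).symm⟩, hun,
    hinf ?_⟩
  rintro _ ⟨g, rfl⟩ x hx
  rw [hfree g x hx, map_one]

/-- **For every `n ≥ 2` there is a quadratic field with an extension with Galois group `A_n`,
unramified at all finite primes.** -/
theorem exists_galois_alternating (n : ℕ) (hn : 2 ≤ n) :
    ∃ (K L : Type) (_ : Field K) (_ : NumberField K) (_ : Field L) (_ : NumberField L)
      (_ : Algebra K L) (_ : IsGalois K L), Nonempty ((L ≃ₐ[K] L) ≃* alternatingGroup (Fin n)) ∧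
        Algebra.Unramified (𝓞 K) (𝓞 L) ∧ Module.finrank ℚ K = 2 := by
  have := finite_rt hn
  letI : Fintype (Rt n) := Fintype.ofFinite _
  have : Nontrivial (Rt n) := by
    rw [← Finite.one_lt_card_iff_nontrivial, card_rt hn]
    omega
  have e : Rt n ≃ Fin n := Finite.equivFinOfCardEq (card_rt hn)
  obtain ⟨K, L, h1, h2, h3, h4, h5, h6, ⟨f⟩, hun, hK, -⟩ :=
    exists_unramified_of_subgroup hn (alternatingGroup (Rt n)) (by
      intro π hπ hswap
      rw [Equiv.Perm.mem_alternatingGroup, hswap.sign_eq] at hπ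
      exact absurd hπ (by decide))
  refine ⟨K, L, h1, h2, h3, h4, h5, h6, ⟨f.trans (Equiv.altCongrHom e)⟩, hun, ?_⟩
  rw [hK, alternatingGroup.index_eq_two]

end Fermat.Agent.Cor
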