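import Fermat.Agent.Corollaries.Surj.TateAll
import Fermat.Agent.Corollaries.InvGal.Open37

/-!
# The inverse Galois problem for `GL₂(ℤ/pⁿ)`, every prime `p`

For the elliptic curve `37a : y² + y = x³ - x` the representation of `Gal(ℚ̄/ℚ)` on the Tate module
`T_p` is surjective for **every** prime `p` (`InvGal.tate37_all`; `p ≥ 5`: `InvGal.tate37`; `p = 2, 3`:
the inertia group at `37` contains a transvection).  Hence `GL₂(ℤ/pⁿ)` is a Galois group over `ℚ`
for every prime `p` and every `n` (`exists_galois_GL2_pow_all`).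
-/

set_option autoImplicit false

noncomputable section

namespace Fermat.Agent.Cor

open WeierstrassCurve WeierstrassCurve.Affine WeierstrassCurve.Affine.Point
open Fermat.Agent.Classic Fermat.Agent.Tate
open Matrix

local notation "Γℚ" => (AlgebraicClosure ℚ ≃ₐ[ℚ] AlgebraicClosure ℚ)

namespace InvGal

/-- **`Gal(ℚ̄/ℚ)` acts on the `pⁿ`-torsion of `37a` through all automorphisms**, for every prime
`p` and every `n`. -/
theorem surjMod37_pow_all (p : ℕ) [hp : Fact p.Prime] (n : ℕ) : SurjMod W37 (p ^ n) := by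
  by_cases hp5 : 5 ≤ p
  · exact surjMod37_pow hp5 n
  · refine surjMod_pow_of_isMultAt isMultAt37 (by omega) ?_ (irr37 hp.out) n
    rw [val37]
    exact hp.out.one_lt.not_ge ∘ Nat.le_of_dvd one_pos

/-- **`Gal(ℚ̄/ℚ)` acts on the Tate module `T_p` of `37a` through all automorphisms**, for every
prime `p`. -/
theorem tate37_all (p : ℕ) [hp : Fact p.Prime]
    (e : TMod p ((W37.map (Int.castRingHom ℚ))⁄(AlgebraicClosure ℚ)).Point
      ≃ₗ[ℤ_[p]] TMod p ((W37.map (Int.castRingHom ℚ))⁄(AlgebraicClosure ℚ)).Point) :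
    ∃ σ : Γℚ, (tateRep (W37.map (Int.castRingHom ℚ)) (map_Δ_ne_zero W37_Δ_ne) p).ρ σ =
      e.toLinearMap :=
  tate_surjective_of_pow W37_Δ_ne (surjMod37_pow_all p) e

/-- **All odd primes at once**: automorphisms `e p` of the Tate modules `T_p` of `37a` are given;
one element of `Gal(ℚ̄/ℚ)` acts as `e p` for every odd prime `p`. -/
theorem adelic37
    (e : ∀ (p : ℕ) [Fact p.Prime],
      TMod p ((W37.map (Int.castRingHom ℚ))⁄(AlgebraicClosure ℚ)).Point ≃ₗ[ℤ_[p]]
        TMod p ((W37.map (Int.castRingHom ℚ))⁄(AlgebraicClosure ℚ)).Point) :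
    ∃ σ : Γℚ, ∀ (p : ℕ) [Fact p.Prime], p ≠ 2 →
      (tateRep (W37.map (Int.castRingHom ℚ)) (map_Δ_ne_zero W37_Δ_ne) p).ρ σ =
        (e p).toLinearMap := by
  obtain ⟨σ, hσ⟩ := exists_adelic_of_pow W37_Δ_ne e
  exact ⟨σ, fun p hp hp2 => hσ p (by have := hp.out.two_le; omega) (surjMod37_pow_all p)⟩

/-- **`Gal(ℚ̄/ℚ)` acts on the `N`-torsion of `37a` through all automorphisms**, for every odd
`N`. -/
theorem surjMod37_of_odd {N : ℕ} (hN : Odd N) : SurjMod W37 N :=
  surjMod_of_odd W37_Δ_ne semistable37 hN fun _ hp _ => irr37 hp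

end InvGal

/-- **The inverse Galois problem for `GL₂(ℤ/pⁿ)`**, every prime `p`, every `n`: there is a
Galois extension of `ℚ` with Galois group `GL₂(ℤ/pⁿ)` (the field of the `pⁿ`-torsion points of the
elliptic curve `y² + y = x³ - x`). -/
theorem exists_galois_GL2_pow_all (p : ℕ) [hp : Fact p.Prime] (n : ℕ) :
    ∃ (L : Type) (_ : Field L) (_ : NumberField L) (_ : IsGalois ℚ L),
      Nonempty ((L ≃ₐ[ℚ] L) ≃* GL (Fin 2) (ZMod (p ^ n))) :=
  exists_galois_GL2_pow_of_surjMod InvGal.W37_Δ_ne (InvGal.surjMod37_pow_all p n)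

end Fermat.Agent.Cor

end
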