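import Fermat.Agent.Corollaries.InvGal.DivFieldN
import Fermat.Agent.Corollaries.InvGal.Open37All

/-!
# The fields `ℚ(37a[N])`, `N` odd (helper62)

`W37 : y² + y = x³ - x` is the curve `37a`.  For every odd `N` the Galois group of the field
`ℚ(W37[N])` over `ℚ` is `GL₂(ℤ/N)`, and for `N > 1` a prime is ramified in this field if and only if
it divides `37 N`.
-/

set_option autoImplicit false

noncomputable section

namespace Fermat.Agent.Cor

open WeierstrassCurve WeierstrassCurve.Affine WeierstrassCurve.Affine.Point Module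
open scoped WeierstrassCurve.Affine
open Fermat.Agent.Classic Fermat.Agent.Tate Fermat.Agent.ECRed Fermat.Agent.ECFrob
open InvGal

namespace InvGal

variable {N : ℕ}

/-- **`Gal(ℚ(37a[N])/ℚ) ≅ GL₂(ℤ/N)` for every odd `N`.** -/
theorem nonempty_equiv_divField37_of_odd (hN : Odd N) :
    Nonempty ((divField W37 N ≃ₐ[ℚ] divField W37 N) ≃* GL (Fin 2) (ZMod N)) :=
  nonempty_equiv_divFieldN W37_Δ_ne hN.pos.ne' (surjMod37_of_odd hN)

/-- `[ℚ(37a[N]) : ℚ] = #GL₂(ℤ/N)` for every odd `N`. -/
theorem finrank_divField37_of_odd (hN : Odd N) :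
    Module.finrank ℚ (divField W37 N) = Nat.card (GL (Fin 2) (ZMod N)) :=
  (surjMod_iff_finrank W37_Δ_ne hN.pos.ne').1 (surjMod37_of_odd hN)

/-- `ℚ(37a[N])` is unramified at the primes which do not divide `37 N`. -/
theorem dvd_of_dvd_discr37 [NumberField (divField W37 N)] {q : ℕ} (hq : q.Prime)
    (h : (q : ℤ) ∣ NumberField.discr (divField W37 N)) : q ∣ 37 * N := by
  rcases dvd_or_dvd_of_dvd_discr_divField hq h with h1 | h1
  · exact dvd_mul_of_dvd_right h1 _
  · rw [eq_37_of_dvd hq h1]
    exact dvd_mul_right _ _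

/-- **The primes ramified in `ℚ(37a[N])` are the prime divisors of `37 N`**, for every `N > 1`. -/
theorem dvd_discr37_iff (hN : 1 < N) [NumberField (divField W37 N)] {q : ℕ} (hq : q.Prime) :
    (q : ℤ) ∣ NumberField.discr (divField W37 N) ↔ q ∣ 37 * N := by
  refine ⟨dvd_of_dvd_discr37 hq, fun h => ?_⟩
  have h1 : ∀ p : ℕ, p.Prime → p ∣ N → (q = p ∨ q = 37) →
      (q : ℤ) ∣ NumberField.discr (divField W37 N) := by
    intro p hp hpN hqp
    have : Fact p.Prime := ⟨hp⟩
    exact ((prime_dvd_discr37_iff hq).2 hqp).trans (discr_divField_dvd hpN)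
  rcases (hq.dvd_mul).1 h with h2 | h2
  · have h3 : q = 37 := (Nat.prime_dvd_prime_iff_eq hq (by norm_num)).1 h2
    exact h1 N.minFac (Nat.minFac_prime hN.ne') (Nat.minFac_dvd N) (Or.inr h3)
  · exact h1 q hq h2 (Or.inl rfl)

end InvGal

/-- **For every odd `N > 1` there is a Galois extension of `ℚ` with Galois group `GL₂(ℤ/N)`,
ramified exactly at `37` and at the prime divisors of `N`**: the field generated by the coordinates
of the points of order dividing `N` of the elliptic curve `y² + y = x³ - x`. -/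
theorem exists_galois_GL2_odd_ramified {N : ℕ} (hN : Odd N) (hN1 : N ≠ 1) :
    ∃ (L : Type) (_ : Field L) (_ : NumberField L) (_ : IsGalois ℚ L),
      Nonempty ((L ≃ₐ[ℚ] L) ≃* GL (Fin 2) (ZMod N)) ∧
        ∀ q : ℕ, q.Prime → ((q : ℤ) ∣ NumberField.discr L ↔ q ∣ 37 * N) := by
  have h1 : NumberField (divField W37 N) := numberField_divField W37_Δ_ne hN.pos.ne'
  exact ⟨divField W37 N, inferInstance, h1, isGalois_divField, nonempty_equiv_divField37_of_odd hN,
    fun _ hq => dvd_discr37_iff (by have := hN.pos; omega) hq⟩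

/-- **For every odd `N` there is a Galois extension of `ℚ` with Galois group `GL₂(ℤ/N)`**,
unramified at the primes which do not divide `37 N`. -/
theorem exists_galois_GL2_odd {N : ℕ} (hN : Odd N) :
    ∃ (L : Type) (_ : Field L) (_ : NumberField L) (_ : IsGalois ℚ L),
      Nonempty ((L ≃ₐ[ℚ] L) ≃* GL (Fin 2) (ZMod N)) ∧
        ∀ q : ℕ, q.Prime → (q : ℤ) ∣ NumberField.discr L → q ∣ 37 * N := by
  have h1 : NumberField (divField W37 N) := numberField_divField W37_Δ_ne hN.pos.ne'
  exact ⟨divField W37 N, inferInstance, h1, isGalois_divField, nonempty_equiv_divField37_of_odd hN,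
    fun _ hq h => dvd_of_dvd_discr37 hq h⟩

end Fermat.Agent.Cor

end
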