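import Fermat.Agent.Corollaries.InvGal.Gal
import Fermat.Agent.ECFrob.DetCyc

/-!
# `PGL₂(𝔽_p)` over `ℚ` and `SL₂(𝔽_p)` over `ℚ(ζ_p)`

Let `ρ : Gal(ℚ̄/ℚ) → GL₂(𝔽_p)` be continuous and surjective.

* `exists_galois_PGL2_of`: `PGL₂(𝔽_p) = GL₂(𝔽_p) / center` is a Galois group over `ℚ`;
* `exists_galois_over`: the image of the group of a field `E` under a continuous homomorphism is a
  Galois group over `E`;
* `exists_galois_SL2_of`: if `det ρ` is the cyclotomic character modulo `p`, then `SL₂(𝔽_p)` is a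
  Galois group over `ℚ(ζ_p)`.
-/

set_option autoImplicit false
set_option linter.style.haveILetI false

noncomputable section

namespace Fermat.Agent.Cor

open InvGal Matrix

namespace InvGal

section Rel

variable {k E K : Type*} [Field k] [Field E] [Field K] [Algebra k E] [Algebra E K] [Algebra k K]
  [IsScalarTower k E K]

/-- Restriction of scalars `Gal(K/E) → Gal(K/k)` is continuous. -/
theorem continuous_restrictScalarsHom [Algebra.IsIntegral E K] :
    Continuous (AlgEquiv.restrictScalarsHom k : (K ≃ₐ[E] K) →* (K ≃ₐ[k] K)) := by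
  refine continuous_of_continuousAt_one _ ?_
  intro U hU
  rw [map_one] at hU
  obtain ⟨F, hF, hFU⟩ := (krullTopology_mem_nhds_one_iff k K U).mp hU
  let b := Module.finBasis k F
  have h1 : (⋂ i, (MulAction.stabilizer (K ≃ₐ[E] K) (b i : K) : Set (K ≃ₐ[E] K))) ∈ nhds 1 := by
    rw [Filter.iInter_mem]
    intro i
    exact (stabilizer_isOpen_of_isIntegral (b i : K)).mem_nhds (one_mem _)
  rw [Filter.mem_map]
  filter_upwards [h1] with σ hσ
  apply hFU
  rw [SetLike.mem_coe, IntermediateField.mem_fixingSubgroup_iff]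
  intro x hx
  rw [Set.mem_iInter] at hσ
  have h2 : ∀ i, σ (b i : K) = (b i : K) := fun i => hσ i
  have h3 : ((⟨x, hx⟩ : F) : K) = ∑ i, b.repr ⟨x, hx⟩ i • (b i : K) := by
    conv_lhs => rw [← b.sum_repr ⟨x, hx⟩]
    rw [IntermediateField.coe_sum]
    rfl
  have h4 : x = ∑ i, b.repr ⟨x, hx⟩ i • (b i : K) := h3
  change σ x = x
  conv_lhs => rw [h4]
  conv_rhs => rw [h4]
  rw [map_sum]
  refine Finset.sum_congr rfl fun i _ => ?_
  rw [Algebra.smul_def, map_mul, h2, IsScalarTower.algebraMap_apply k E K, AlgEquiv.commutes]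

end Rel

end InvGal

/-- **Galois groups over any field `E`** from continuous homomorphisms on `Gal(K/E)`. -/
theorem exists_galois_over {E K : Type} [Field E] [Field K] [Algebra E K] [IsGalois E K]
    {G : Type*} [Group G] [TopologicalSpace G] [DiscreteTopology G] (ρ : (K ≃ₐ[E] K) →* G)
    (hρ : Continuous ρ) (hs : Function.Surjective ρ) :
    ∃ (L : Type) (_ : Field L) (_ : Algebra E L) (_ : FiniteDimensional E L) (_ : IsGalois E L),
      Nonempty ((L ≃ₐ[E] L) ≃* G) := by
  obtain ⟨e, -⟩ := exists_equiv_cutField hρ hs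
  exact ⟨cutField ρ, inferInstance, inferInstance, finiteDimensional_cutField hρ,
    isGalois_cutField hρ, ⟨e⟩⟩

/-- If `GL₂(𝔽_p)` is a Galois group over `ℚ`, so is `PGL₂(𝔽_p)`. -/
theorem exists_galois_PGL2_of {p : ℕ} [Fact p.Prime]
    (h : ∃ (L : Type) (_ : Field L) (_ : NumberField L) (_ : IsGalois ℚ L),
      Nonempty ((L ≃ₐ[ℚ] L) ≃* GL (Fin 2) (ZMod p))) :
    ∃ (L : Type) (_ : Field L) (_ : NumberField L) (_ : IsGalois ℚ L),
      Nonempty ((L ≃ₐ[ℚ] L) ≃* ProjGenLinGroup (Fin 2) (ZMod p)) :=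
  exists_galois_map ProjGenLinGroup.mk ProjGenLinGroup.mk_surjective h

section SL

variable {p : ℕ} [hp : Fact p.Prime]

local notation "Γℚ" => (AlgebraicClosure ℚ ≃ₐ[ℚ] AlgebraicClosure ℚ)

/-- `σ` fixes a primitive `p`-th root of unity if and only if its cyclotomic exponent is `1`. -/
theorem cycMod_eq_one_iff {ζ : AlgebraicClosure ℚ} (hζ : IsPrimitiveRoot ζ p) (σ : Γℚ) :
    ECFrob.cycMod p σ = 1 ↔ σ ζ = ζ := by
  constructor
  · intro h
    rw [ECFrob.cycMod_spec p σ hζ.pow_eq_one, h, ZMod.val_one, pow_one]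
  · intro h
    have h1 := ECFrob.cycMod_unique hζ (σ := σ) (c := 1) (by rw [h, pow_one])
    rw [h1, Nat.cast_one]

/-- **`SL₂(𝔽_p)` over `ℚ(ζ_p)`**: if `ρ : Gal(ℚ̄/ℚ) → GL₂(𝔽_p)` is continuous and surjective and its
determinant is the cyclotomic character, then `SL₂(𝔽_p)` is a Galois group over the `p`-th
cyclotomic field. -/
theorem exists_galois_SL2_of (ρ : Γℚ →* GL (Fin 2) (ZMod p)) (hρ : Continuous ρ)
    (hs : Function.Surjective ρ)
    (hdet : ∀ σ, (ρ σ : Matrix (Fin 2) (Fin 2) (ZMod p)).det = ECFrob.cycMod p σ)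
    (K : Type) [Field K] [NumberField K] [IsCyclotomicExtension {p} ℚ K] :
    ∃ (L : Type) (_ : Field L) (_ : Algebra K L) (_ : FiniteDimensional K L) (_ : IsGalois K L),
      Nonempty ((L ≃ₐ[K] L) ≃* SpecialLinearGroup (Fin 2) (ZMod p)) := by
  haveI : NeZero p := ⟨hp.out.ne_zero⟩
  let i : K →ₐ[ℚ] AlgebraicClosure ℚ := IsAlgClosed.lift
  letI : Algebra K (AlgebraicClosure ℚ) := i.toRingHom.toAlgebra
  haveI : IsScalarTower ℚ K (AlgebraicClosure ℚ) := IsScalarTower.of_algebraMap_eq fun x =>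
    (i.commutes x).symm
  haveI : IsGalois K (AlgebraicClosure ℚ) := IsGalois.tower_top_of_isGalois ℚ K _
  -- the primitive root
  have hζK := IsCyclotomicExtension.zeta_spec p ℚ K
  set z : K := IsCyclotomicExtension.zeta p ℚ K with hz
  have hζ : IsPrimitiveRoot (i z) p := hζK.map_of_injective i.injective
  let res : (AlgebraicClosure ℚ ≃ₐ[K] AlgebraicClosure ℚ) →* Γℚ := AlgEquiv.restrictScalarsHom ℚ
  have hres : Continuous res := continuous_restrictScalarsHom
  have hdet1 : ∀ σ, (ρ (res σ) : Matrix (Fin 2) (Fin 2) (ZMod p)).det = 1 := by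
    intro σ
    rw [hdet, cycMod_eq_one_iff hζ]
    exact σ.commutes z
  let r : (AlgebraicClosure ℚ ≃ₐ[K] AlgebraicClosure ℚ) →* SpecialLinearGroup (Fin 2) (ZMod p) :=
    { toFun := fun σ => ⟨ρ (res σ), hdet1 σ⟩
      map_one' := by
        apply Subtype.ext
        change ((ρ (res 1) : GL (Fin 2) (ZMod p)) : Matrix (Fin 2) (Fin 2) (ZMod p)) = 1
        rw [map_one, map_one, Units.val_one]
      map_mul' := fun σ τ => by
        apply Subtype.ext
        change ((ρ (res (σ * τ)) : GL (Fin 2) (ZMod p)) : Matrix (Fin 2) (Fin 2) (ZMod p)) =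
          (ρ (res σ) : Matrix (Fin 2) (Fin 2) (ZMod p)) *
            (ρ (res τ) : Matrix (Fin 2) (Fin 2) (ZMod p))
        rw [map_mul, map_mul, Units.val_mul] }
  letI : TopologicalSpace (SpecialLinearGroup (Fin 2) (ZMod p)) := ⊥
  haveI : DiscreteTopology (SpecialLinearGroup (Fin 2) (ZMod p)) := ⟨rfl⟩
  refine exists_galois_over r ?_ ?_
  · -- continuity
    refine continuous_of_continuousAt_one _ ?_
    have h1 : {σ | ρ (res σ) = 1} ∈ nhds (1 : AlgebraicClosure ℚ ≃ₐ[K] AlgebraicClosure ℚ) := by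
      have h2 : IsOpen {σ | ρ (res σ) = 1} :=
        (isOpen_discrete ({1} : Set (GL (Fin 2) (ZMod p)))).preimage (hρ.comp hres)
      exact h2.mem_nhds (by
        change ρ (res 1) = 1
        rw [map_one, map_one])
    have h2 : (fun _ => (1 : SpecialLinearGroup (Fin 2) (ZMod p))) =ᶠ[nhds 1] r := by
      filter_upwards [h1] with σ hσ
      apply Subtype.ext
      change (1 : Matrix (Fin 2) (Fin 2) (ZMod p)) =
        ((ρ (res σ) : GL (Fin 2) (ZMod p)) : Matrix (Fin 2) (Fin 2) (ZMod p))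
      rw [show ρ (res σ) = 1 from hσ, Units.val_one]
    have h3 : r 1 = 1 := map_one r
    rw [ContinuousAt, h3]
    exact (tendsto_const_nhds).congr' h2
  · -- surjectivity
    intro g
    obtain ⟨σ, hσ⟩ := hs (SpecialLinearGroup.toGL g)
    have h1 : σ (i z) = i z := by
      rw [← cycMod_eq_one_iff hζ, ← hdet, hσ]
      exact g.2
    have h2 : ∀ x : K, σ (i x) = i x := by
      have h3 : (σ.toAlgHom.comp i) = i := by
        refine (IsCyclotomicExtension.zeta_spec p ℚ K).powerBasis ℚ |>.algHom_ext ?_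
        rw [IsPrimitiveRoot.powerBasis_gen]
        exact h1
      exact fun x => DFunLike.congr_fun h3 x
    refine ⟨{ σ with commutes' := h2 }, ?_⟩
    apply Subtype.ext
    change ((ρ σ : GL (Fin 2) (ZMod p)) : Matrix (Fin 2) (Fin 2) (ZMod p)) = _
    rw [hσ]
    rfl

end SL

end Fermat.Agent.Cor
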