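import Fermat.Agent.Corollaries.InvGal.SymA
import Fermat.Agent.Corollaries.InvGal.Quot

/-!
# Symmetric groups as Galois groups over every number field
-/

set_option autoImplicit false
set_option linter.style.haveILetI false

open Fermat.Agent Fermat.Agent.Frob NumberField

namespace Fermat.Agent.Cor

/-- A Galois group over `ℚ` with ramification only at large primes is a Galois group over every
number field. -/
theorem IsGaloisGroupGt.over {G : Type} [Group G] (hG : IsGaloisGroupGt G) (K : Type) [Field K]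
    [NumberField K] : ∃ (L : Type) (_ : Field L) (_ : Algebra K L) (_ : FiniteDimensional K L)
      (_ : IsGalois K L), Nonempty ((L ≃ₐ[K] L) ≃* G) := by
  letI : TopologicalSpace G := ⊥
  haveI : DiscreteTopology G := ⟨rfl⟩
  let ι : K →ₐ[ℚ] AlgebraicClosure ℚ := IsAlgClosed.lift
  letI : Algebra K (AlgebraicClosure ℚ) := ι.toRingHom.toAlgebra
  haveI : IsScalarTower ℚ K (AlgebraicClosure ℚ) :=
    IsScalarTower.of_algebraMap_eq fun x => (ι.commutes x).symm
  haveI : Algebra.IsAlgebraic K (AlgebraicClosure ℚ) := Algebra.IsAlgebraic.tower_top (K := ℚ) K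
  haveI : IsAlgClosure K (AlgebraicClosure ℚ) := ⟨inferInstance, inferInstance⟩
  haveI : Normal K (AlgebraicClosure ℚ) := IsAlgClosure.normal K _
  haveI : IsGalois K (AlgebraicClosure ℚ) := {}
  let M : IntermediateField ℚ (AlgebraicClosure ℚ) :=
    IntermediateField.normalClosure ℚ K (AlgebraicClosure ℚ)
  haveI : FiniteDimensional ℚ M := inferInstance
  haveI : Normal ℚ (AlgebraicClosure ℚ) := IsAlgClosure.normal ℚ _
  haveI : Normal ℚ M := normalClosure.normal ℚ K (AlgebraicClosure ℚ)
  haveI : NumberField M := @NumberField.mk _ _ inferInstance inferInstance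
  haveI : IsGalois ℚ M := {}
  obtain ⟨ρ, hc, hs, hr⟩ := (exists_galois_ram_iff (G := G)
    (fun q => (discr M).natAbs < q)).mp (hG (discr M).natAbs)
  have htop : ρ.ker ⊔ M.fixingSubgroup = ⊤ := by
    refine Minkowski.eq_top_of_inertia_le _
      (Subgroup.isOpen_mono (le_sup_left : ρ.ker ≤ _) (InvGal.isOpen_ker hc)) ?_
    intro q hq A hA σ hσ
    by_cases h : (discr M).natAbs < q
    · have h1 : ¬ (q : ℤ) ∣ discr M := fun hd =>
        absurd (Nat.le_of_dvd (Int.natAbs_pos.mpr (discr_ne_zero M)) (Int.natCast_dvd.mp hd))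
          (not_le.mpr h)
      refine Subgroup.mem_sup_right ?_
      rw [IntermediateField.mem_fixingSubgroup_iff]
      exact (InvGal.not_dvd_discr_iff_inertia M hq).mp h1 A hA σ hσ
    · exact Subgroup.mem_sup_left (hr q hq h A hA σ hσ)
  have hnorm : M.fixingSubgroup.Normal := by
    rw [← IntermediateField.restrictNormalHom_ker]
    infer_instance
  have hM : ∀ x : K, ι x ∈ M := fun x =>
    (AlgHom.fieldRange_le_normalClosure ι) ⟨x, rfl⟩
  refine exists_galois_over (ρ.comp (AlgEquiv.restrictScalarsHom ℚ :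
    (AlgebraicClosure ℚ ≃ₐ[K] AlgebraicClosure ℚ) →* (AlgebraicClosure ℚ ≃ₐ[ℚ] AlgebraicClosure ℚ)))
    (hc.comp InvGal.continuous_restrictScalarsHom) ?_
  intro g
  obtain ⟨σ, rfl⟩ := hs g
  have h1 : σ ∈ ρ.ker ⊔ M.fixingSubgroup := by
    rw [htop]
    trivial
  rw [Subgroup.mem_sup_of_normal_right] at h1
  obtain ⟨a, ha, b, hb, rfl⟩ := h1
  rw [IntermediateField.mem_fixingSubgroup_iff] at hb
  refine ⟨{ b with commutes' := fun x => hb _ (hM x) }, ?_⟩
  rw [map_mul, MonoidHom.mem_ker.mp ha, one_mul, MonoidHom.comp_apply]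
  rfl

/-- **`S_{n₁} × ⋯ × S_{n_k} × A` is a Galois group over every number field**, `A` a finite abelian
group. -/
theorem exists_galois_pi_perm_over (K : Type) [Field K] [NumberField K] (k : ℕ) (n : Fin k → ℕ)
    (A : Type) [CommGroup A] [Finite A] :
    ∃ (L : Type) (_ : Field L) (_ : Algebra K L) (_ : FiniteDimensional K L) (_ : IsGalois K L),
      Nonempty ((L ≃ₐ[K] L) ≃* ((i : Fin k) → Equiv.Perm (Fin (n i))) × A) :=
  IsGaloisGroupGt.over (fun B => exists_galois_pi_perm_prod k n A B) K

end Fermat.Agent.Cor
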