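import Fermat.Agent.Corollaries.InvGal.SL

/-!
# `PSL₂(𝔽_p)` over the quadratic field `ℚ(√p*)`

Let `p` be an odd prime, `p* = (-1)^((p-1)/2) p`, and let `K` be a number field generated by a square
root of `p*`. Then `PSL₂(𝔽_p)` is the Galois group of a finite Galois extension of `K`.

The quadratic Gauss sum `g` satisfies `g² = p*` and `σ g = (c/p) g` for `σ ζ = ζ^c`. Hence an
element `σ` of `Gal(ℚ̄/ℚ)` fixes `√p*` if and only if the determinant of its action on the
`p`-torsion of an elliptic curve is a square.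
-/

set_option autoImplicit false
set_option linter.style.haveILetI false

noncomputable section

namespace Fermat.Agent.Cor

open InvGal Matrix Fermat.Agent.Classic

local notation "Γℚ" => (AlgebraicClosure ℚ ≃ₐ[ℚ] AlgebraicClosure ℚ)

namespace InvGal

/-- A homomorphism of a topological group which is trivial on the kernel of a continuous
homomorphism to a discrete group is continuous. -/
theorem continuous_of_ker_le {Γ G G' : Type*} [Group Γ] [TopologicalSpace Γ]
    [IsTopologicalGroup Γ] [Group G] [TopologicalSpace G] [DiscreteTopology G] [Group G']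
    [TopologicalSpace G'] [IsTopologicalGroup G'] {ρ : Γ →* G} (hρ : Continuous ρ) (r : Γ →* G')
    (h : ∀ σ, ρ σ = 1 → r σ = 1) : Continuous r := by
  refine continuous_of_continuousAt_one _ ?_
  have h1 : {σ | ρ σ = 1} ∈ nhds (1 : Γ) :=
    ((isOpen_discrete ({1} : Set G)).preimage hρ).mem_nhds (map_one ρ)
  have h2 : (fun _ => (1 : G')) =ᶠ[nhds 1] r := by
    filter_upwards [h1] with σ hσ
    exact (h σ hσ).symm
  rw [ContinuousAt, map_one]
  exact (tendsto_const_nhds).congr' h2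

section Gauss

variable {p : ℕ} [hp : Fact p.Prime] {ζ : AlgebraicClosure ℚ} (hζ : IsPrimitiveRoot ζ p)

/-- The quadratic character with values in `ℚ̄`. -/
def qchar (p : ℕ) [Fact p.Prime] : MulChar (ZMod p) (AlgebraicClosure ℚ) :=
  (quadraticChar (ZMod p)).ringHomComp (Int.castRingHom (AlgebraicClosure ℚ))

/-- The quadratic Gauss sum. -/
def qgauss : AlgebraicClosure ℚ :=
  haveI : NeZero p := ⟨hp.out.ne_zero⟩
  gaussSum (qchar p) (AddChar.zmodChar p hζ.pow_eq_one)

theorem qchar_apply (a : ZMod p) :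
    qchar p a = ((quadraticChar (ZMod p) a : ℤ) : AlgebraicClosure ℚ) := rfl

theorem qchar_ne_one (hp2 : p ≠ 2) : qchar p ≠ 1 := by
  have h1 : ringChar (ZMod p) ≠ 2 := by rwa [ZMod.ringChar_zmod_n]
  obtain ⟨a, ha⟩ := quadraticChar_exists_neg_one' h1
  intro h
  have h2 : qchar p (a : ZMod p) = 1 := by rw [h, MulChar.one_apply a.isUnit]
  rw [qchar_apply, ha] at h2
  norm_num at h2

/-- `g² = p*`. -/
theorem qgauss_sq (hp2 : p ≠ 2) :
    qgauss hζ ^ 2 = (-1) ^ ((p - 1) / 2) * (p : AlgebraicClosure ℚ) := by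
  haveI : NeZero p := ⟨hp.out.ne_zero⟩
  have h1 : ringChar (ZMod p) ≠ 2 := by rwa [ZMod.ringChar_zmod_n]
  have h2 : qgauss hζ ^ 2 = qchar p (-1) * (Fintype.card (ZMod p) : AlgebraicClosure ℚ) :=
    gaussSum_sq (qchar_ne_one hp2) ((quadraticChar_isQuadratic (ZMod p)).comp _)
      (AddChar.zmodChar_primitive_of_primitive_root p hζ)
  have h3 : p % 2 = 1 := hp.out.eq_two_or_odd.resolve_left hp2
  rw [h2, qchar_apply, quadraticChar_neg_one h1, ZMod.card, ZMod.χ₄_eq_neg_one_pow h3]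
  have h4 : p / 2 = (p - 1) / 2 := by omega
  rw [h4]
  push_cast
  rfl

theorem qgauss_ne_zero (hp2 : p ≠ 2) : qgauss hζ ≠ 0 := by
  intro h
  have h1 := qgauss_sq hζ hp2
  rw [h] at h1
  have h2 : (p : AlgebraicClosure ℚ) ≠ 0 := by exact_mod_cast hp.out.ne_zero
  have h3 : ((-1 : AlgebraicClosure ℚ)) ^ ((p - 1) / 2) ≠ 0 := pow_ne_zero _ (by norm_num)
  apply mul_ne_zero h3 h2
  rw [← h1]
  norm_num

/-- the action of the Galois group on the Gauss sum. -/
theorem qchar_mul_apply (σ : Γℚ) : qchar p (ECFrob.cycMod p σ) * σ (qgauss hζ) = qgauss hζ := by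
  haveI : NeZero p := ⟨hp.out.ne_zero⟩
  set c := ECFrob.cycMod p σ with hc
  have hu : IsUnit c := by
    have h1 : ECFrob.cycMod p σ * ECFrob.cycMod p σ⁻¹ = 1 := by
      rw [← map_mul, mul_inv_cancel, map_one]
    exact IsUnit.of_mul_eq_one _ h1
  have h1 := gaussSum_mulShift (qchar p) (AddChar.zmodChar p hζ.pow_eq_one) hu.unit
  rw [IsUnit.unit_spec] at h1
  have h2 : σ (qgauss hζ) =
      gaussSum (qchar p) (AddChar.mulShift (AddChar.zmodChar p hζ.pow_eq_one) c) := by
    rw [qgauss, gaussSum, map_sum, gaussSum]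
    refine Finset.sum_congr rfl fun a _ => ?_
    rw [map_mul, AddChar.mulShift_apply, qchar_apply, map_intCast]
    congr 1
    rw [AddChar.zmodChar_apply, map_pow, ECFrob.cycMod_spec p σ hζ.pow_eq_one, ← hc, ← pow_mul,
      ← AddChar.zmodChar_apply' hζ.pow_eq_one]
    congr 1
    push_cast
    rw [ZMod.natCast_zmod_val, ZMod.natCast_zmod_val]
  rw [h2]
  exact h1

/-- `σ` fixes the Gauss sum if and only if its cyclotomic exponent is a square. -/
theorem apply_qgauss_iff (hp2 : p ≠ 2) (σ : Γℚ) :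
    σ (qgauss hζ) = qgauss hζ ↔ IsSquare (ECFrob.cycMod p σ) := by
  have h0 : ECFrob.cycMod p σ ≠ 0 := by
    intro h
    have h1 : ECFrob.cycMod p σ * ECFrob.cycMod p σ⁻¹ = 1 := by
      rw [← map_mul, mul_inv_cancel, map_one]
    rw [h, zero_mul] at h1
    exact zero_ne_one h1
  have h1 := qchar_mul_apply hζ σ
  rw [← quadraticChar_one_iff_isSquare h0]
  constructor
  · intro h
    rw [h] at h1
    have h2 : qchar p (ECFrob.cycMod p σ) = 1 :=
      mul_right_cancel₀ (qgauss_ne_zero hζ hp2) (by rw [h1, one_mul])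
    rw [qchar_apply] at h2
    exact_mod_cast h2
  · intro h
    rw [qchar_apply, h, Int.cast_one, one_mul] at h1
    exact h1

end Gauss

end InvGal

/-- **`PSL₂(𝔽_p)` over `ℚ(√p*)`**, from a surjective representation with cyclotomic determinant. -/
theorem exists_galois_PSL2_of {p : ℕ} [hp : Fact p.Prime] (hp2 : p ≠ 2)
    (ρ : Γℚ →* GL (Fin 2) (ZMod p)) (hρ : Continuous ρ) (hs : Function.Surjective ρ)
    (hdet : ∀ σ, (ρ σ : Matrix (Fin 2) (Fin 2) (ZMod p)).det = ECFrob.cycMod p σ)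
    (K : Type) [Field K] [NumberField K] (x : K) (hx : x ^ 2 = (-1) ^ ((p - 1) / 2) * (p : K))
    (hK : IntermediateField.adjoin ℚ {x} = ⊤) :
    ∃ (L : Type) (_ : Field L) (_ : Algebra K L) (_ : FiniteDimensional K L) (_ : IsGalois K L),
      Nonempty ((L ≃ₐ[K] L) ≃* ProjectiveSpecialLinearGroup (Fin 2) (ZMod p)) := by
  haveI : NeZero p := ⟨hp.out.ne_zero⟩
  let i : K →ₐ[ℚ] AlgebraicClosure ℚ := IsAlgClosed.lift
  letI : Algebra K (AlgebraicClosure ℚ) := i.toRingHom.toAlgebra
  haveI : IsScalarTower ℚ K (AlgebraicClosure ℚ) := IsScalarTower.of_algebraMap_eq fun x =>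
    (i.commutes x).symm
  haveI : IsGalois K (AlgebraicClosure ℚ) := IsGalois.tower_top_of_isGalois ℚ K _
  obtain ⟨ζ, hζ⟩ := ECFrob.exists_primitiveRoot p
  -- the square root of `p*` is the Gauss sum up to sign
  have hix : i x = qgauss hζ ∨ i x = -qgauss hζ := by
    rw [← sq_eq_sq_iff_eq_or_eq_neg, qgauss_sq hζ hp2, ← map_pow, hx]
    simp
  have hfix : ∀ σ : Γℚ, σ (i x) = i x ↔ IsSquare (ECFrob.cycMod p σ) := by
    intro σ
    rw [← apply_qgauss_iff hζ hp2 σ]
    rcases hix with h | h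
    · rw [h]
    · rw [h, map_neg, neg_inj]
  let res : (AlgebraicClosure ℚ ≃ₐ[K] AlgebraicClosure ℚ) →* Γℚ := AlgEquiv.restrictScalarsHom ℚ
  have hres : Continuous res := continuous_restrictScalarsHom
  -- the projective image of `Gal(ℚ̄/K)` is contained in `PSL₂`
  have hmem : ∀ σ, ProjGenLinGroup.mk (ρ (res σ)) ∈
      (ProjectiveSpecialLinearGroup.toPGL (n := Fin 2) (R := ZMod p)).range := by
    intro σ
    have h1 : IsSquare (ECFrob.cycMod p (res σ)) := (hfix _).mp (σ.commutes x)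
    rw [← hdet] at h1
    obtain ⟨d, hd⟩ := h1
    have hdu : IsUnit (d * d) := by
      rw [← hd]
      exact (Matrix.isUnit_iff_isUnit_det _).mp (ρ (res σ)).isUnit
    have hd0 : d ≠ 0 := fun h => hdu.ne_zero (by rw [h, zero_mul])
    let u : (ZMod p)ˣ := Units.mk0 d hd0
    have h2 : ((u⁻¹ : (ZMod p)ˣ) • (ρ (res σ) : Matrix (Fin 2) (Fin 2) (ZMod p))).det = 1 := by
      rw [Units.smul_def, Matrix.det_smul, Fintype.card_fin, hd]
      have h3 : ((u⁻¹ : (ZMod p)ˣ) : ZMod p) = d⁻¹ := Units.val_inv_eq_inv_val u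
      rw [h3]
      field_simp
    let g : SpecialLinearGroup (Fin 2) (ZMod p) := ⟨_, h2⟩
    refine ⟨(g : ProjectiveSpecialLinearGroup (Fin 2) (ZMod p)), ?_⟩
    rw [ProjectiveSpecialLinearGroup.toPGL_mk]
    symm
    rw [ProjGenLinGroup.mk_eq_mk_iff]
    refine ⟨u⁻¹, Units.ext ?_⟩
    have h4 : ((SpecialLinearGroup.toGL g : GL (Fin 2) (ZMod p)) : Matrix (Fin 2) (Fin 2) (ZMod p)) =
        ((u⁻¹ : (ZMod p)ˣ) : ZMod p) • (ρ (res σ) : Matrix (Fin 2) (Fin 2) (ZMod p)) := rfl
    have h5 : ((GeneralLinearGroup.scalar (Fin 2) u⁻¹ : GL (Fin 2) (ZMod p)) :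
        Matrix (Fin 2) (Fin 2) (ZMod p)) =
        ((u⁻¹ : (ZMod p)ˣ) : ZMod p) • (1 : Matrix (Fin 2) (Fin 2) (ZMod p)) := by
      rw [Matrix.smul_one_eq_diagonal]
      rfl
    rw [h4, Units.val_mul, h5, Matrix.mul_smul, mul_one]
  let e := MonoidHom.ofInjective
    (ProjectiveSpecialLinearGroup.toPGL_injective (n := Fin 2) (R := ZMod p))
  let r : (AlgebraicClosure ℚ ≃ₐ[K] AlgebraicClosure ℚ) →*
      ProjectiveSpecialLinearGroup (Fin 2) (ZMod p) :=
    e.symm.toMonoidHom.comp
      (((ProjGenLinGroup.mk (n := Fin 2) (R := ZMod p)).comp (ρ.comp res)).codRestrict _ hmem)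
  have hr : ∀ σ, ProjectiveSpecialLinearGroup.toPGL (r σ) = ProjGenLinGroup.mk (ρ (res σ)) := by
    intro σ
    have h1 : e (r σ) = ⟨ProjGenLinGroup.mk (ρ (res σ)), hmem σ⟩ := e.apply_symm_apply _
    exact congrArg Subtype.val h1
  letI : TopologicalSpace (ProjectiveSpecialLinearGroup (Fin 2) (ZMod p)) := ⊥
  haveI : DiscreteTopology (ProjectiveSpecialLinearGroup (Fin 2) (ZMod p)) := ⟨rfl⟩
  refine exists_galois_over r ?_ ?_
  · refine continuous_of_ker_le (ρ := ρ.comp res) (hρ.comp hres) r fun σ hσ => ?_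
    apply ProjectiveSpecialLinearGroup.toPGL_injective
    rw [hr, map_one, show ρ (res σ) = 1 from hσ, map_one]
  · intro y
    induction y using QuotientGroup.induction_on with
    | H g =>
      obtain ⟨σ, hσ⟩ := hs (SpecialLinearGroup.toGL g)
      have h1 : σ (i x) = i x := by
        rw [hfix, ← hdet, hσ]
        exact ⟨1, by rw [mul_one]; exact g.2⟩
      have h2 : ∀ y : K, σ (i y) = i y := by
        intro y
        have hy : y ∈ IntermediateField.adjoin ℚ {x} := by
          rw [hK]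
          trivial
        induction hy using IntermediateField.adjoin_induction with
        | mem z hz =>
          rw [Set.mem_singleton_iff.mp hz]
          exact h1
        | algebraMap z => rw [i.commutes, σ.commutes]
        | add a b _ _ ha hb => rw [map_add, map_add, ha, hb]
        | inv a _ ha => rw [map_inv₀, map_inv₀, ha]
        | mul a b _ _ ha hb => rw [map_mul, map_mul, ha, hb]
      refine ⟨{ σ with commutes' := h2 }, ?_⟩
      apply ProjectiveSpecialLinearGroup.toPGL_injective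
      rw [hr, ProjectiveSpecialLinearGroup.toPGL_mk, ← hσ]
      rfl

/-- **`PSL₂(𝔽_p)` is a Galois group over `ℚ(√p*)`**, `p* = (-1)^((p-1)/2) p`, for every odd
prime `p`. -/
theorem exists_galois_PSL2 (p : ℕ) [Fact p.Prime] (hp2 : p ≠ 2) (K : Type) [Field K]
    [NumberField K] (x : K) (hx : x ^ 2 = (-1) ^ ((p - 1) / 2) * (p : K))
    (hK : IntermediateField.adjoin ℚ {x} = ⊤) :
    ∃ (L : Type) (_ : Field L) (_ : Algebra K L) (_ : FiniteDimensional K L) (_ : IsGalois K L),
      Nonempty ((L ≃ₐ[K] L) ≃* ProjectiveSpecialLinearGroup (Fin 2) (ZMod p)) :=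
  exists_galois_PSL2_of hp2 (repP p W37_Δ_ne) (continuous_repP p W37_Δ_ne)
    (repP37_surjective_all p) (det_repP p W37_Δ_ne) K x hx hK

end Fermat.Agent.Cor
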