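import Fermat.Agent.Corollaries.InvGal.PSL

/-!
# The quadratic field `ℚ(√p*)`

* `finrank_of_sq_eq`: a number field generated by a square root of `p* = (-1)^((p-1)/2) p` is a
  quadratic field;
* `exists_quadratic_PSL2`: hence for every odd prime `p` there is a quadratic field over which
  `PSL₂(𝔽_p)` is a Galois group, namely `ℚ(√p*)`.
-/

set_option autoImplicit false

noncomputable section

namespace Fermat.Agent.Cor

open InvGal Matrix Polynomial

/-- `±p` is not a square in `ℚ`. -/
theorem sq_ne_pstar {p : ℕ} [hp : Fact p.Prime] (n : ℕ) (b : ℚ) : b ^ 2 ≠ (-1) ^ n * (p : ℚ) := by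
  intro h
  have hp0 : (p : ℚ) ≠ 0 := by exact_mod_cast hp.out.ne_zero
  have hb : b ≠ 0 := by
    rintro rfl
    have h1 : ((-1 : ℚ)) ^ n * (p : ℚ) ≠ 0 := mul_ne_zero (pow_ne_zero _ (by norm_num)) hp0
    apply h1
    rw [← h]
    norm_num
  have h1 := congrArg (padicValRat p) h
  rw [padicValRat.pow, padicValRat.mul (pow_ne_zero _ (by norm_num)) hp0,
    padicValRat.pow, padicValRat.self hp.out.one_lt] at h1
  have h2 : padicValRat p (-1) = 0 := by
    rw [padicValRat.neg, padicValRat.one]
  rw [h2] at h1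
  push_cast at h1
  omega

/-- The degree of `ℚ(√p*)`. -/
theorem finrank_of_sq_eq {p : ℕ} [hp : Fact p.Prime] {K : Type*} [Field K] [NumberField K] {x : K}
    (hx : x ^ 2 = (-1) ^ ((p - 1) / 2) * (p : K)) (hK : IntermediateField.adjoin ℚ {x} = ⊤) :
    Module.finrank ℚ K = 2 := by
  have hirr : Irreducible (X ^ 2 - C ((-1 : ℚ) ^ ((p - 1) / 2) * (p : ℚ))) :=
    X_pow_sub_C_irreducible_of_prime Nat.prime_two fun b => sq_ne_pstar _ b
  have hmin : X ^ 2 - C ((-1 : ℚ) ^ ((p - 1) / 2) * (p : ℚ)) = minpoly ℚ x := by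
    refine minpoly.eq_of_irreducible_of_monic hirr ?_ (monic_X_pow_sub_C _ two_ne_zero)
    simp [hx]
  have h1 := IntermediateField.adjoin.finrank (K := ℚ) (x := x) (Algebra.IsIntegral.isIntegral x)
  rw [← hmin, natDegree_X_pow_sub_C, hK, IntermediateField.finrank_top'] at h1
  exact h1

/-- There is a number field generated by a square root of `p*`. -/
theorem exists_field_sqrt (p : ℕ) [hp : Fact p.Prime] (hp2 : p ≠ 2) :
    ∃ (K : Type) (_ : Field K) (_ : NumberField K) (x : K),
      x ^ 2 = (-1) ^ ((p - 1) / 2) * (p : K) ∧ IntermediateField.adjoin ℚ {x} = ⊤ := by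
  obtain ⟨ζ, hζ⟩ := ECFrob.exists_primitiveRoot p
  let F : IntermediateField ℚ (AlgebraicClosure ℚ) :=
    IntermediateField.adjoin ℚ {qgauss hζ}
  have : FiniteDimensional ℚ F :=
    IntermediateField.adjoin.finiteDimensional (Algebra.IsIntegral.isIntegral _)
  have : NumberField F := NumberField.mk
  refine ⟨F, inferInstance, inferInstance,
    ⟨qgauss hζ, IntermediateField.mem_adjoin_simple_self ℚ _⟩, ?_, ?_⟩
  · apply Subtype.ext
    have h1 := qgauss_sq hζ hp2
    push_cast
    exact h1
  · rw [eq_top_iff]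
    rintro ⟨y, hy⟩ -
    induction hy using IntermediateField.adjoin_induction with
    | mem z hz =>
      obtain rfl := Set.mem_singleton_iff.mp hz
      exact IntermediateField.mem_adjoin_simple_self ℚ _
    | algebraMap q => exact IntermediateField.algebraMap_mem _ q
    | add a b _ _ ha hb => exact add_mem ha hb
    | inv a _ ha => exact inv_mem ha
    | mul a b _ _ ha hb => exact mul_mem ha hb

/-- **For every odd prime `p` the group `PSL₂(𝔽_p)` is a Galois group over a quadratic field**. -/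
theorem exists_quadratic_PSL2 (p : ℕ) [Fact p.Prime] (hp2 : p ≠ 2) :
    ∃ (K : Type) (_ : Field K) (_ : NumberField K), Module.finrank ℚ K = 2 ∧
      ∃ (L : Type) (_ : Field L) (_ : Algebra K L) (_ : FiniteDimensional K L) (_ : IsGalois K L),
        Nonempty ((L ≃ₐ[K] L) ≃* ProjectiveSpecialLinearGroup (Fin 2) (ZMod p)) := by
  obtain ⟨K, hK1, hK2, x, hx, hK⟩ := exists_field_sqrt p hp2
  exact ⟨K, hK1, hK2, finrank_of_sq_eq hx hK, exists_galois_PSL2 p hp2 K x hx hK⟩

end Fermat.Agent.Cor
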