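import Fermat.Agent.Corollaries.InvGal.Quot
import Fermat.Agent.Corollaries.InvGal.Main37

/-!
# `PGL₂(𝔽_p)` over `ℚ` and `SL₂(𝔽_p)` over `ℚ(ζ_p)`, for every prime `p`

From the surjectivity of the Galois action on the `p`-torsion of the curve `y² + y = x³ - x` of
conductor `37`.

* `exists_galois_PGL2`: the group `PGL₂(𝔽_p) = GL₂(𝔽_p) / center` (Mathlib's
  `Matrix.ProjGenLinGroup`) is the Galois group over `ℚ` of a number field, for every prime `p`;
* `exists_galois_SL2`: the group `SL₂(𝔽_p)` is the Galois group of a finite Galois extension of the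
  `p`-th cyclotomic field, for every prime `p`.
-/

set_option autoImplicit false

namespace Fermat.Agent.Cor

open Matrix InvGal Fermat.Agent.Classic

/-- **`PGL₂(𝔽_p)` is a Galois group over `ℚ`**, for every prime `p`. -/
theorem exists_galois_PGL2 (p : ℕ) [Fact p.Prime] :
    ∃ (L : Type) (_ : Field L) (_ : NumberField L) (_ : IsGalois ℚ L),
      Nonempty ((L ≃ₐ[ℚ] L) ≃* ProjGenLinGroup (Fin 2) (ZMod p)) :=
  exists_galois_PGL2_of (exists_galois_GL2 p)

/-- **`SL₂(𝔽_p)` is a Galois group over the `p`-th cyclotomic field**, for every prime `p`. -/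
theorem exists_galois_SL2 (p : ℕ) [Fact p.Prime] (K : Type) [Field K] [NumberField K]
    [IsCyclotomicExtension {p} ℚ K] :
    ∃ (L : Type) (_ : Field L) (_ : Algebra K L) (_ : FiniteDimensional K L) (_ : IsGalois K L),
      Nonempty ((L ≃ₐ[K] L) ≃* SpecialLinearGroup (Fin 2) (ZMod p)) :=
  exists_galois_SL2_of (repP p W37_Δ_ne) (continuous_repP p W37_Δ_ne) (repP37_surjective_all p)
    (det_repP p W37_Δ_ne) K

end Fermat.Agent.Cor
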