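import Fermat.Agent.Corollaries.Surj.Main
import Fermat.Agent.Corollaries.Mazur.Main
import Fermat.Agent.Corollaries.InvGal.DivField

/-!
# The fields `ℚ(E[p])` of semistable elliptic curves

`W` a semistable Weierstrass curve over `ℤ`, `p` an odd prime. `W[p]` is irreducible if and only if
`[ℚ(E[p]) : ℚ] = (p² - 1)(p² - p)` (`modRepIsIrreducible_iff_finrank`), and then
`Gal(ℚ(E[p])/ℚ) ≅ GL₂(𝔽_p)`. By Mazur's theorem this is always the case for `p = 11` and for
`p ≥ 17` (`exists_equiv_divField_of_prime`).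
-/

set_option autoImplicit false

noncomputable section

namespace Fermat.Agent.Cor

open WeierstrassCurve WeierstrassCurve.Affine WeierstrassCurve.Affine.Point
open Fermat.Agent.Classic
open Matrix

local notation "Qbar" => AlgebraicClosure ℚ
local notation "Γℚ" => (AlgebraicClosure ℚ ≃ₐ[ℚ] AlgebraicClosure ℚ)

variable {W : WeierstrassCurve ℤ} {p : ℕ} [hp : Fact p.Prime]

/-- `repP` is surjective iff `[ℚ(E[p]) : ℚ] = (p² - 1)(p² - p)` (any `W`, any prime `p`). -/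
theorem surjective_repP_iff_finrank (hΔ : W.Δ ≠ 0) : Function.Surjective (repP p hΔ) ↔
    Module.finrank ℚ (divField W p) = (p ^ 2 - 1) * (p ^ 2 - p) := by
  refine ⟨finrank_divField hΔ, fun h => ?_⟩
  rw [finrank_divField_eq_card_range hΔ] at h
  rw [← MonoidHom.range_eq_top]
  refine Subgroup.eq_top_of_card_eq _ ?_
  rw [h, Matrix.card_GL_field, Fin.prod_univ_two, ZMod.card]
  simp

/-- **`W` semistable, `p` odd, `W[p]` irreducible: `Gal(ℚ(E[p])/ℚ) ≅ GL₂(𝔽_p)`.** -/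
theorem exists_equiv_divField_of_semistable (hΔ : W.Δ ≠ 0) (hW : W.IsSemistableModel)
    (hp2 : p ≠ 2) (hirr : W.ModRepIsIrreducible p) :
    ∃ e : (divField W p ≃ₐ[ℚ] divField W p) ≃* GL (Fin 2) (ZMod p),
      ∀ (σ : Γℚ) (τ : divField W p ≃ₐ[ℚ] divField W p), (∀ x, ((τ x : divField W p) : Qbar) = σ x) →
        e τ = repP p hΔ σ :=
  exists_equiv_divField hΔ (repP_surjective hΔ hW hp2 hirr)

/-- **`W` semistable, `p` odd: `W[p]` is irreducible iff `[ℚ(E[p]) : ℚ] = (p² - 1)(p² - p)`.** -/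
theorem modRepIsIrreducible_iff_finrank (hΔ : W.Δ ≠ 0) (hW : W.IsSemistableModel) (hp2 : p ≠ 2) :
    W.ModRepIsIrreducible p ↔
      Module.finrank ℚ (divField W p) = (p ^ 2 - 1) * (p ^ 2 - p) := by
  rw [modRepIsIrreducible_iff_surjective hΔ hW hp2, surjective_repP_iff_finrank]

/-- **`p = 11` or `p ≥ 17`: `Gal(ℚ(E[p])/ℚ) ≅ GL₂(𝔽_p)` for every semistable elliptic curve**
(Mazur, Serre). -/
theorem exists_equiv_divField_of_prime (hΔ : W.Δ ≠ 0) (hW : W.IsSemistableModel)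
    (h : p = 11 ∨ 17 ≤ p) :
    ∃ e : (divField W p ≃ₐ[ℚ] divField W p) ≃* GL (Fin 2) (ZMod p),
      ∀ (σ : Γℚ) (τ : divField W p ≃ₐ[ℚ] divField W p), (∀ x, ((τ x : divField W p) : Qbar) = σ x) →
        e τ = repP p hΔ σ :=
  exists_equiv_divField_of_semistable hΔ hW (by omega) (modRepIsIrreducible hp.out h hΔ hW)

/-- **`p = 11` or `p ≥ 17`: `[ℚ(E[p]) : ℚ] = (p² - 1)(p² - p)` for every semistable elliptic
curve.** -/
theorem finrank_divField_of_prime (hΔ : W.Δ ≠ 0) (hW : W.IsSemistableModel)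
    (h : p = 11 ∨ 17 ≤ p) :
    Module.finrank ℚ (divField W p) = (p ^ 2 - 1) * (p ^ 2 - p) :=
  (modRepIsIrreducible_iff_finrank hΔ hW (by omega)).mp (modRepIsIrreducible hp.out h hΔ hW)

end Fermat.Agent.Cor
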